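import Fermat.Agent.LT.Recip.Basic
import Mathlib.RingTheory.Invariant.Galois
import Fermat.Agent.S14.Cross.Mass

/-!
# Classes of the degree one primes with trivial symbol

`splitClasses χ` is generated by the classes of the degree one primes of `K` under a good prime of
`F` at which `χ` has trivial symbol. The second inequality: its index is at most `#range χ`.
-/

set_option autoImplicit false
set_option linter.unusedSectionVars false

noncomputable section

namespace Fermat.Agent.LT.Recip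

open NumberField IsDedekindDomain Fermat.Agent.S14 Fermat.Agent.S14.Cross
open scoped Pointwise

variable {K F : Type} [Field K] [NumberField K] [Field F] [NumberField F] [Algebra K F]
  [IsGalois K F] [IsGalois ℚ F] {A : Type} [CommGroup A]

variable (K F) in
/-- `Gal(F/K)` inside `Gal(F/ℚ)`. -/
def relGroup : Subgroup Gal(F/ℚ) := (resHom ℚ (K' := K) (F := F)).range

lemma resHom_injective : Function.Injective (resHom ℚ (K' := K) (F := F)) := fun _ _ h =>
  AlgEquiv.ext fun x => (AlgEquiv.congr_fun h x :)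

lemma card_map_resHom (U : Subgroup Gal(F/K)) :
    Nat.card (U.map (resHom ℚ (K' := K) (F := F))) = Nat.card U :=
  Subgroup.card_map_of_injective resHom_injective

lemma card_relGroup : Nat.card (relGroup K F) = Nat.card Gal(F/K) := by
  rw [relGroup, MonoidHom.range_eq_map, card_map_resHom, Subgroup.card_top]

lemma fieldRange_eq_fixedField :
    (IsScalarTower.toAlgHom ℚ K F).fieldRange = IntermediateField.fixedField (relGroup K F) := by
  ext x
  rw [IntermediateField.mem_fixedField_iff, AlgHom.mem_fieldRange]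
  refine (IsGalois.mem_range_algebraMap_iff_fixed (F := K) x).trans ⟨?_, fun h σ => ?_⟩
  · rintro h _ ⟨σ, rfl⟩
    exact h σ
  · exact h _ ⟨σ, rfl⟩

variable (K F) in
/-- `K` as a fixed field of `F`. -/
def fieldEquiv : K ≃+* IntermediateField.fixedField (relGroup K F) :=
  ((AlgEquiv.ofInjectiveField (IsScalarTower.toAlgHom ℚ K F)).trans
    (IntermediateField.equivOfEq fieldRange_eq_fixedField)).toRingEquiv

variable (K F) in
/-- Primes of `K` are primes of the fixed field. -/
def primeEquiv :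
    HeightOneSpectrum (𝓞 K) ≃ HeightOneSpectrum (𝓞 (IntermediateField.fixedField (relGroup K F))) :=
  HeightOneSpectrum.equivOfRingEquiv (RingOfIntegers.mapRingEquiv (fieldEquiv K F))

/-- The prime of `K` below a prime of `F`. -/
abbrev underP (K : Type) {F : Type} [Field K] [NumberField K] [Field F] [NumberField F]
    [Algebra K F] (Q : HeightOneSpectrum (𝓞 F)) : HeightOneSpectrum (𝓞 K) :=
  HeightOneSpectrum.under _ Q

lemma primeEquiv_underP (Q : HeightOneSpectrum (𝓞 F)) :
    primeEquiv K F (underP K Q) = fixedUnder (relGroup K F) Q := by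
  refine HeightOneSpectrum.ext (Ideal.ext fun x => ?_)
  obtain ⟨y, rfl⟩ := (RingOfIntegers.mapRingEquiv (fieldEquiv K F)).surjective x
  show (RingOfIntegers.mapRingEquiv (fieldEquiv K F)).symm _ ∈ (underP K Q).asIdeal ↔ _
  rw [RingEquiv.symm_apply_apply]
  rfl

lemma absNorm_primeEquiv (P : HeightOneSpectrum (𝓞 K)) :
    Ideal.absNorm (primeEquiv K F P).asIdeal = Ideal.absNorm P.asIdeal := by
  rw [Ideal.absNorm_apply, Submodule.cardQuot_apply, Ideal.absNorm_apply, Submodule.cardQuot_apply]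
  refine (Nat.card_congr (Ideal.quotientEquiv _ _
    (RingOfIntegers.mapRingEquiv (fieldEquiv K F)) ?_).toEquiv).symm
  show Ideal.comap (RingOfIntegers.mapRingEquiv (fieldEquiv K F)).symm _ = _
  exact (Ideal.map_comap_of_equiv (RingOfIntegers.mapRingEquiv (fieldEquiv K F))).symm

lemma primeSum_primeEquiv (X : Set (HeightOneSpectrum (𝓞 K))) (s : ℝ) :
    primeSum (primeEquiv K F '' X) s = primeSum X s := by
  rw [primeSum, primeSum, ← (primeEquiv K F).tsum_eq]
  refine tsum_congr fun P => ?_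
  have hiff : primeEquiv K F P ∈ primeEquiv K F '' X ↔ P ∈ X :=
    (primeEquiv K F).injective.mem_set_image
  by_cases h : P ∈ X
  · rw [Set.indicator_of_mem (hiff.mpr h), Set.indicator_of_mem h, primeNorm, primeNorm,
      absNorm_primeEquiv]
  · rw [Set.indicator_of_notMem (mt hiff.mp h), Set.indicator_of_notMem h]

/-- The transfer of prime sums. -/
theorem exists_abs_frobMass_sub_le_rel :
    ∃ C : ℝ, ∀ (X : Set (HeightOneSpectrum (𝓞 K))) (s : ℝ), 1 < s → s ≤ 2 →
      |frobMass {Q : HeightOneSpectrum (𝓞 F) | frob Q ∈ relGroup K F ∧ underP K Q ∈ X} s -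
        (Nat.card Gal(F/K) : ℝ) * primeSum X s| ≤ C := by
  obtain ⟨C, hC⟩ := exists_abs_frobMass_sub_le (relGroup K F)
  refine ⟨C, fun X s h1 h2 => ?_⟩
  have h := hC (primeEquiv K F '' X) s h1 h2
  simpa only [card_relGroup, primeSum_primeEquiv, ← primeEquiv_underP,
    (primeEquiv K F).injective.mem_set_image] using h

/-! ### Good primes -/

/-- Some good prime lies over `P`. -/
def GoodBelow (F : Type) [Field F] [NumberField F] [Algebra K F] (P : Ideal (𝓞 K)) : Prop :=
  ∃ Q : HeightOneSpectrum (𝓞 F), IsGood Q ∧ Q.asIdeal.under (𝓞 K) = P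

lemma inertia_eq_bot_of_goodBelow {P : Ideal (𝓞 K)} (h : GoodBelow F P) {Q : Ideal (𝓞 F)}
    (hQ : Q.IsMaximal) (hQP : Q.under (𝓞 K) = P) {σ : Gal(F/K)}
    (hσ : σ ∈ Q.inertia Gal(F/K)) : σ = 1 := by
  obtain ⟨Q₀, hgood, hQ₀⟩ := h
  obtain ⟨g, hg⟩ := Algebra.IsInvariant.exists_smul_of_under_eq (𝓞 K) (𝓞 F) Gal(F/K) Q₀.asIdeal Q
    (hQ₀.trans hQP.symm)
  have hgood' := isGood_conjPrime (resHom ℚ g) hgood
  have hmem : resHom ℚ σ ∈ (conjPrime (resHom ℚ g) Q₀).asIdeal.inertia Gal(F/ℚ) := fun x => by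
    show σ • x - x ∈ g • Q₀.asIdeal
    exact hg ▸ hσ x
  rw [show (conjPrime (resHom ℚ g) Q₀).asIdeal.inertia Gal(F/ℚ) = ⊥ from hgood',
    Subgroup.mem_bot, ← map_one (resHom ℚ (K' := K) (F := F))] at hmem
  exact resHom_injective hmem

lemma unrAt_of_goodBelow (χ : Gal(F/K) →* A) {P : Ideal (𝓞 K)} (h : GoodBelow F P) :
    UnrAt χ P := fun _ hQ hQP σ hσ => by rw [inertia_eq_bot_of_goodBelow h hQ hQP hσ, map_one]

lemma prime_absNorm_underP {Q : HeightOneSpectrum (𝓞 F)} (hQ : IsGood Q)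
    (h : frob Q ∈ relGroup K F) : (Ideal.absNorm (underP K Q).asIdeal).Prime ∧
      Ideal.absNorm (underP K Q).asIdeal = residueChar Q := by
  rw [← absNorm_primeEquiv (F := F), primeEquiv_underP, absNorm_fixedUnder hQ h]
  exact ⟨residueChar_prime Q, rfl⟩

lemma symb_underP (χ : Gal(F/K) →* A) {Q : HeightOneSpectrum (𝓞 F)} (hQ : IsGood Q)
    {σ : Gal(F/K)} (hσ : resHom ℚ σ = frob Q) : symb χ (underP K Q).asIdeal = χ σ := by
  refine symb_eq (unrAt_of_goodBelow χ ⟨Q, hQ, rfl⟩) Q.isMaximal rfl fun x => ?_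
  have h := isArithFrobAt_frob Q x
  have hmem : frob Q ∈ relGroup K F := ⟨σ, hσ⟩
  rw [← hσ, card_quotient_under_int, ← (prime_absNorm_underP hQ hmem).2,
    Ideal.absNorm_apply, Submodule.cardQuot_apply] at h
  exact h

/-- Degree one primes under good primes with trivial symbol. -/
def splitSet (χ : Gal(F/K) →* A) : Set (HeightOneSpectrum (𝓞 K)) :=
  {P | GoodBelow F P.asIdeal ∧ (Ideal.absNorm P.asIdeal).Prime ∧ symb χ P.asIdeal = 1}

/-- The subgroup generated by the classes of `splitSet χ`. -/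
def splitClasses (χ : Gal(F/K) →* A) : Subgroup (ClassGroup (𝓞 K)) :=
  Subgroup.closure ((fun P => ClassGroup.mk0 (primeIdeal P)) '' splitSet χ)

/-- The second inequality. -/
theorem index_splitClasses_le (χ : Gal(F/K) →* A) :
    (splitClasses χ).index ≤ Nat.card χ.range := by
  classical
  set N := splitClasses χ
  obtain ⟨C₁, h₁⟩ := exists_primeSum_ker_le (QuotientGroup.mk' N)
  have hrange : Nat.card (QuotientGroup.mk' N).range = N.index := by
    rw [MonoidHom.range_eq_top.mpr (QuotientGroup.mk'_surjective N), Subgroup.card_top,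
      Subgroup.index]
  simp only [hrange] at h₁
  set X : Set (HeightOneSpectrum (𝓞 K)) :=
    {P | QuotientGroup.mk' N (ClassGroup.mk0 (primeIdeal P)) = 1}
  obtain ⟨C₂, h₂⟩ := exists_abs_frobMass_sub_le_rel (K := K) (F := F)
  obtain ⟨C₃, h₃⟩ := exists_le_frobMass ((χ.ker).map (resHom ℚ))
    {Q : HeightOneSpectrum (𝓞 F) | frob Q ∈ relGroup K F ∧ underP K Q ∈ X} (by
      rintro Q hQ ⟨σ, hσ, hσQ⟩
      refine ⟨⟨σ, hσQ⟩, (QuotientGroup.eq_one_iff _).mpr (Subgroup.subset_closure
        ⟨_, ⟨⟨Q, hQ, rfl⟩, (prime_absNorm_underP hQ ⟨σ, hσQ⟩).1, ?_⟩, rfl⟩)⟩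
      rw [symb_underP χ hQ hσQ]
      exact hσ)
  have hcoeff : (N.index : ℝ) * Nat.card χ.ker ≤ Nat.card Gal(F/K) :=
    coeff_le_of_log (C := Nat.card Gal(F/K) * C₁ + N.index * C₂ + N.index * C₃)
      fun s hs1 hs2 => by
      have e1 := h₁ s hs1 hs2
      have e2 := (abs_le.mp (h₂ X s hs1 hs2)).2
      have e3 := h₃ s hs1 hs2
      rw [card_map_resHom] at e3
      have hi : (0 : ℝ) ≤ N.index := Nat.cast_nonneg _
      have hG : (0 : ℝ) ≤ Nat.card Gal(F/K) := Nat.cast_nonneg _
      nlinarith [mul_le_mul_of_nonneg_left e3 hi, mul_le_mul_of_nonneg_left e2 hi,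
        mul_le_mul_of_nonneg_left e1 hG]
  have hnat : N.index * Nat.card χ.ker ≤ Nat.card Gal(F/K) := by exact_mod_cast hcoeff
  rw [← Subgroup.card_mul_index χ.ker, Subgroup.index_ker, mul_comm (Nat.card χ.ker)] at hnat
  exact Nat.le_of_mul_le_mul_right hnat Nat.card_pos

/-- Every value of `χ` is generated by symbols of degree one primes under good primes. -/
theorem closure_symb_eq_range (χ : Gal(F/K) →* A) :
    Subgroup.closure ((fun P : HeightOneSpectrum (𝓞 K) => symb χ P.asIdeal) ''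
      {P | GoodBelow F P.asIdeal ∧ (Ideal.absNorm P.asIdeal).Prime}) = χ.range := by
  classical
  refine le_antisymm ((Subgroup.closure_le _).mpr ?_) fun a ha => ?_
  · rintro _ ⟨P, -, rfl⟩
    show symb χ P.asIdeal ∈ χ.range
    rw [symb]
    split_ifs with h
    exacts [⟨_, rfl⟩, one_mem _]
  obtain ⟨σ, rfl⟩ := ha
  by_contra hσ
  set S := Subgroup.closure ((fun P : HeightOneSpectrum (𝓞 K) => symb χ P.asIdeal) ''
      {P | GoodBelow F P.asIdeal ∧ (Ideal.absNorm P.asIdeal).Prime})
  have hlt : S.comap χ < ⊤ := lt_top_iff_ne_top.mpr fun h => hσ (by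
    have : σ ∈ S.comap χ := h ▸ Subgroup.mem_top σ
    exact this)
  have hcard : Nat.card ((S.comap χ).map (resHom ℚ (K' := K) (F := F))) <
      Nat.card (relGroup K F) := by
    rw [card_map_resHom, card_relGroup, ← Subgroup.card_top (G := Gal(F/K))]
    exact Nat.lt_of_le_of_ne (Subgroup.card_le_card_group _ |>.trans_eq Subgroup.card_top.symm)
      fun h => hlt.ne (Subgroup.eq_top_of_card_eq _ (h.trans Subgroup.card_top))
  obtain ⟨Q, hQ, hQH, hQH'⟩ := exists_frob_mem_not_mem hcard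
  obtain ⟨τ, hτ⟩ := hQH
  refine hQH' ⟨τ, ?_, hτ⟩
  show χ τ ∈ S
  rw [← symb_underP χ hQ hτ]
  exact Subgroup.subset_closure
    ⟨_, ⟨⟨Q, hQ, rfl⟩, (prime_absNorm_underP hQ ⟨τ, hτ⟩).1⟩, rfl⟩

end Fermat.Agent.LT.Recip
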