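import Fermat.Agent.LT.Recip.Tame
import Fermat.Agent.LT.Recip.SplitClasses
import Fermat.Agent.LT.Adelic.IdeleClasses
import Mathlib.RingTheory.DedekindDomain.FiniteAdeleRing
import Mathlib.NumberTheory.NumberField.Completion.FinitePlace

/-!
# The idele character of an abelian Galois character of order dividing four

`K` totally complex, `χ : Gal(F/K) →* A` cyclic of order dividing four, unramified outside a finite
set `S` of places of odd residue characteristic (so tame there). The character is the symbol of the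
ideal of `x a`, for any principal `x` making the idele `≡ 1` at `S`.
-/

set_option autoImplicit false
set_option linter.unusedSectionVars false

noncomputable section

namespace Fermat.Agent.LT.Recip

open NumberField IsDedekindDomain IsDedekindDomain.HeightOneSpectrum UniqueFactorizationMonoid
open Fermat.Agent.LT.Adelic Fermat.Agent.S14.Cross WithZero
open scoped nonZeroDivisors

variable {K F : Type} [Field K] [NumberField K] [Field F] [NumberField F] [Algebra K F]
  [IsGalois K F] [IsGalois ℚ F] {A : Type} [CommGroup A]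

lemma symb_mem_range (χ : Gal(F/K) →* A) (P : Ideal (𝓞 K)) : symb χ P ∈ χ.range := by
  rw [symb]
  split_ifs with h
  exacts [⟨_, rfl⟩, one_mem _]

/-- The product of symbols with integer exponents. -/
def symbPow (χ : Gal(F/K) →* A) (e : HeightOneSpectrum (𝓞 K) → ℤ) : A :=
  ∏ᶠ v : HeightOneSpectrum (𝓞 K), symb χ v.asIdeal ^ e v

lemma symbPow_zero (χ : Gal(F/K) →* A) {e : HeightOneSpectrum (𝓞 K) → ℤ} (h : ∀ v, e v = 0) :
    symbPow χ e = 1 :=
  finprod_eq_one_of_forall_eq_one fun v => by rw [h, zpow_zero]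

lemma symbPow_single (χ : Gal(F/K) →* A) {e : HeightOneSpectrum (𝓞 K) → ℤ}
    {v : HeightOneSpectrum (𝓞 K)} (h1 : e v = 1) (h0 : ∀ w ≠ v, e w = 0) :
    symbPow χ e = symb χ v.asIdeal := by
  rw [symbPow, finprod_eq_single _ v fun w hw => by rw [h0 w hw, zpow_zero], h1, zpow_one]

lemma symbPow_add (χ : Gal(F/K) →* A) {e e' : HeightOneSpectrum (𝓞 K) → ℤ}
    (he : ∀ᶠ v in Filter.cofinite, e v = 0) (he' : ∀ᶠ v in Filter.cofinite, e' v = 0) :
    symbPow χ (fun v => e v + e' v) = symbPow χ e * symbPow χ e' := by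
  have hfin : ∀ f : HeightOneSpectrum (𝓞 K) → ℤ, (∀ᶠ v in Filter.cofinite, f v = 0) →
      (Function.mulSupport fun v => symb χ v.asIdeal ^ f v).Finite := fun f hf =>
    (Filter.eventually_cofinite.mp hf).subset fun v hv h0 => hv (by
      show symb χ v.asIdeal ^ f v = 1
      rw [h0, zpow_zero])
  rw [symbPow, symbPow, symbPow, ← finprod_mul_distrib (hfin e he) (hfin e' he')]
  exact finprod_congr fun v => zpow_add _ _ _

/-- The symbol of an ideal in terms of multiplicities. -/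
lemma idealSymb_eq_symbPow (χ : Gal(F/K) →* A) {I : Ideal (𝓞 K)} (hI : I ≠ 0) :
    idealSymb χ I =
      symbPow χ fun v => FractionalIdeal.count K v (I : FractionalIdeal (𝓞 K)⁰ K) := by
  induction I using UniqueFactorizationMonoid.induction_on_prime with
  | h₁ => exact absurd rfl hI
  | h₂ I hu =>
    rw [Ideal.isUnit_iff.mp hu, ← Ideal.one_eq_top, idealSymb_one, symbPow_zero χ fun v => ?_]
    rw [Ideal.one_eq_top, FractionalIdeal.coeIdeal_top, FractionalIdeal.count_one]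
  | h₃ J P hJ0 hP ih =>
    have hP0 : P ≠ 0 := hP.ne_zero
    have : P.IsPrime := Ideal.isPrime_of_prime hP
    set v : HeightOneSpectrum (𝓞 K) := ⟨P, this, hP0⟩
    have hcP : symbPow χ (fun w => FractionalIdeal.count K w (P : FractionalIdeal (𝓞 K)⁰ K)) =
        symb χ P := symbPow_single χ (v := v) (FractionalIdeal.count_self K v)
      fun w hw => FractionalIdeal.count_maximal_coprime K w hw.symm
    rw [idealSymb_mul χ hP0 hJ0, idealSymb_prime χ hP0, ih hJ0, ← hcP,
      ← symbPow_add χ (FractionalIdeal.finite_factors _) (FractionalIdeal.finite_factors _)]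
    refine congrArg (symbPow χ) (funext fun w => ?_)
    rw [FractionalIdeal.coeIdeal_mul, FractionalIdeal.count_mul K w
      (FractionalIdeal.coeIdeal_ne_zero.mpr hP0) (FractionalIdeal.coeIdeal_ne_zero.mpr hJ0)]

/-- The symbol of the ideal of an idele. -/
def ideleSymb (χ : Gal(F/K) →* A) (a : (FiniteAdeleRing (𝓞 K) K)ˣ) : A :=
  symbPow χ (ordAt a)

lemma ideleSymb_mem_range (χ : Gal(F/K) →* A) (a : (FiniteAdeleRing (𝓞 K) K)ˣ) :
    ideleSymb χ a ∈ χ.range :=
  finprod_induction (· ∈ χ.range) (one_mem _) (fun _ _ => mul_mem)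
    fun _ => zpow_mem (symb_mem_range χ _) _

lemma ideleSymb_mul (χ : Gal(F/K) →* A) (a b : (FiniteAdeleRing (𝓞 K) K)ˣ) :
    ideleSymb χ (a * b) = ideleSymb χ a * ideleSymb χ b := by
  rw [ideleSymb, ideleSymb, ideleSymb,
    ← symbPow_add χ (ordAt_eventually_zero a) (ordAt_eventually_zero b)]
  exact congrArg (symbPow χ) (funext (ordAt_mul a b))

lemma ideleSymb_one (χ : Gal(F/K) →* A) : ideleSymb χ (1 : (FiniteAdeleRing (𝓞 K) K)ˣ) = 1 :=
  symbPow_zero χ fun v => by rw [ordAt, Units.val_one, coe_apply_one, map_one, log_one, neg_zero]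

lemma ideleSymb_principal_int (χ : Gal(F/K) →* A) {k : Kˣ} {r : 𝓞 K} (hr : r ≠ 0)
    (hk : (k : K) = algebraMap (𝓞 K) K r) :
    ideleSymb χ (principalIdele k) = idealSymb χ (Ideal.span {r}) := by
  rw [idealSymb_eq_symbPow χ (by simpa using hr), ideleSymb]
  refine congrArg (symbPow χ) (funext fun v => ?_)
  rw [ordAt_principalIdele, hk, FractionalIdeal.coeIdeal_span_singleton]

/-- Congruent to one at every place of `S`. -/
def OneAt (S : Finset (HeightOneSpectrum (𝓞 K))) (a : (FiniteAdeleRing (𝓞 K) K)ˣ) : Prop :=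
  ∀ v ∈ S, Valued.v ((a : FiniteAdeleRing (𝓞 K) K) v - 1) < 1

variable {S : Finset (HeightOneSpectrum (𝓞 K))}

lemma OneAt.valued_eq {a : (FiniteAdeleRing (𝓞 K) K)ˣ} (h : OneAt S a)
    {v : HeightOneSpectrum (𝓞 K)} (hv : v ∈ S) :
    Valued.v ((a : FiniteAdeleRing (𝓞 K) K) v) = 1 := by
  have h1 : Valued.v ((a : FiniteAdeleRing (𝓞 K) K) v - 1) <
      Valued.v (1 : v.adicCompletion K) := by rw [map_one]; exact h v hv
  have h2 := Valuation.map_add_eq_of_lt_left _ h1
  rwa [add_sub_cancel, map_one] at h2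

lemma OneAt.mul {a b : (FiniteAdeleRing (𝓞 K) K)ˣ} (ha : OneAt S a) (hb : OneAt S b) :
    OneAt S (a * b) := fun v hv => by
  rw [Units.val_mul, coe_apply_mul,
    show ∀ x y : v.adicCompletion K, x * y - 1 = x * (y - 1) + (x - 1) from fun x y => by ring]
  refine lt_of_le_of_lt (Valuation.map_add _ _ _) (max_lt ?_ (ha v hv))
  rw [map_mul, ha.valued_eq hv, one_mul]
  exact hb v hv

lemma OneAt.div {k a : (FiniteAdeleRing (𝓞 K) K)ˣ} (hka : OneAt S (k * a)) (ha : OneAt S a) :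
    OneAt S k := fun v hv => by
  have e := hka v hv
  rw [Units.val_mul, coe_apply_mul] at e
  set x := (k : FiniteAdeleRing (𝓞 K) K) v
  set y := (a : FiniteAdeleRing (𝓞 K) K) v
  have h : Valued.v ((x - 1) * y) < 1 := by
    rw [show (x - 1) * y = (x * y - 1) - (y - 1) by ring]
    exact lt_of_le_of_lt (Valuation.map_sub _ _ _) (max_lt e (ha v hv))
  rwa [map_mul, ha.valued_eq hv, mul_one] at h

/-- Weak approximation: a principal idele moves any idele to one at `S`. -/
lemma exists_oneAt_mul (S : Finset (HeightOneSpectrum (𝓞 K)))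
    (a : (FiniteAdeleRing (𝓞 K) K)ˣ) : ∃ x : Kˣ, OneAt S (principalIdele x * a) := by
  classical
  rcases S.eq_empty_or_nonempty with rfl | ⟨v₀, hv₀⟩
  · exact ⟨1, fun v hv => absurd hv (Finset.notMem_empty v)⟩
  obtain ⟨E, hE⟩ : ∃ E : ℕ, ∀ v ∈ S, -ordAt a v < E :=
    ⟨S.sup (fun v => (-ordAt a v).toNat) + 1, fun v hv => by
      have := Finset.le_sup (f := fun v => (-ordAt a v).toNat) hv
      omega⟩
  have hpi : ∀ v : HeightOneSpectrum (𝓞 K), ∃ π : 𝓞 K, π ∈ v.asIdeal ∧ π ≠ 0 := fun v => by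
    obtain ⟨π, hπ, hπ0⟩ := Submodule.exists_mem_ne_zero_of_ne_bot v.ne_bot
    exact ⟨π, hπ, hπ0⟩
  choose π hπ hπ0 using hpi
  have hn : (∏ v ∈ S, π v) ^ E ≠ 0 := pow_ne_zero _ (Finset.prod_ne_zero_iff.mpr fun v _ => hπ0 v)
  obtain ⟨x, hx⟩ := exists_memMul_sub ((a⁻¹ : (FiniteAdeleRing (𝓞 K) K)ˣ) :
    FiniteAdeleRing (𝓞 K) K) hn
  have key : ∀ v ∈ S, Valued.v ((algebraMap K (FiniteAdeleRing (𝓞 K) K) x) v *
      (a : FiniteAdeleRing (𝓞 K) K) v - 1) < 1 := by
    intro v hv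
    set y := (a : FiniteAdeleRing (𝓞 K) K) v
    set z := ((a⁻¹ : (FiniteAdeleRing (𝓞 K) K)ˣ) : FiniteAdeleRing (𝓞 K) K) v
    set w := (algebraMap K (FiniteAdeleRing (𝓞 K) K) x) v
    have hzy : z * y = 1 := by
      have := congrArg (fun b : FiniteAdeleRing (𝓞 K) K => b v) a.inv_mul
      simpa only [coe_apply_mul, coe_apply_one] using this
    have h1 : Valued.v (z - w) ≤ v.intValuation ((∏ u ∈ S, π u) ^ E) := by
      have := hx v
      rwa [coe_apply_sub] at this
    have h2 : v.intValuation ((∏ u ∈ S, π u) ^ E) ≤ exp (-(E : ℤ)) := by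
      rw [intValuation_le_pow_iff_mem]
      exact Ideal.pow_mem_pow (Ideal.prod_mem _ hv (hπ v)) E
    rw [show w * y - 1 = -((z - w) * y) by rw [sub_mul, hzy]; ring, Valuation.map_neg, map_mul,
      valued_eq_exp_ordAt a v]
    refine lt_of_le_of_lt (mul_le_mul' (h1.trans h2) le_rfl) ?_
    rw [← exp_add, ← exp_zero, exp_lt_exp]
    have := hE v hv
    omega
  have hx0 : x ≠ 0 := by
    rintro rfl
    have := key v₀ hv₀
    rw [map_zero, coe_apply_zero, zero_mul, zero_sub, Valuation.map_neg, map_one] at this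
    exact lt_irrefl _ this
  refine ⟨Units.mk0 x hx0, fun v hv => ?_⟩
  rw [Units.val_mul, coe_apply_mul]
  exact key v hv

/-- A denominator which is congruent to one at `S`. -/
lemma exists_den_oneAt (k : K) (hk : ∀ v ∈ S, v.valuation K k ≤ 1) :
    ∃ s r : 𝓞 K, s ≠ 0 ∧ (∀ v ∈ S, s - 1 ∈ v.asIdeal) ∧
      algebraMap (𝓞 K) K r = algebraMap (𝓞 K) K s * k := by
  classical
  have hfin := HeightOneSpectrum.Support.finite (𝓞 K) k
  set P := hfin.toFinset
  have hdisj : ∀ v ∈ S, v ∉ P := fun v hv hP => not_lt.mpr (hk v hv) (hfin.mem_toFinset.mp hP)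
  set e : HeightOneSpectrum (𝓞 K) → ℕ := fun v =>
    if v ∈ S then 1 else (log (v.valuation K k)).toNat + 1
  obtain ⟨s, hs⟩ := exists_forall_sub_mem_ideal (s := S ∪ P) (fun v => v.asIdeal) e
    (fun v _ => v.prime) (fun v _ w _ hvw h => hvw (HeightOneSpectrum.ext h))
    (fun v : {v // v ∈ S ∪ P} => if v.1 ∈ S then 1 else 0)
  have h1 : ∀ v ∈ S, s - 1 ∈ v.asIdeal := fun v hv => by
    have := hs v (Finset.mem_union_left _ hv)
    simpa [e, hv] using this
  have hP : ∀ v ∈ P, s ∈ v.asIdeal ^ ((log (v.valuation K k)).toNat + 1) := fun v hv => by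
    have hvS : v ∉ S := fun h => hdisj v h hv
    have := hs v (Finset.mem_union_right _ hv)
    simpa [e, hvS] using this
  obtain ⟨s', hs'0, hs'1, hs'P⟩ : ∃ s' : 𝓞 K, s' ≠ 0 ∧ (∀ v ∈ S, s' - 1 ∈ v.asIdeal) ∧
      ∀ v ∈ P, s' ∈ v.asIdeal ^ ((log (v.valuation K k)).toNat + 1) := by
    by_cases hs0 : s = 0
    · have hS : S = ∅ := by
        by_contra hne
        obtain ⟨v, hv⟩ := Finset.nonempty_of_ne_empty hne
        have := h1 v hv
        rw [hs0, zero_sub, Ideal.neg_mem_iff] at this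
        exact v.isPrime.ne_top ((Ideal.eq_top_iff_one _).mpr this)
      have hpi : ∀ v : HeightOneSpectrum (𝓞 K), ∃ π : 𝓞 K,
          π ∈ v.asIdeal ^ ((log (v.valuation K k)).toNat + 1) ∧ π ≠ 0 := fun v => by
        obtain ⟨π, hπ, hπ0⟩ := Submodule.exists_mem_ne_zero_of_ne_bot
          (pow_ne_zero ((log (v.valuation K k)).toNat + 1) v.ne_bot)
        exact ⟨π, hπ, hπ0⟩
      choose π hπ hπ0 using hpi
      exact ⟨∏ v ∈ P, π v, Finset.prod_ne_zero_iff.mpr fun v _ => hπ0 v,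
        fun v hv => absurd hv (by simp [hS]), fun v hv => Ideal.prod_mem _ hv (hπ v)⟩
    · exact ⟨s, hs0, h1, hP⟩
  have hint : ∀ v : HeightOneSpectrum (𝓞 K),
      v.valuation K (algebraMap (𝓞 K) K s' * k) ≤ 1 := by
    intro v
    rw [map_mul, valuation_of_algebraMap]
    by_cases hv : v ∈ P
    · have hlt : 1 < v.valuation K k := hfin.mem_toFinset.mp hv
      have hne : v.valuation K k ≠ 0 := (zero_lt_one.trans hlt).ne'
      refine (mul_le_mul' ((intValuation_le_pow_iff_mem v _ _).mpr (hs'P v hv))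
        (exp_log hne).ge).trans ?_
      rw [← exp_add, ← exp_zero, exp_le_exp]
      omega
    · exact mul_le_one' (intValuation_le_one _ _)
        (not_lt.mp fun h => hv (hfin.mem_toFinset.mpr h))
  obtain ⟨r, hr⟩ := HeightOneSpectrum.mem_integers_of_valuation_le_one K _ hint
  exact ⟨s', r, hs'0, hs'1, hr⟩

section

variable [IsTotallyComplex K] {χ : Gal(F/K) →* A} (h4 : ∀ σ, χ σ ^ 4 = 1) [IsCyclic χ.range]
  (hS : ∀ P ∈ S, (2 : 𝓞 K) ∉ P.asIdeal)
  (hunr : ∀ P : HeightOneSpectrum (𝓞 K), P ∉ S → UnrAt χ P.asIdeal)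

include h4 hS hunr

/-- Reciprocity on principal ideles congruent to one at `S`. -/
lemma ideleSymb_principal_eq_one {k : Kˣ} (hk : OneAt S (principalIdele k)) :
    ideleSymb χ (principalIdele k) = 1 := by
  have hval : ∀ v ∈ S, v.valuation K ((k : K) - 1) < 1 := fun v hv => by
    rw [← valued_algebraMap ((k : K) - 1) v, map_sub, map_one, coe_apply_sub, coe_apply_one]
    exact hk v hv
  have hk1 : ∀ v ∈ S, v.valuation K (k : K) ≤ 1 := fun v hv => by
    rw [← add_sub_cancel (1 : K) (k : K)]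
    exact (Valuation.map_add _ _ _).trans (max_le (map_one _).le (hval v hv).le)
  obtain ⟨s, r, hs0, hs1, hr⟩ := exists_den_oneAt (k : K) hk1
  have hinj := IsFractionRing.injective (𝓞 K) K
  have hr0 : r ≠ 0 := by
    rintro rfl
    rw [map_zero] at hr
    exact mul_ne_zero ((map_ne_zero_iff _ hinj).mpr hs0) k.ne_zero hr.symm
  have hr1 : ∀ v ∈ S, r - 1 ∈ v.asIdeal := fun v hv => by
    have h1 : v.valuation K (algebraMap (𝓞 K) K (r - s)) < 1 := by
      rw [map_sub, hr, show algebraMap (𝓞 K) K s * (k : K) - algebraMap (𝓞 K) K s =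
        algebraMap (𝓞 K) K s * ((k : K) - 1) by ring, map_mul]
      exact lt_of_le_of_lt (mul_le_of_le_one_left' (valuation_le_one v s)) (hval v hv)
    rw [valuation_of_algebraMap, intValuation_lt_one_iff_mem] at h1
    simpa using add_mem h1 (hs1 v hv)
  set sK : Kˣ := Units.mk0 (algebraMap (𝓞 K) K s) ((map_ne_zero_iff _ hinj).mpr hs0)
  set rK : Kˣ := Units.mk0 (algebraMap (𝓞 K) K r) ((map_ne_zero_iff _ hinj).mpr hr0)
  have h : principalIdele (R := 𝓞 K) rK = principalIdele sK * principalIdele k := by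
    rw [← map_mul]
    exact congrArg _ (Units.ext hr)
  have h' := congrArg (ideleSymb χ) h
  rw [ideleSymb_mul, ideleSymb_principal_int χ hr0 rfl, ideleSymb_principal_int χ hs0 rfl,
    idealSymb_span_eq_one_of_tame χ h4 S hS hunr hs0 hs1,
    idealSymb_span_eq_one_of_tame χ h4 S hS hunr hr0 hr1, one_mul] at h'
  exact h'.symm

/-- The value does not depend on the principal idele used. -/
lemma ideleSymb_eq_of_oneAt {a : (FiniteAdeleRing (𝓞 K) K)ˣ} {x y : Kˣ}
    (hx : OneAt S (principalIdele x * a)) (hy : OneAt S (principalIdele y * a)) :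
    ideleSymb χ (principalIdele x * a) = ideleSymb χ (principalIdele y * a) := by
  have h : principalIdele (R := 𝓞 K) (x * y⁻¹) * (principalIdele y * a) = principalIdele x * a := by
    rw [← mul_assoc, ← map_mul, inv_mul_cancel_right]
  rw [← h, ideleSymb_mul, ideleSymb_principal_eq_one h4 hS hunr
    (OneAt.div (h.symm ▸ hx) hy), one_mul]

end

lemma principalIdele_mul (x y : Kˣ) :
    principalIdele (R := 𝓞 K) (x * y) = principalIdele x * principalIdele y :=
  map_mul (FiniteAdeleRing.unitEmbedding (𝓞 K) K) x y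

lemma principalIdele_one : principalIdele (R := 𝓞 K) (1 : Kˣ) = 1 :=
  map_one (FiniteAdeleRing.unitEmbedding (𝓞 K) K)

/-- Infinitely many primes outside `S` have a symbol generating the image. -/
lemma exists_symb_generator (χ : Gal(F/K) →* A) (h4 : ∀ σ, χ σ ^ 4 = 1)
    (S : Finset (HeightOneSpectrum (𝓞 K))) (σ : Gal(F/K))
    (T : Finset (HeightOneSpectrum (𝓞 K))) (hσ : Subgroup.zpowers (χ σ) = χ.range) :
    ∃ v ∉ T, v ∉ S ∧ Subgroup.zpowers (symb χ v.asIdeal) = χ.range := by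
  classical
  set G₂ : Subgroup Gal(F/K) := (Subgroup.zpowers (χ σ ^ 2)).comap χ
  set H := relGroup K F
  set H' : Subgroup Gal(F/ℚ) :=
    if χ σ = 1 then ⊥ else G₂.map (resHom ℚ (K' := K) (F := F))
  by_contra hno
  push Not at hno
  have hgen : ∀ (Q : HeightOneSpectrum (𝓞 F)) (τ : Gal(F/K)), IsGood Q →
      resHom ℚ τ = frob Q → underP K Q ∉ T → underP K Q ∉ S →
      χ σ ≠ 1 ∧ τ ∈ G₂ := by
    intro Q τ hQ hτ hT hSQ
    have hne := hno _ hT hSQ
    rw [symb_underP χ hQ hτ] at hne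
    have hpow : ∃ i : ℤ, χ σ ^ i = χ τ := by
      rw [← Subgroup.mem_zpowers_iff, hσ]
      exact ⟨τ, rfl⟩
    obtain ⟨i, hi⟩ := hpow
    refine ⟨fun h1 => hne ?_, ?_⟩
    · rw [← hσ, ← hi, h1, one_zpow]
    · rcases Int.even_or_odd i with ⟨j, hj⟩ | ⟨j, hj⟩
      · rw [Subgroup.mem_comap, Subgroup.mem_zpowers_iff]
        exact ⟨j, by rw [← hi, ← zpow_natCast (χ σ) 2, ← zpow_mul, hj]; congr 1; omega⟩
      · refine absurd (le_antisymm ?_ ?_) hne
        · rw [Subgroup.zpowers_le]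
          exact ⟨τ, rfl⟩
        · rw [← hσ, Subgroup.zpowers_le, Subgroup.mem_zpowers_iff]
          have h4' : χ σ ^ (4 : ℤ) = 1 := by rw [zpow_ofNat]; exact h4 σ
          refine ⟨i, ?_⟩
          rw [← hi, ← zpow_mul, show i * i = 1 + 4 * (j * j + j) by rw [hj]; ring, zpow_add,
            zpow_mul, h4', one_zpow, mul_one, zpow_one]
  set X : Set (HeightOneSpectrum (𝓞 F)) := {Q | underP K Q ∈ T ∨ underP K Q ∈ S}
  have hX : X.Finite := by
    have hfib : ∀ P : HeightOneSpectrum (𝓞 K), {Q : HeightOneSpectrum (𝓞 F) | underP K Q = P}.Finite :=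
      fun P => (Ideal.finite_factors (I := P.asIdeal.map (algebraMap (𝓞 K) (𝓞 F)))
        ((Ideal.map_eq_bot_iff_of_injective (FaithfulSMul.algebraMap_injective _ _)).not.mpr
          P.ne_bot)).subset fun Q hQ => Ideal.dvd_iff_le.mpr
            (Ideal.map_le_iff_le_comap.mpr (le_of_eq (congrArg HeightOneSpectrum.asIdeal hQ).symm))
    refine ((T ∪ S).finite_toSet.biUnion fun P _ => hfib P).subset fun Q hQ => ?_
    exact Set.mem_biUnion (x := underP K Q) (by simpa [X] using hQ) rfl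
  obtain ⟨C₁, h₁⟩ := exists_le_frobMass H ({Q | frob Q ∈ H'} ∪ X) fun Q hQ hQH => by
    by_cases hm : Q ∈ X
    · exact Or.inr hm
    simp only [X, Set.mem_ofPred_eq, not_or] at hm
    obtain ⟨τ, hτ⟩ := hQH
    obtain ⟨hne, hτ2⟩ := hgen Q τ hQ hτ hm.1 hm.2
    refine Or.inl ?_
    show frob Q ∈ H'
    simp only [H', if_neg hne]
    exact ⟨τ, hτ2, hτ⟩
  obtain ⟨C₂, h₂⟩ := exists_frobMass_group H'
  have hXb : ∀ s : ℝ, 1 < s → frobMass X s ≤ hX.toFinset.card * Nat.card Gal(F/ℚ) := fun s hs => by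
    rw [frobMass, tsum_eq_sum (s := hX.toFinset) fun Q hQ => Set.indicator_of_notMem
      (fun h => hQ (hX.mem_toFinset.mpr h.2)) _]
    refine (Finset.sum_le_card_nsmul _ _ _ fun Q _ => ?_).trans_eq (nsmul_eq_mul _ _)
    refine (Set.indicator_le_self' (fun Q _ => mul_nonneg (Nat.cast_nonneg _)
      (Real.rpow_nonneg (Nat.cast_nonneg _) _)) Q).trans ?_
    show (orderOf (frob Q) : ℝ) * _ ≤ _
    rw [← mul_one (Nat.card Gal(F/ℚ) : ℝ)]
    exact mul_le_mul (Nat.cast_le.mpr orderOf_le_card)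
      (Real.rpow_le_one_of_one_le_of_nonpos (Nat.one_le_cast.mpr (residueChar_prime Q).one_le)
        (by linarith)) (Real.rpow_nonneg (Nat.cast_nonneg _) _) (Nat.cast_nonneg _)
  have hle : (Nat.card H : ℝ) ≤ Nat.card H' :=
    coeff_le_of_log (C := C₁ + C₂ + hX.toFinset.card * Nat.card Gal(F/ℚ)) fun s hs1 hs2 => by
      have := (abs_le.mp (h₂ s hs1 hs2)).2
      linarith [h₁ s hs1 hs2, frobMass_union_le (S := {Q : HeightOneSpectrum (𝓞 F) | frob Q ∈ H'})
        (T := X) hs1, hXb s hs1]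
  have hle' : Nat.card H ≤ Nat.card H' := by exact_mod_cast hle
  by_cases h1 : χ σ = 1
  · obtain ⟨Q, hQ, hQH, hQX⟩ : ∃ Q, IsGood Q ∧ frob Q ∈ H ∧ Q ∉ X := by
      by_contra h
      push Not at h
      obtain ⟨C, hC⟩ := exists_le_frobMass H X h
      have hneg : (Nat.card H : ℝ) ≤ 0 := coeff_le_of_log
        (C := C + hX.toFinset.card * Nat.card Gal(F/ℚ)) fun s hs1 hs2 => by
          linarith [hC s hs1 hs2, hXb s hs1]
      exact not_le.mpr (Nat.cast_pos.mpr Nat.card_pos) hneg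
    simp only [X, Set.mem_ofPred_eq, not_or] at hQX
    obtain ⟨τ, hτ⟩ := hQH
    exact (hgen Q τ hQ hτ hQX.1 hQX.2).1 h1
  · simp only [H', if_neg h1, H, card_map_resHom, card_relGroup] at hle'
    have htop : G₂ = ⊤ := Subgroup.eq_top_of_card_eq _
      (le_antisymm (Subgroup.card_le_card_group _) hle')
    have hmem : χ σ ∈ Subgroup.zpowers (χ σ ^ 2) :=
      Subgroup.mem_comap.mp (show σ ∈ G₂ by rw [htop]; exact Subgroup.mem_top σ)
    obtain ⟨k, hk⟩ := Subgroup.mem_zpowers_iff.mp hmem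
    rw [← zpow_natCast (χ σ) 2, ← zpow_mul] at hk
    have h4' : χ σ ^ (4 : ℤ) = 1 := by rw [zpow_ofNat]; exact h4 σ
    have hodd : χ σ ^ (2 * k - 1) = 1 := by
      rw [zpow_sub_one]
      rw [show ((2 : ℕ) : ℤ) * k = 2 * k by norm_num] at hk
      rw [hk, mul_inv_cancel]
    apply h1
    calc χ σ = χ σ ^ ((2 * k - 1) * (2 * k - 1) + 4 * (k - k * k)) := by
          rw [show (2 * k - 1) * (2 * k - 1) + 4 * (k - k * k) = 1 by ring, zpow_one]
      _ = 1 := by rw [zpow_add, zpow_mul, zpow_mul, hodd, h4', one_zpow, one_zpow, mul_one]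

/-- Artin reciprocity as a finite-idele character with values in the range of `χ`. -/
theorem exists_ideleChar [IsTotallyComplex K] (χ : Gal(F/K) →* A)
    (h4 : ∀ σ, χ σ ^ 4 = 1) [IsCyclic χ.range] (S : Finset (HeightOneSpectrum (𝓞 K)))
    (hS : ∀ P ∈ S, (2 : 𝓞 K) ∉ P.asIdeal)
    (hunr : ∀ P : HeightOneSpectrum (𝓞 K), P ∉ S → UnrAt χ P.asIdeal) :
    ∃ X : (FiniteAdeleRing (𝓞 K) K)ˣ →* A,
      (∀ a, X a ∈ χ.range) ∧
      (∀ k : Kˣ, X (FiniteAdeleRing.unitEmbedding (𝓞 K) K k) = 1) ∧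
      (∀ a : (FiniteAdeleRing (𝓞 K) K)ˣ,
        (∀ v, Valued.v ((a : FiniteAdeleRing (𝓞 K) K) v) = 1) →
        (∀ v ∈ S, Valued.v ((a : FiniteAdeleRing (𝓞 K) K) v - 1) < 1) → X a = 1) ∧
      (∀ v ∉ S, ∀ ϖ : (FiniteAdeleRing (𝓞 K) K)ˣ,
        Valued.v ((ϖ : FiniteAdeleRing (𝓞 K) K) v) = WithZero.exp (-1 : ℤ) →
        (∀ w ≠ v, (ϖ : FiniteAdeleRing (𝓞 K) K) w = 1) → X ϖ = symb χ v.asIdeal) ∧
      ∀ σ : Gal(F/K), ∀ T : Finset (HeightOneSpectrum (𝓞 K)), Subgroup.zpowers (χ σ) = χ.range →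
        ∃ v ∉ T, v ∉ S ∧ Subgroup.zpowers (symb χ v.asIdeal) = χ.range := by
  choose x hx using exists_oneAt_mul S
  have hwd : ∀ (a : (FiniteAdeleRing (𝓞 K) K)ˣ) (y : Kˣ), OneAt S (principalIdele y * a) →
      ideleSymb χ (principalIdele (x a) * a) = ideleSymb χ (principalIdele y * a) :=
    fun a y hy => ideleSymb_eq_of_oneAt h4 hS hunr (hx a) hy
  have hone : ∀ b : (FiniteAdeleRing (𝓞 K) K)ˣ, OneAt S b →
      ideleSymb χ (principalIdele (x b) * b) = ideleSymb χ b := fun b hb => by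
    rw [hwd b 1 (by rwa [principalIdele_one, one_mul]), principalIdele_one, one_mul]
  let X : (FiniteAdeleRing (𝓞 K) K)ˣ →* A :=
    MonoidHom.mk' (fun a => ideleSymb χ (principalIdele (x a) * a)) fun a b => by
      have h : principalIdele (x a * x b) * (a * b) =
          (principalIdele (x a) * a) * (principalIdele (x b) * b) := by
        rw [principalIdele_mul, mul_mul_mul_comm]
      rw [hwd (a * b) (x a * x b) (by rw [h]; exact (hx a).mul (hx b)), h, ideleSymb_mul]
  refine ⟨X, fun a => ideleSymb_mem_range χ _, fun k => ?_, fun a ha ha1 => ?_,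
    fun v hv ϖ hϖ hw => ?_, fun σ T h => exists_symb_generator χ h4 S σ T h⟩
  · have h : principalIdele (R := 𝓞 K) k⁻¹ * FiniteAdeleRing.unitEmbedding (𝓞 K) K k = 1 := by
      rw [← map_mul, inv_mul_cancel, map_one]
    show ideleSymb χ _ = 1
    rw [hwd _ k⁻¹ (by rw [h]; intro v _; rw [Units.val_one, coe_apply_one, sub_self, map_zero]
                      exact zero_lt_one), h, ideleSymb_one]
  · show ideleSymb χ _ = 1
    rw [hone a ha1, ideleSymb, symbPow_zero χ fun v => by rw [ordAt, ha v, log_one, neg_zero]]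
  · show ideleSymb χ _ = _
    rw [hone ϖ (fun w hwS => by
      rw [hw w (ne_of_mem_of_not_mem hwS hv), sub_self, map_zero]; exact zero_lt_one), ideleSymb]
    refine symbPow_single χ (by rw [ordAt, hϖ, log_exp, neg_neg]) fun w hwv => ?_
    rw [ordAt, hw w hwv, map_one, log_one, neg_zero]

end Fermat.Agent.LT.Recip
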