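import Mathlib.Data.ZMod.Units
import Mathlib.GroupTheory.OrderOfElement
import Mathlib.FieldTheory.Finite.Basic

/-!
# Auxiliary primes with prescribed two-power order
-/

set_option autoImplicit false

namespace Fermat.Agent.LT.Recip

lemma exists_odd_prime_dvd_sq_add_one {t : ℕ} (ht : 2 ≤ t) :
    ∃ m : ℕ, m.Prime ∧ m ≠ 2 ∧ m ∣ t ^ 2 + 1 := by
  rcases Nat.even_or_odd t with ⟨u, rfl⟩ | ⟨u, rfl⟩
  · have h1 : (u + u) ^ 2 + 1 ≠ 1 := by nlinarith
    refine ⟨_, Nat.minFac_prime h1, fun h => ?_, Nat.minFac_dvd _⟩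
    have := h ▸ Nat.minFac_dvd ((u + u) ^ 2 + 1)
    rw [show (u + u) ^ 2 + 1 = 2 * (2 * u ^ 2) + 1 by ring] at this
    omega
  · have h1 : 2 * (u * u) + 2 * u + 1 ≠ 1 := by nlinarith
    refine ⟨_, Nat.minFac_prime h1, fun h => ?_,
      (Nat.minFac_dvd (2 * (u * u) + 2 * u + 1)).trans ⟨2, by ring⟩⟩
    have := h ▸ Nat.minFac_dvd (2 * (u * u) + 2 * u + 1)
    omega

/-- Large primes modulo which `N` has order a multiple of four. -/
theorem exists_prime_four_dvd_orderOf {N : ℕ} (hN : 2 ≤ N) (B : ℕ) :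
    ∃ m : ℕ, m.Prime ∧ B < m ∧ 2 < m ∧ (N : ZMod m) ≠ 0 ∧ 4 ∣ orderOf (N : ZMod m) ∧
      4 ∣ m - 1 := by
  obtain ⟨m, hm, hm2, hdvd⟩ := exists_odd_prime_dvd_sq_add_one
    (t := N ^ 2 ^ B) (le_trans hN (Nat.le_self_pow (by positivity) N))
  have : Fact m.Prime := ⟨hm⟩
  have h1 : ((N : ZMod m)) ^ 2 ^ (B + 1) = -1 := by
    refine eq_neg_of_add_eq_zero_left ?_
    have := (ZMod.natCast_eq_zero_iff _ m).mpr hdvd
    push_cast at this
    rw [pow_succ, pow_mul]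
    exact this
  have hne : (-1 : ZMod m) ≠ 1 := fun h => by
    have h2 : ((2 : ℕ) : ZMod m) = 0 := by push_cast; linear_combination -h
    have := Nat.le_of_dvd two_pos ((ZMod.natCast_eq_zero_iff _ _).mp h2)
    have := hm.two_le
    omega
  have hord : orderOf (N : ZMod m) = 2 ^ (B + 1 + 1) := orderOf_eq_prime_pow (by rw [h1]; exact hne)
    (by rw [pow_succ, pow_mul, h1]; ring)
  have h0 : (N : ZMod m) ≠ 0 := fun h => by
    rw [h, zero_pow (by positivity)] at h1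
    exact neg_ne_zero.mpr one_ne_zero h1.symm
  have h4 : 4 ∣ orderOf (N : ZMod m) := ⟨2 ^ B, by rw [hord]; ring⟩
  have hle : orderOf (N : ZMod m) ∣ m - 1 := ZMod.orderOf_dvd_card_sub_one h0
  have hBm : B < m := by
    have h3 := Nat.le_of_dvd (by have := hm.two_le; omega) hle
    have h5 : B + 1 + 1 < 2 ^ (B + 1 + 1) := Nat.lt_two_pow_self
    omega
  exact ⟨m, hm, hBm, by have := hm.two_le; omega, h0, h4, h4.trans hle⟩

end Fermat.Agent.LT.Recip
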