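import Fermat.Agent.S14.Cross.Transfer
import Mathlib.RingTheory.Ideal.Norm.RelNorm
import Mathlib.NumberTheory.RamificationInertia.Galois
import Mathlib.RingTheory.Frobenius
import Mathlib.NumberTheory.NumberField.Basic
import Mathlib.RingTheory.DedekindDomain.Ideal.Lemmas

/-!
# The Artin symbol of an abelian character

`F/K` is a finite Galois extension and `χ : Gal(F/K) →* A` an abelian character. `symb χ P` is the
value of `χ` at a Frobenius of the prime `P` (meaningful when `χ` is unramified at `P`), and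
`idealSymb χ` its multiplicative extension to ideals.
-/

set_option autoImplicit false
set_option linter.unusedSectionVars false

noncomputable section

namespace Fermat.Agent.LT.Recip

open NumberField IsDedekindDomain UniqueFactorizationMonoid
open scoped Pointwise

instance finite_quotient_of_max {F : Type} [Field F] [NumberField F] (Q : Ideal (𝓞 F))
    [hQ : Q.IsMaximal] : Finite (𝓞 F ⧸ Q) :=
  Ring.HasFiniteQuotients.finiteQuotient (Ring.ne_bot_of_isMaximal_of_not_isField hQ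
    (RingOfIntegers.not_isField F))

section

variable {K F : Type} [Field K] [NumberField K] [Field F] [NumberField F] [Algebra K F]
  [IsGalois K F] {A : Type} [CommGroup A]

/-- `χ` is unramified at `P`. -/
def UnrAt (χ : Gal(F/K) →* A) (P : Ideal (𝓞 K)) : Prop :=
  ∀ Q : Ideal (𝓞 F), Q.IsMaximal → Q.under (𝓞 K) = P → ∀ σ ∈ Q.inertia Gal(F/K), χ σ = 1

open Classical in
/-- The value of `χ` at a Frobenius of `P`. -/
def symb (χ : Gal(F/K) →* A) (P : Ideal (𝓞 K)) : A :=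
  if h : ∃ Q : Ideal (𝓞 F), ∃ σ : Gal(F/K),
      Q.IsMaximal ∧ Q.under (𝓞 K) = P ∧ IsArithFrobAt (𝓞 K) σ Q then
    χ h.choose_spec.choose
  else 1

lemma map_conj_eq (χ : Gal(F/K) →* A) (g σ : Gal(F/K)) : χ (g * σ * g⁻¹) = χ σ := by
  rw [map_mul, map_mul, map_inv, mul_comm (χ g), mul_inv_cancel_right]

/-- Two Frobenius elements over one unramified prime have the same value. -/
lemma map_frob_eq {χ : Gal(F/K) →* A} {P : Ideal (𝓞 K)} (hu : UnrAt χ P) {Q Q' : Ideal (𝓞 F)}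
    (hQ : Q.IsMaximal) (hQ' : Q'.IsMaximal) (h : Q.under (𝓞 K) = P) (h' : Q'.under (𝓞 K) = P)
    {σ σ' : Gal(F/K)} (hσ : IsArithFrobAt (𝓞 K) σ Q) (hσ' : IsArithFrobAt (𝓞 K) σ' Q') :
    χ σ = χ σ' := by
  obtain ⟨τ, hτ⟩ := Algebra.IsInvariant.exists_smul_of_under_eq (𝓞 K) (𝓞 F) Gal(F/K) Q Q'
    (h.trans h'.symm)
  have hc := hσ.conj τ
  rw [← hτ] at hc
  have hm := hu Q' hQ' h' _ (hc.mul_inv_mem_inertia hσ')
  rw [map_mul, map_inv, map_conj_eq, mul_inv_eq_one] at hm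
  exact hm

lemma exists_prime_over (P : Ideal (𝓞 K)) [P.IsMaximal] :
    ∃ Q : Ideal (𝓞 F), Q.IsMaximal ∧ Q.under (𝓞 K) = P := by
  obtain ⟨Q, hQ, hQP⟩ := Ideal.exists_maximal_ideal_liesOver_of_isIntegral (S := 𝓞 F) P
  exact ⟨Q, hQ, hQP.over.symm⟩

lemma exists_frob (Q : Ideal (𝓞 F)) [Q.IsMaximal] :
    ∃ σ : Gal(F/K), IsArithFrobAt (𝓞 K) σ Q :=
  IsArithFrobAt.exists_of_isInvariant (𝓞 K) Gal(F/K) Q

lemma symb_eq {χ : Gal(F/K) →* A} {P : Ideal (𝓞 K)} (hu : UnrAt χ P) {Q : Ideal (𝓞 F)}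
    (hQ : Q.IsMaximal) (hP : Q.under (𝓞 K) = P) {σ : Gal(F/K)}
    (hσ : IsArithFrobAt (𝓞 K) σ Q) : symb χ P = χ σ := by
  have h : ∃ Q : Ideal (𝓞 F), ∃ σ : Gal(F/K),
      Q.IsMaximal ∧ Q.under (𝓞 K) = P ∧ IsArithFrobAt (𝓞 K) σ Q := ⟨Q, σ, hQ, hP, hσ⟩
  rw [symb, dif_pos h]
  obtain ⟨h1, h2, h3⟩ := h.choose_spec.choose_spec
  exact map_frob_eq hu h1 hQ h2 hP h3 hσ

/-- The multiplicative extension of `symb` to ideals. -/
def idealSymb (χ : Gal(F/K) →* A) (I : Ideal (𝓞 K)) : A :=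
  ((normalizedFactors I).map (symb χ)).prod

lemma idealSymb_mul (χ : Gal(F/K) →* A) {I J : Ideal (𝓞 K)} (hI : I ≠ 0) (hJ : J ≠ 0) :
    idealSymb χ (I * J) = idealSymb χ I * idealSymb χ J := by
  rw [idealSymb, normalizedFactors_mul hI hJ, Multiset.map_add, Multiset.prod_add]
  rfl

@[simp] lemma idealSymb_one (χ : Gal(F/K) →* A) : idealSymb χ 1 = 1 := by
  rw [idealSymb, normalizedFactors_one]; simp

lemma idealSymb_prime (χ : Gal(F/K) →* A) {P : Ideal (𝓞 K)} [hP : P.IsPrime] (h0 : P ≠ ⊥) :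
    idealSymb χ P = symb χ P := by
  rw [idealSymb, normalizedFactors_irreducible
    (Ideal.prime_of_isPrime h0 hP).irreducible, normalize_eq]
  simp

lemma idealSymb_pow (χ : Gal(F/K) →* A) {I : Ideal (𝓞 K)} (hI : I ≠ 0) (k : ℕ) :
    idealSymb χ (I ^ k) = idealSymb χ I ^ k := by
  induction k with
  | zero => rw [pow_zero, pow_zero, idealSymb_one]
  | succ k ih => rw [pow_succ, pow_succ, idealSymb_mul χ (pow_ne_zero k hI) hI, ih]

lemma frob_pow_mk {σ : Gal(F/K)} {Q : Ideal (𝓞 F)} (hσ : IsArithFrobAt (𝓞 K) σ Q) (k : ℕ)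
    (x : 𝓞 F) : Ideal.Quotient.mk Q (σ ^ k • x) =
      Ideal.Quotient.mk Q x ^ (Ideal.absNorm (Q.under (𝓞 K))) ^ k := by
  rw [Ideal.absNorm_apply, Submodule.cardQuot_apply]
  induction k generalizing x with
  | zero => simp
  | succ k ih =>
    rw [pow_succ, mul_smul, ih, pow_succ, mul_comm _ (Nat.card (𝓞 K ⧸ Q.under (𝓞 K))), pow_mul]
    exact congrArg (· ^ _) (hσ.mk_apply x)

end

section Tower

variable {K K' F : Type} [Field K] [NumberField K] [Field K'] [NumberField K'] [Field F]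
  [NumberField F] [Algebra K K'] [Algebra K F] [Algebra K' F] [IsScalarTower K K' F]
  [IsGalois K F] [IsGalois K' F] {A : Type} [CommGroup A]

/-- The inclusion of Galois groups. -/
def resHom (K : Type) {K' F : Type} [Field K] [Field K'] [Field F] [Algebra K K'] [Algebra K F]
    [Algebra K' F] [IsScalarTower K K' F] : Gal(F/K') →* Gal(F/K) where
  toFun σ := σ.restrictScalars K
  map_one' := rfl
  map_mul' _ _ := rfl

lemma resHom_smul (σ : Gal(F/K')) (x : 𝓞 F) : resHom K σ • x = σ • x := rfl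

lemma unrAt_comp {χ : Gal(F/K) →* A} {P' : Ideal (𝓞 K')} (hu : UnrAt χ (P'.under (𝓞 K))) :
    UnrAt (χ.comp (resHom K)) P' := fun Q hQ hQP σ hσ =>
  hu Q hQ (by rw [← hQP, Ideal.under_under]) (resHom K σ) fun x => hσ x

lemma symb_comp {χ : Gal(F/K) →* A} (P' : Ideal (𝓞 K')) [P'.IsMaximal]
    (hu : UnrAt χ (P'.under (𝓞 K))) :
    symb (χ.comp (resHom K)) P' = idealSymb χ (Ideal.relNorm (𝓞 K) P') := by
  set P := P'.under (𝓞 K) with hP
  have : P.IsMaximal := Ideal.IsMaximal.under (𝓞 K) P'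
  have : P'.LiesOver P := ⟨rfl⟩
  have hP0 : P ≠ ⊥ := Ring.ne_bot_of_isMaximal_of_not_isField ‹_› (RingOfIntegers.not_isField K)
  set f := P'.inertiaDeg (𝓞 K)
  have hrel : Ideal.relNorm (𝓞 K) P' = P ^ f := Ideal.relNorm_eq_pow_of_isMaximal P' P
  obtain ⟨Q, hQ, hQP⟩ := exists_prime_over (F := F) P'
  have hQK : Q.under (𝓞 K) = P := by rw [hP, ← hQP, Ideal.under_under]
  obtain ⟨σ, hσ⟩ := exists_frob (K := K) Q
  obtain ⟨σ', hσ'⟩ := exists_frob (K := K') Q
  rw [symb_eq (unrAt_comp hu) hQ hQP hσ', hrel, idealSymb_pow χ hP0, idealSymb_prime χ hP0,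
    symb_eq hu hQ hQK hσ, ← map_pow, MonoidHom.comp_apply, ← mul_inv_eq_one, ← map_inv, ← map_mul]
  refine hu Q hQ hQK _ ?_
  have hN : Ideal.absNorm P' = Ideal.absNorm P ^ f := by
    rw [← map_pow, ← hrel, Ideal.absNorm_relNorm]
  intro x
  have h1 : Ideal.Quotient.mk Q (σ ^ f • ((σ ^ f)⁻¹ • x)) =
      Ideal.Quotient.mk Q (σ' • ((σ ^ f)⁻¹ • x)) := by
    rw [frob_pow_mk hσ, hQK, ← hN, Ideal.absNorm_apply, Submodule.cardQuot_apply, ← hQP]
    exact (hσ'.mk_apply _).symm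
  rw [smul_inv_smul, Ideal.Quotient.eq] at h1
  rw [mul_smul, resHom_smul, ← neg_sub]
  exact Q.neg_mem h1

/-- Restricting the character amounts to taking norms of ideals. -/
lemma idealSymb_comp {χ : Gal(F/K) →* A} {I : Ideal (𝓞 K')} (hI : I ≠ 0)
    (hu : ∀ P' ∈ normalizedFactors I, UnrAt χ (P'.under (𝓞 K))) :
    idealSymb (χ.comp (resHom K)) I = idealSymb χ (Ideal.relNorm (𝓞 K) I) := by
  induction I using UniqueFactorizationMonoid.induction_on_prime with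
  | h₁ => exact absurd rfl hI
  | h₂ I hu' => rw [Ideal.isUnit_iff.mp hu', ← Ideal.one_eq_top, map_one, idealSymb_one,
      idealSymb_one]
  | h₃ I P hI0 hP ih =>
    have hP0 : P ≠ 0 := hP.ne_zero
    have : P.IsPrime := Ideal.isPrime_of_prime hP
    have : P.IsMaximal := Ideal.IsPrime.isMaximal this hP0
    rw [normalizedFactors_mul hP0 hI0, normalizedFactors_irreducible hP.irreducible,
      normalize_eq] at hu
    rw [idealSymb_mul _ hP0 hI0, map_mul, idealSymb_mul χ (by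
      simpa [Ideal.relNorm_eq_bot_iff] using hP0) (by
      simpa [Ideal.relNorm_eq_bot_iff] using hI0),
      ih hI0 (fun P' h => hu P' (Multiset.mem_add.mpr (Or.inr h))), idealSymb_prime _ hP0,
      symb_comp P (hu P (Multiset.mem_add.mpr (Or.inl (Multiset.mem_singleton_self P))))]

end Tower

section Extend

variable {K F₀ F : Type} [Field K] [NumberField K] [Field F₀] [NumberField F₀] [Field F]
  [NumberField F] [Algebra K F₀] [Algebra F₀ F] [Algebra K F] [IsScalarTower K F₀ F]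
  [IsGalois K F₀] [IsGalois K F] {A : Type} [CommGroup A]

/-- The inflation of a character. -/
abbrev inflate (χ : Gal(F₀/K) →* A) : Gal(F/K) →* A :=
  χ.comp (AlgEquiv.restrictNormalHom F₀)

lemma restrictNormalHom_smul (σ : Gal(F/K)) (x : 𝓞 F₀) :
    algebraMap (𝓞 F₀) (𝓞 F) (AlgEquiv.restrictNormalHom F₀ σ • x) =
      σ • algebraMap (𝓞 F₀) (𝓞 F) x :=
  RingOfIntegers.ext (AlgEquiv.restrictNormal_commutes σ F₀ x)

lemma restrictNormalHom_mem_inertia {Q : Ideal (𝓞 F)} {σ : Gal(F/K)}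
    (hσ : σ ∈ Q.inertia Gal(F/K)) :
    AlgEquiv.restrictNormalHom F₀ σ ∈ (Q.under (𝓞 F₀)).inertia Gal(F₀/K) := fun x => by
  show algebraMap (𝓞 F₀) (𝓞 F) _ ∈ Q
  rw [map_sub, restrictNormalHom_smul]
  exact hσ _

lemma unrAt_inflate {χ : Gal(F₀/K) →* A} {P : Ideal (𝓞 K)} (hu : UnrAt χ P) :
    UnrAt (inflate (F := F) χ) P := fun Q hQ hQP σ hσ =>
  hu (Q.under (𝓞 F₀)) (have := hQ; Ideal.IsMaximal.under (𝓞 F₀) Q)
    (by rw [Ideal.under_under, hQP]) _ (restrictNormalHom_mem_inertia hσ)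

lemma symb_inflate {χ : Gal(F₀/K) →* A} {P : Ideal (𝓞 K)} [P.IsMaximal] (hu : UnrAt χ P) :
    symb (inflate (F := F) χ) P = symb χ P := by
  obtain ⟨Q, hQ, hQP⟩ := exists_prime_over (F := F) P
  obtain ⟨σ, hσ⟩ := exists_frob (K := K) Q
  have hQ0 : (Q.under (𝓞 F₀)).IsMaximal := Ideal.IsMaximal.under (𝓞 F₀) Q
  have h0 : IsArithFrobAt (𝓞 K) (AlgEquiv.restrictNormalHom F₀ σ) (Q.under (𝓞 F₀)) := fun x => by
    show algebraMap (𝓞 F₀) (𝓞 F) _ ∈ Q
    rw [map_sub, map_pow, Ideal.under_under]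
    show algebraMap (𝓞 F₀) (𝓞 F) (AlgEquiv.restrictNormalHom F₀ σ • x) - _ ∈ Q
    rw [restrictNormalHom_smul]
    exact hσ _
  rw [symb_eq (unrAt_inflate hu) hQ hQP hσ, symb_eq hu hQ0 (by rw [Ideal.under_under, hQP]) h0]
  rfl

lemma idealSymb_inflate {χ : Gal(F₀/K) →* A} {I : Ideal (𝓞 K)}
    (hu : ∀ P ∈ normalizedFactors I, UnrAt χ P) :
    idealSymb (inflate (F := F) χ) I = idealSymb χ I := by
  refine congrArg Multiset.prod (Multiset.map_congr rfl fun P hP => ?_)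
  have hp := prime_of_normalized_factor P hP
  have : P.IsMaximal := (Ideal.isPrime_of_prime hp).isMaximal hp.ne_zero
  exact symb_inflate (hu P hP)

end Extend

end Fermat.Agent.LT.Recip
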