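import Mathlib.FieldTheory.Normal.Basic
import Mathlib.FieldTheory.Galois.Basic
import Mathlib.NumberTheory.NumberField.Basic
import Mathlib.FieldTheory.SplittingField.Construction

/-!
# Enlarging a Galois level
-/

set_option autoImplicit false
set_option linter.unusedSectionVars false

noncomputable section

namespace Fermat.Agent.LT.Recip

open Polynomial

/-- A Galois extension of `ℚ` containing `F₀` in which a given rational polynomial splits. -/
theorem exists_extension (K F₀ : Type) [Field K] [NumberField K] [Field F₀] [NumberField F₀]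
    [Algebra K F₀] [IsGalois ℚ F₀] (h : ℚ[X]) (hh : h ≠ 0) :
    ∃ (F : Type) (_ : Field F) (_ : NumberField F) (_ : IsGalois ℚ F) (_ : Algebra F₀ F)
      (_ : Algebra K F) (_ : IsScalarTower K F₀ F) (_ : IsGalois K F),
      (h.map (algebraMap ℚ F)).Splits := by
  obtain ⟨f₀, hf₀⟩ := Normal.exists_isSplittingField ℚ F₀
  let g := h.map (algebraMap ℚ F₀)
  let F := g.SplittingField
  have : IsScalarTower K F₀ F := inferInstance
  have : NumberField F := NumberField.of_module_finite F₀ F
  have : IsScalarTower ℚ F₀ F := IsScalarTower.of_algebraMap_eq' (RingHom.ext_rat _ _)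
  have : IsScalarTower ℚ K F := IsScalarTower.of_algebraMap_eq' (RingHom.ext_rat _ _)
  have : Normal ℚ F := by
    rcases eq_or_ne f₀ 0 with h0 | h0
    · subst h0
      have : IsSplittingField ℚ F₀ (1 : ℚ[X]) := by
        have hh := hf₀.adjoin_rootSet'
        rw [rootSet_zero] at hh
        exact ⟨by simp, by rw [rootSet_one]; exact hh⟩
      have : IsSplittingField ℚ F (1 * h) := IsSplittingField.mul (K := F₀) F 1 h one_ne_zero hh
      exact Normal.of_isSplittingField (1 * h)
    · have : IsSplittingField ℚ F (f₀ * h) := IsSplittingField.mul (K := F₀) F f₀ h h0 hh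
      exact Normal.of_isSplittingField (f₀ * h)
  have : IsGalois ℚ F := ⟨⟩
  have : IsGalois K F := IsGalois.tower_top_of_isGalois ℚ K F
  refine ⟨F, inferInstance, inferInstance, inferInstance, inferInstance, inferInstance,
    inferInstance, inferInstance, ?_⟩
  rw [IsScalarTower.algebraMap_eq ℚ F₀ F, ← map_map]
  exact IsSplittingField.splits F g

end Fermat.Agent.LT.Recip
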