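import Fermat.Agent.LT.Recip.LinePairs
import Fermat.Agent.LT.Recip.Level
import Fermat.Agent.LT.Recip.AuxPrime
import Mathlib.GroupTheory.SpecificGroups.Cyclic
import Mathlib.RingTheory.Polynomial.Cyclotomic.Roots

/-!
# Reciprocity for unramified abelian characters of order dividing four

Crossing with two cyclotomic extensions, the genus inequality and the analytic second inequality.
-/

set_option autoImplicit false
set_option linter.unusedSectionVars false

noncomputable section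

namespace Fermat.Agent.LT.Recip

open NumberField IsDedekindDomain UniqueFactorizationMonoid Fermat.Agent.S14
open Fermat.Agent.S14.Cross Fermat.Agent.S14.Cross.BridgeLevel
open scoped Pointwise nonZeroDivisors

variable {K F : Type} [Field K] [NumberField K] [Field F] [NumberField F] [Algebra K F]
  [IsGalois K F] [IsGalois ℚ F] {A : Type} [CommGroup A]

/-- Products of pairs. -/
lemma pair_mem {B : Type*} [CommGroup B] (χ : Gal(F/K) →* A) (f : ClassGroup (𝓞 K) →* B)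
    (D : Subgroup (B × A)) {I : Ideal (𝓞 K)} (hI : I ≠ 0)
    (h : ∀ P : HeightOneSpectrum (𝓞 K), P.asIdeal ∈ normalizedFactors I →
      (f (ClassGroup.mk0 (primeIdeal P)), symb χ P.asIdeal) ∈ D) :
    (f (ClassGroup.mk0 ⟨I, mem_nonZeroDivisors_of_ne_zero hI⟩), idealSymb χ I) ∈ D := by
  induction I using UniqueFactorizationMonoid.induction_on_prime with
  | h₁ => exact absurd rfl hI
  | h₂ I hu =>
    obtain rfl : I = ⊤ := Ideal.isUnit_iff.mp hu
    have h1 : (⟨⊤, mem_nonZeroDivisors_of_ne_zero hI⟩ : (Ideal (𝓞 K))⁰) = 1 :=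
      Subtype.ext Ideal.one_eq_top.symm
    rw [h1, map_one, map_one, ← Ideal.one_eq_top, idealSymb_one]
    exact one_mem D
  | h₃ I P hI0 hP ih =>
    have hP0 : P ≠ 0 := hP.ne_zero
    have : P.IsPrime := Ideal.isPrime_of_prime hP
    rw [normalizedFactors_mul hP0 hI0, normalizedFactors_irreducible hP.irreducible,
      normalize_eq] at h
    have h1 := h ⟨P, this, hP0⟩ (Multiset.mem_add.mpr (Or.inl (Multiset.mem_singleton_self P)))
    have h2 := ih hI0 fun P' hP' => h P' (Multiset.mem_add.mpr (Or.inr hP'))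
    have hmul := mul_mem h1 h2
    rw [Prod.mk_mul_mk, ← map_mul, ← map_mul] at hmul
    rw [idealSymb_mul χ hP0 hI0, idealSymb_prime χ hP0]
    exact hmul

/-- The conclusion from enough lines. -/
theorem idealSymb_span_eq_one_of_lines [IsTotallyComplex K] (χ : Gal(F/K) →* A)
    (h4 : ∀ σ, χ σ ^ 4 = 1) [IsCyclic χ.range]
    (hunr : ∀ P : Ideal (𝓞 K), P.IsMaximal → UnrAt χ P)
    (D : Subgroup ((ClassGroup (𝓞 K) ⧸ splitClasses χ) × A))
    (hD : Nat.card D = Nat.card χ.range) (T : Finset (Ideal (𝓞 K)))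
    (hT : ∀ P : HeightOneSpectrum (𝓞 K), P.asIdeal ∈ T →
      (quotClass χ P, symb χ P.asIdeal) ∈ D)
    (hgen : ∀ C : ClassGroup (𝓞 K), ∃ I : (Ideal (𝓞 K))⁰, ClassGroup.mk0 I = C ∧
      ∀ P ∈ normalizedFactors (I : Ideal (𝓞 K)), P ∈ T)
    {x : 𝓞 K} (hx : x ≠ 0) (hxT : ∀ P ∈ normalizedFactors (Ideal.span {x}), P ∈ T) :
    idealSymb χ (Ideal.span {x}) = 1 := by
  classical
  have hfinD : Finite D := Nat.finite_of_card_ne_zero (by
    rw [hD]; exact (Nat.card_pos (α := χ.range)).ne')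
  have hsurj : Function.Surjective fun z : D => z.1.1 := by
    intro c
    obtain ⟨C, rfl⟩ := QuotientGroup.mk_surjective c
    obtain ⟨I, rfl, hI⟩ := hgen C
    exact ⟨⟨_, pair_mem χ (QuotientGroup.mk' (splitClasses χ)) D (nonZeroDivisors.coe_ne_zero I)
      fun P hP => hT P (hI _ hP)⟩, rfl⟩
  have hle : Nat.card D ≤ Nat.card (ClassGroup (𝓞 K) ⧸ splitClasses χ) := by
    rw [hD]
    exact card_range_le_index_splitClasses χ h4 hunr
  have hbij : Function.Bijective fun z : D => z.1.1 := by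
    refine ⟨?_, hsurj⟩
    have := hsurj.bijective_of_nat_card_le hle
    exact this.1
  have hx' : Ideal.span {x} ≠ 0 := mt Ideal.span_singleton_eq_bot.mp hx
  have hmem := pair_mem χ (QuotientGroup.mk' (splitClasses χ)) D hx' fun P hP => hT P (hxT _ hP)
  have h1 : ClassGroup.mk0 (⟨Ideal.span {x}, mem_nonZeroDivisors_of_ne_zero hx'⟩ :
      (Ideal (𝓞 K))⁰) = 1 := (ClassGroup.mk0_eq_one_iff _).mpr ⟨⟨x, rfl⟩⟩
  rw [h1, map_one] at hmem
  exact congrArg Prod.snd (congrArg Subtype.val (hbij.1 (a₁ := ⟨_, hmem⟩) (a₂ := 1) rfl))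

/-- Inertia above a large prime lifts any cyclotomic value. -/
lemma exists_inertia_lift {F₀ : Type} [Field F₀] [NumberField F₀] [IsGalois ℚ F₀] [Algebra K F₀]
    [IsGalois K F₀] [Algebra F₀ F] [IsScalarTower K F₀ F] {m : ℕ} [hm : Fact m.Prime] {η : F}
    (hη : IsPrimitiveRoot η m)
    (hgood : ∀ Q : HeightOneSpectrum (𝓞 F₀), (m : 𝓞 F₀) ∈ Q.asIdeal → IsGood Q)
    (χ₀ : Gal(F₀/K) →* A) (a : (ZMod m)ˣ) :
    ∃ τ : Gal(F/K), inflate (F := F) χ₀ τ = 1 ∧ cyclo K hη τ = a ∧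
      ∀ (m' : ℕ) [Fact m'.Prime] {η' : F} (hη' : IsPrimitiveRoot η' m'), m' ≠ m →
        cyclo K hη' τ = 1 := by
  have : IsGalois ℚ F := inferInstance
  obtain ⟨Q, hQ, hle⟩ := Ideal.exists_le_maximal (Ideal.span {(m : 𝓞 F)}) (by
    intro h
    have h1 := (Ideal.span_singleton_eq_top.mp h).map (Algebra.norm ℤ)
    rw [show (m : 𝓞 F) = algebraMap ℤ (𝓞 F) (m : ℤ) by simp, Algebra.norm_algebraMap,
      RingOfIntegers.rank, Int.isUnit_iff_natAbs_eq, Int.natAbs_pow, Int.natAbs_natCast] at h1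
    exact hm.out.ne_one ((pow_eq_one_iff_of_nonneg (Nat.zero_le _) Module.finrank_pos.ne').mp h1))
  have hmQ : (m : 𝓞 F) ∈ Q := hle (Ideal.mem_span_singleton_self _)
  obtain ⟨σ, hσ, hκ⟩ := exists_inertia_autToPow hη Q hmQ a
  have hQ₀ : (Q.under (𝓞 F₀)).IsMaximal := Ideal.IsMaximal.under _ Q
  set σ₀ := AlgEquiv.restrictNormalHom F₀ σ
  have hσ₀ : σ₀ = 1 := by
    have hg := hgood ⟨Q.under (𝓞 F₀), hQ₀.isPrime, Ring.ne_bot_of_isMaximal_of_not_isField hQ₀
      (RingOfIntegers.not_isField F₀)⟩ (by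
        show algebraMap (𝓞 F₀) (𝓞 F) (m : 𝓞 F₀) ∈ Q
        rwa [map_natCast])
    have h1 : σ₀ ∈ (Q.under (𝓞 F₀)).inertia Gal(F₀/ℚ) := fun y => by
      show algebraMap (𝓞 F₀) (𝓞 F) (σ₀ • y - y) ∈ Q
      rw [map_sub]
      have h2 : algebraMap (𝓞 F₀) (𝓞 F) (σ₀ • y) = σ • algebraMap (𝓞 F₀) (𝓞 F) y :=
        RingOfIntegers.ext (AlgEquiv.restrictNormal_commutes σ F₀ y)
      rw [h2]
      exact hσ _
    exact Subgroup.mem_bot.mp ((show (Q.under (𝓞 F₀)).inertia Gal(F₀/ℚ) = ⊥ from hg) ▸ h1)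
  have hfix : ∀ z : F₀, σ (algebraMap F₀ F z) = algebraMap F₀ F z := fun z => by
    have h := (AlgEquiv.restrictNormal_commutes σ F₀ z).symm
    rw [show σ.restrictNormal F₀ = σ₀ from rfl, hσ₀, AlgEquiv.one_apply] at h
    exact h
  let τ : Gal(F/K) := AlgEquiv.ofRingEquiv (f := σ.toRingEquiv) fun z => by
    show σ (algebraMap K F z) = algebraMap K F z
    rw [IsScalarTower.algebraMap_apply K F₀ F, hfix]
  have hres : resHom ℚ τ = σ := AlgEquiv.ext fun _ => rfl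
  refine ⟨τ, ?_, by show hη.autToPow ℚ (resHom ℚ τ) = a; rw [hres, hκ], fun m' hm' η' hη' hne => ?_⟩
  · have h1 : AlgEquiv.restrictNormalHom F₀ τ = 1 := AlgEquiv.ext fun z =>
      FaithfulSMul.algebraMap_injective F₀ F
        ((AlgEquiv.restrictNormal_commutes τ F₀ z).trans ((hfix z).trans rfl))
    show χ₀ (AlgEquiv.restrictNormalHom F₀ τ) = 1
    rw [h1, map_one]
  · exact cyclo_eq_one_of_inertia hη' (natCast_notMem_of_coprime hQ.ne_top
      ((Nat.coprime_primes hm.out hm'.out).mpr (Ne.symm hne)) hmQ) (fun y => hσ y)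

lemma normal_eqLocus {G : Type*} [Group G] (f g : G →* A) : (MonoidHom.eqLocus f g).Normal :=
  ⟨fun h hh k => by
    show f (k * h * k⁻¹) = g (k * h * k⁻¹)
    rw [map_mul, map_mul, map_inv, mul_comm (f k), mul_inv_cancel_right, map_mul, map_mul, map_inv,
      mul_comm (g k), mul_inv_cancel_right]
    exact hh⟩

lemma exists_root_of_splits {n : ℕ} (hn : 0 < n) {h : Polynomial ℚ}
    (hsp : (h.map (algebraMap ℚ F)).Splits) (h0 : h ≠ 0)
    (hdvd : Polynomial.cyclotomic n ℚ ∣ h) : ∃ η : F, IsPrimitiveRoot η n := by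
  have h1 : (Polynomial.cyclotomic n F).Splits := by
    rw [← Polynomial.map_cyclotomic n (algebraMap ℚ F)]
    exact hsp.of_dvd ((Polynomial.map_ne_zero_iff (algebraMap ℚ F).injective).mpr h0)
      (Polynomial.map_dvd _ hdvd)
  obtain ⟨η, hη⟩ := h1.exists_eval_eq_zero (by
    rw [Polynomial.degree_cyclotomic]
    exact_mod_cast (Nat.totient_pos.mpr hn).ne')
  have : NeZero (n : F) := ⟨Nat.cast_ne_zero.mpr hn.ne'⟩
  exact ⟨η, Polynomial.isRoot_cyclotomic_iff.mp hη⟩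

/-- An everywhere unramified character of a totally complex field kills principal ideals. -/
theorem idealSymb_span_eq_one_of_unramified [IsTotallyComplex K] (χ : Gal(F/K) →* A)
    (h4 : ∀ σ, χ σ ^ 4 = 1) [IsCyclic χ.range]
    (hunr : ∀ P : Ideal (𝓞 K), P.IsMaximal → UnrAt χ P) {x : 𝓞 K} (hx : x ≠ 0) :
    idealSymb χ (Ideal.span {x}) = 1 := by
  classical
  choose rep hrep using ClassGroup.mk0_surjective (R := 𝓞 K)
  set T : Finset (Ideal (𝓞 K)) := Finset.univ.biUnion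
    (fun C => (normalizedFactors (rep C : Ideal (𝓞 K))).toFinset) ∪
      (normalizedFactors (Ideal.span {x})).toFinset
  have hTmax : ∀ P ∈ T, P.IsMaximal ∧ P ≠ ⊥ := by
    intro P hP
    obtain ⟨I, hI⟩ : ∃ I, P ∈ normalizedFactors I := by
      rcases Finset.mem_union.mp hP with h | h
      · obtain ⟨C, -, hC⟩ := Finset.mem_biUnion.mp h
        exact ⟨_, Multiset.mem_toFinset.mp hC⟩
      · exact ⟨_, Multiset.mem_toFinset.mp h⟩
    have hp := prime_of_normalized_factor P hI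
    exact ⟨(Ideal.isPrime_of_prime hp).isMaximal hp.ne_zero, hp.ne_zero⟩
  set B : ℕ := (∑ P ∈ T, Ideal.absNorm P) +
    (∑ Q ∈ (finite_not_isGood (F := F)).toFinset, residueChar Q)
  obtain ⟨m₂, hm₂, hBm₂, h2m₂, -, -, h4m₂⟩ := exists_prime_four_dvd_orderOf le_rfl B
  have hN : ∀ P : T, 2 ≤ Ideal.absNorm (P : Ideal (𝓞 K)) := fun P => by
    obtain ⟨hmax, h0⟩ := hTmax P P.2
    by_contra hlt
    push Not at hlt
    interval_cases hh : Ideal.absNorm (P : Ideal (𝓞 K))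
    · exact h0 (Ideal.absNorm_eq_zero_iff.mp hh)
    · exact hmax.ne_top (Ideal.absNorm_eq_one_iff.mp hh)
  choose m hm hBm h2m hm0 hord h4m using fun P : T => exists_prime_four_dvd_orderOf (hN P) (max B m₂)
  have hbad : ∀ l : ℕ, l.Prime → B < l →
      ∀ Q : HeightOneSpectrum (𝓞 F), (l : 𝓞 F) ∈ Q.asIdeal → IsGood Q := by
    intro l hl hBl Q hQ
    by_contra hg
    have h1 : residueChar Q ≤ B := le_trans
      (Finset.single_le_sum (f := residueChar) (fun _ _ => Nat.zero_le _)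
        ((finite_not_isGood (F := F)).mem_toFinset.mpr hg)) le_add_self
    have h2 : (residueChar Q : ℤ) ∣ (l : ℤ) := Int.cast_mem_ideal_iff.mp (by simpa using hQ)
    have h3 := (Nat.prime_dvd_prime_iff_eq (residueChar_prime Q) hl).mp (Int.natCast_dvd_natCast.mp h2)
    omega
  have hnotmem : ∀ l : ℕ, l.Prime → B < l → ∀ P ∈ T, (l : 𝓞 K) ∉ P := by
    intro l hl hBl P hP hlP
    obtain ⟨hmax, h0⟩ := hTmax P hP
    obtain ⟨q, f, hq, hf, hn, hmem⟩ := DegOne.exists_norm_eq_pow hmax.isPrime h0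
    have h1 : Ideal.absNorm P ≤ B :=
      le_trans (Finset.single_le_sum (fun _ _ => Nat.zero_le _) hP) le_self_add
    have h2 : q ≤ Ideal.absNorm P := hn ▸ Nat.le_self_pow hf.ne' q
    exact natCast_notMem_of_coprime hmax.ne_top
      ((Nat.coprime_primes hq hl).mpr (by omega)) hmem hlP
  -- the level
  set h : Polynomial ℚ := Polynomial.cyclotomic m₂ ℚ * ∏ P : T, Polynomial.cyclotomic (m P) ℚ
  have h0 : h ≠ 0 := mul_ne_zero (Polynomial.cyclotomic_ne_zero _ _)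
    (Finset.prod_ne_zero_iff.mpr fun P _ => Polynomial.cyclotomic_ne_zero _ _)
  obtain ⟨F', _, _, _, _, _, _, _, hsp⟩ := exists_extension K F h h0
  obtain ⟨η₂, hη₂⟩ := exists_root_of_splits (F := F') hm₂.pos hsp h0 (dvd_mul_right _ _)
  choose η hη using fun P : T => exists_root_of_splits (F := F') (hm P).pos hsp h0
    ((Finset.dvd_prod_of_mem (fun P : T => Polynomial.cyclotomic (m P) ℚ)
      (Finset.mem_univ P)).trans (dvd_mul_left _ _))
  have : Fact m₂.Prime := ⟨hm₂⟩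
  have hfact : ∀ P : T, Fact (m P).Prime := fun P => ⟨hm P⟩
  set χ' := inflate (F := F') χ
  have hunr' : ∀ P : Ideal (𝓞 K), P.IsMaximal → UnrAt χ' P := fun P hP => unrAt_inflate (hunr P hP)
  have hrange : χ'.range = χ.range := by
    rw [MonoidHom.range_comp,
      MonoidHom.range_eq_top.mpr (AlgEquiv.restrictNormalHom_surjective _), ← MonoidHom.range_eq_map]
  have : IsCyclic χ'.range := hrange ▸ ‹IsCyclic χ.range›
  have h4' : ∀ σ, χ' σ ^ 4 = 1 := fun σ => h4 _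
  -- a cyclotomic character modulo `m₂` with the same values
  obtain ⟨⟨a₀, ha₀⟩, hgen⟩ := IsCyclic.exists_generator (α := χ'.range)
  obtain ⟨g, hg⟩ := IsCyclic.exists_generator (α := (ZMod m₂)ˣ)
  have hdvd : orderOf a₀ ∣ orderOf g := by
    rw [orderOf_eq_card_of_forall_mem_zpowers hg, Nat.card_eq_fintype_card, ZMod.card_units]
    obtain ⟨σ, rfl⟩ := ha₀
    exact (orderOf_dvd_of_pow_eq_one (h4' σ)).trans h4m₂
  set ℓ : (ZMod m₂)ˣ →* A := monoidHomOfForallMemZpowers hg hdvd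
  have hℓ4 : ∀ u, ℓ u ^ 4 = 1 := fun u => by
    obtain ⟨σ, rfl⟩ := ha₀
    obtain ⟨k, rfl⟩ := Subgroup.mem_zpowers_iff.mp (hg u)
    rw [map_zpow, monoidHomOfForallMemZpowers_apply_gen, ← zpow_natCast, ← zpow_mul, mul_comm,
      zpow_mul, zpow_natCast, h4', one_zpow]
  have hℓsurj : ∀ σ, ∃ u, ℓ u = χ' σ := fun σ => by
    obtain ⟨k, hk⟩ := Subgroup.mem_zpowers_iff.mp (hgen ⟨χ' σ, σ, rfl⟩)
    refine ⟨g ^ k, ?_⟩
    rw [map_zpow, monoidHomOfForallMemZpowers_apply_gen]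
    exact congrArg Subtype.val hk
  set H₂ : Subgroup Gal(F'/K) := MonoidHom.eqLocus χ' (ℓ.comp (cyclo K hη₂))
  have hH₂n : H₂.Normal := normal_eqLocus _ _
  have hne : ∀ P : T, m P ≠ m₂ := fun P => by have := hBm P; omega
  have hBP : ∀ P : T, B < m P := fun P => lt_of_le_of_lt (le_max_left _ _) (hBm P)
  have hsurjP : ∀ P : T, (H₂ ⊓ (cyclo K (hη P)).ker).map χ' = χ'.range := by
    intro P
    refine le_antisymm (Subgroup.map_le_range _ _) ?_
    rintro _ ⟨σ, rfl⟩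
    obtain ⟨τ₁, t1, t1κ, t1o⟩ := exists_inertia_lift (F₀ := F) (hη P) (hbad _ (hm P) (hBP P)) χ
      (cyclo K (hη P) σ)⁻¹
    obtain ⟨u, hu⟩ := hℓsurj σ
    obtain ⟨τ₂, t2, t2κ, t2o⟩ := exists_inertia_lift (F₀ := F) hη₂ (hbad _ hm₂ hBm₂) χ
      ((cyclo K hη₂ σ)⁻¹ * u)
    refine ⟨σ * τ₁ * τ₂, ⟨?_, ?_⟩, ?_⟩
    · show χ' _ = ℓ (cyclo K hη₂ (σ * τ₁ * τ₂))
      rw [map_mul χ', map_mul χ', t1, t2, mul_one, mul_one, map_mul (cyclo K hη₂),
        map_mul (cyclo K hη₂), t1o m₂ hη₂ (hne P).symm, t2κ, mul_one, mul_inv_cancel_left, hu]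
    · show cyclo K (hη P) (σ * τ₁ * τ₂) = 1
      rw [map_mul, map_mul, t1κ, t2o (m P) (hη P) (hne P), mul_inv_cancel, one_mul]
    · rw [map_mul, map_mul, t1, t2, mul_one, mul_one]
  -- the three lines through a prime
  have hpair : ∀ P : T, Nat.card (linePairs χ' H₂) = Nat.card χ'.range ∧
      (quotClass χ' (⟨(P : Ideal (𝓞 K)), (hTmax P P.2).1.isPrime, (hTmax P P.2).2⟩ :
        HeightOneSpectrum (𝓞 K)), symb χ' (P : Ideal (𝓞 K))) ∈ linePairs χ' H₂ := by
    intro P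
    obtain ⟨hmax, hP0⟩ := hTmax P P.2
    have := hmax
    obtain ⟨Q, hQ, hQP⟩ := exists_prime_over (F := F') (P : Ideal (𝓞 K))
    obtain ⟨σ, hσ⟩ := exists_frob (K := K) Q
    set H₁ := H₂ ⊓ (cyclo K (hη P)).ker
    have hn₁ : H₁.Normal := Subgroup.normal_inf_normal _ _
    set Hw := H₁ ⊔ Subgroup.zpowers σ
    have hmQ : ∀ l : ℕ, l.Prime → B < l → (l : 𝓞 F') ∉ Q := fun l hl hBl hlQ =>
      hnotmem l hl hBl P P.2 (by rw [← hQP, Ideal.mem_comap, map_natCast]; exact hlQ)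
    have hκ : ((cyclo K (hη P) σ : (ZMod (m P))ˣ) : ZMod (m P)) =
        (Ideal.absNorm (P : Ideal (𝓞 K)) : ℕ) := by
      rw [cyclo_frob (hη P) hσ (by rw [hQP]; exact hnotmem _ (hm P) (hBP P) P P.2), hQP]
    have e2 := linePairs_spec χ' hunr' H₂ (le_antisymm (Subgroup.map_le_range _ _)
      ((hsurjP P).ge.trans (Subgroup.map_mono inf_le_left))) (hne P) (h2m P) h2m₂ (hη P) hη₂
      fun τ hτ _ h' => by
        rw [(show χ' τ = ℓ (cyclo K hη₂ τ) from hτ), h', map_one]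
    have e1 := linePairs_spec χ' hunr' H₁ (hsurjP P) (hne P) (h2m P) h2m₂ (hη P) hη₂
      fun τ hτ _ h' => by
        rw [(show χ' τ = ℓ (cyclo K hη₂ τ) from hτ.1), h', map_one]
    have ew := linePairs_spec χ' hunr' Hw (le_antisymm (Subgroup.map_le_range _ _)
      ((hsurjP P).ge.trans (Subgroup.map_mono le_sup_left))) (hne P) (h2m P) h2m₂ (hη P) hη₂
      fun τ hτ k₀ k₂ => by
        obtain ⟨τ', ⟨hτ', hτ'κ⟩, y, hy, rfl⟩ := Subgroup.mem_sup_of_normal_left.mp hτ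
        obtain ⟨i, rfl⟩ := Subgroup.mem_zpowers_iff.mp hy
        rw [map_mul, hτ'κ, one_mul, map_zpow] at k₀
        rw [map_mul, map_zpow] at k₂
        have h4i : (4 : ℤ) ∣ i := by
          refine dvd_trans (Int.natCast_dvd_natCast.mpr ?_) (orderOf_dvd_iff_zpow_eq_one.mpr k₀)
          rw [← orderOf_units, hκ]
          exact hord P
        obtain ⟨j, rfl⟩ := h4i
        rw [map_mul, (show χ' τ' = ℓ (cyclo K hη₂ τ') from hτ'), eq_inv_of_mul_eq_one_left k₂,
          map_zpow, zpow_mul (χ' σ), show ((4 : ℤ)) = ((4 : ℕ) : ℤ) from rfl, zpow_natCast, h4',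
          one_zpow, mul_one, map_inv, map_zpow, zpow_mul, zpow_natCast, hℓ4, one_zpow, inv_one]
    have heq1 : linePairs χ' H₁ = linePairs χ' H₂ := by
      have hfin : Finite (linePairs χ' H₂) := Nat.finite_of_card_ne_zero (by
        rw [e2.1]; exact (Nat.card_pos (α := χ'.range)).ne')
      exact Subgroup.eq_of_le_of_card_ge (linePairs_mono χ' inf_le_left) (by rw [e1.1, e2.1])
    have heqw : linePairs χ' H₁ = linePairs χ' Hw := by
      have hfin : Finite (linePairs χ' Hw) := Nat.finite_of_card_ne_zero (by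
        rw [ew.1]; exact (Nat.card_pos (α := χ'.range)).ne')
      exact Subgroup.eq_of_le_of_card_ge (linePairs_mono χ' le_sup_left) (by rw [e1.1, ew.1])
    refine ⟨e2.1, ?_⟩
    rw [← heq1, heqw]
    have hmem := ew.2.2 ⟨Q, hQ.isPrime, Ring.ne_bot_of_isMaximal_of_not_isField hQ
      (RingOfIntegers.not_isField F')⟩ σ (Subgroup.mem_sup_right (Subgroup.mem_zpowers σ)) hσ
      (hmQ _ (hm P) (hBP P)) (hmQ _ hm₂ hBm₂)
    rw [symb_eq (hunr' _ hmax) hQ hQP hσ]
    convert hmem using 3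
    exact HeightOneSpectrum.ext hQP.symm
  -- conclusion
  have hxT : ∀ P ∈ normalizedFactors (Ideal.span {x}), P ∈ T := fun P hP =>
    Finset.mem_union_right _ (Multiset.mem_toFinset.mpr hP)
  rw [← idealSymb_inflate (F := F') (χ := χ) fun P hP => hunr P (hTmax P (hxT P hP)).1]
  rcases T.eq_empty_or_nonempty with hT | ⟨P₀, hP₀⟩
  · have : normalizedFactors (Ideal.span {x}) = 0 := Multiset.eq_zero_of_forall_notMem fun P hP => by
      simpa [hT] using hxT P hP
    simp [idealSymb, this]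
  exact idealSymb_span_eq_one_of_lines χ' h4' hunr' (linePairs χ' H₂) (hpair ⟨P₀, hP₀⟩).1 T
    (fun P hP => (hpair ⟨P.asIdeal, hP⟩).2)
    (fun C => ⟨rep C, hrep C, fun P hP => Finset.mem_union_left _ (Finset.mem_biUnion.mpr
      ⟨C, Finset.mem_univ C, Multiset.mem_toFinset.mpr hP⟩)⟩) hx hxT

end Fermat.Agent.LT.Recip
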