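import Fermat.Agent.LT.Recip.SplitClasses
import Fermat.Agent.S14.Genus

/-!
# The first inequality for unramified characters of order two and four

The order four case is two quadratic genus inequalities: the kernel of the norm on the classes of
the middle field `L₀` is `C ↦ g C / C`, which lies in the split classes of `χ` over `L₀`.
-/

set_option autoImplicit false
set_option linter.unusedSectionVars false

noncomputable section

namespace Fermat.Agent.LT.Recip

open NumberField IsDedekindDomain Fermat.Agent.S14 Fermat.Agent.S14.Cross Fermat.Agent.S14.Genus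
open IntermediateField (fixedField)
open scoped Pointwise nonZeroDivisors

variable {K F : Type} [Field K] [NumberField K] [Field F] [NumberField F] [Algebra K F]
  [IsGalois K F] [IsGalois ℚ F] {A : Type} [CommGroup A]

instance numberField_intermediate (L : IntermediateField K F) : NumberField L :=
  NumberField.of_module_finite K L

lemma finrank_fixedField_ker (χ : Gal(F/K) →* A) :
    Module.finrank K (fixedField χ.ker) = Nat.card χ.range := by
  have h := Module.finrank_mul_finrank K (fixedField χ.ker) F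
  rw [IntermediateField.finrank_fixedField_eq_card, ← IsGalois.card_aut_eq_finrank K F,
    ← Subgroup.card_mul_index χ.ker, mul_comm (Nat.card χ.ker)] at h
  rw [← Subgroup.index_ker]
  exact Nat.eq_of_mul_eq_mul_right Nat.card_pos h

/-- An unramified character gives an unramified fixed field. -/
lemma not_sq_dvd_fixedField (χ : Gal(F/K) →* A)
    (hunr : ∀ P : Ideal (𝓞 K), P.IsMaximal → UnrAt χ P) (Q : Ideal (𝓞 (fixedField χ.ker)))
    (hQ : Q.IsPrime) (hQ0 : Q ≠ ⊥) :
    ¬ Q ^ 2 ∣ (Q.under (𝓞 K)).map (algebraMap (𝓞 K) (𝓞 (fixedField χ.ker))) := by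
  refine not_sq_dvd_of_inertia (F := F) (fun R hR σ hσ hfix => ?_) Q hQ hQ0
  let τ : Gal(F/K) := AlgEquiv.ofRingEquiv (f := σ.toRingEquiv) hfix
  have hτ : χ τ = 1 :=
    hunr _ (have := hR; Ideal.IsMaximal.under (𝓞 K) R) R hR rfl τ fun x => hσ x
  exact fun x => (IntermediateField.mem_fixedField_iff _ _).mp x.2 τ hτ

/-- A good Frobenius witness for a prime of the split set. -/
lemma exists_of_mem_splitSet {χ : Gal(F/K) →* A} {P : HeightOneSpectrum (𝓞 K)}
    (hP : P ∈ splitSet χ) : ∃ Q : HeightOneSpectrum (𝓞 F), ∃ σ : Gal(F/K),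
      IsGood Q ∧ underP K Q = P ∧ resHom ℚ σ = frob Q ∧ χ σ = 1 := by
  obtain ⟨⟨Q, hQ, hQP⟩, hp, hs⟩ := hP
  obtain rfl : underP K Q = P := HeightOneSpectrum.ext hQP
  have hmem : frob Q ∈ relGroup K F := frob_mem_of_prime hQ (by
    rw [← primeEquiv_underP, absNorm_primeEquiv]; exact hp)
  obtain ⟨σ, hσ⟩ := hmem
  exact ⟨Q, σ, hQ, rfl, hσ, (symb_underP χ hQ hσ).symm.trans hs⟩

/-- A split prime is the norm of the split prime above it. -/
lemma exists_relNorm_of_mem_splitSet {L : Type} [Field L] [NumberField L] [Algebra K L]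
    [Algebra L F] [IsScalarTower K L F] [IsGalois L F] {χ : Gal(F/K) →* A}
    (hfix : ∀ σ, χ σ = 1 → ∀ x : L, σ (algebraMap L F x) = algebraMap L F x)
    {P : HeightOneSpectrum (𝓞 K)} (hP : P ∈ splitSet χ) :
    ∃ P' : HeightOneSpectrum (𝓞 L), GoodBelow F P'.asIdeal ∧
      (Ideal.absNorm P'.asIdeal).Prime ∧ symb (χ.comp (resHom K)) P'.asIdeal = 1 ∧
      Ideal.relNorm (𝓞 K) P'.asIdeal = P.asIdeal := by
  obtain ⟨Q, σ, hQ, rfl, hσ, hχ⟩ := exists_of_mem_splitSet hP
  let σ' : Gal(F/L) := AlgEquiv.ofRingEquiv (f := σ.toRingEquiv) (hfix σ hχ)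
  have hres : resHom K σ' = σ := AlgEquiv.ext fun _ => rfl
  have hσ' : resHom ℚ σ' = frob Q := hσ ▸ AlgEquiv.ext fun _ => rfl
  have hK := prime_absNorm_underP (K := K) hQ ⟨σ, hσ⟩
  have hL := prime_absNorm_underP (K := L) hQ ⟨σ', hσ'⟩
  refine ⟨underP L Q, ⟨Q, hQ, rfl⟩, hL.1, ?_, relNorm_under_eq Q hK.1 (hL.2.trans hK.2.symm)⟩
  rw [symb_underP _ hQ hσ', MonoidHom.comp_apply, hres, hχ]

/-- Split classes lie in every kernel of norms from a field fixed by `ker χ`. -/
lemma splitClasses_le_ker {L : Type} [Field L] [NumberField L] [Algebra K L]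
    [Algebra L F] [IsScalarTower K L F] [IsGalois L F] {χ : Gal(F/K) →* A}
    (hfix : ∀ σ, χ σ = 1 → ∀ x : L, σ (algebraMap L F x) = algebraMap L F x)
    {B : Type*} [CommGroup B] (ψ : ClassGroup (𝓞 K) →* B)
    (hψ : ∀ (I : Ideal (𝓞 L)) (h : Ideal.relNorm (𝓞 K) I ∈ (Ideal (𝓞 K))⁰),
      ψ (ClassGroup.mk0 ⟨Ideal.relNorm (𝓞 K) I, h⟩) = 1) :
    splitClasses χ ≤ ψ.ker := by
  refine (Subgroup.closure_le _).mpr ?_
  rintro _ ⟨P, hP, rfl⟩
  obtain ⟨P', -, -, -, hrel⟩ := exists_relNorm_of_mem_splitSet hfix hP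
  have h := hψ P'.asIdeal (hrel ▸ (primeIdeal P).2)
  show ψ (ClassGroup.mk0 (primeIdeal P)) = 1
  rw [show primeIdeal P = ⟨Ideal.relNorm (𝓞 K) P'.asIdeal, hrel ▸ (primeIdeal P).2⟩ from
    Subtype.ext hrel.symm]
  exact h

lemma two_le_index_of_lt {G : Type*} [CommGroup G] [Finite G] {H : Subgroup G} {B : Type*}
    [CommGroup B] (ψ : G →* B) (hψ : ψ ≠ 1) (hle : H ≤ ψ.ker) : 2 ≤ H.index := by
  have h1 : ψ.ker ≠ ⊤ := fun h => hψ (MonoidHom.ext fun x => by
    have : x ∈ ψ.ker := h ▸ Subgroup.mem_top x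
    exact this)
  have h2 := Subgroup.one_lt_index_of_ne_top h1
  exact le_trans h2 (Nat.le_of_dvd (Nat.pos_of_ne_zero Subgroup.FiniteIndex.index_ne_zero)
    (Subgroup.index_dvd_of_le hle))

lemma fixed_of_map_eq_one (χ : Gal(F/K) →* A) (σ : Gal(F/K)) (h : χ σ = 1) (x : fixedField χ.ker) :
    σ (algebraMap (fixedField χ.ker) F x) = algebraMap (fixedField χ.ker) F x :=
  (IntermediateField.mem_fixedField_iff _ _).mp x.2 σ h

/-- The quadratic case. -/
theorem exists_kills_norms [IsTotallyComplex K] (χ : Gal(F/K) →* A)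
    (h2 : Nat.card χ.range = 2) (hunr : ∀ P : Ideal (𝓞 K), P.IsMaximal → UnrAt χ P) :
    ∃ ψ : ClassGroup (𝓞 K) →* Multiplicative (ZMod 2), ψ ≠ 1 ∧
      splitClasses χ ≤ ψ.ker ∧ (normClass K (fixedField χ.ker)).range ≤ ψ.ker := by
  have : Fact (Nat.Prime 2) := ⟨Nat.prime_two⟩
  have hdeg : Module.finrank K (fixedField χ.ker) = 2 := (finrank_fixedField_ker χ).trans h2
  obtain ⟨ψ, hψ, hkill⟩ := exists_classGroupHom_kills_norms_of_unramified 2 K (fixedField χ.ker)
    hdeg (not_sq_dvd_fixedField χ hunr)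
  refine ⟨ψ, hψ, splitClasses_le_ker (fixed_of_map_eq_one χ) ψ hkill, ?_⟩
  rintro _ ⟨C, rfl⟩
  obtain ⟨I, rfl⟩ := ClassGroup.mk0_surjective C
  rw [MonoidHom.mem_ker, normClass_mk0]
  exact hkill I _

theorem two_le_index_splitClasses [IsTotallyComplex K] (χ : Gal(F/K) →* A)
    (h2 : Nat.card χ.range = 2) (hunr : ∀ P : Ideal (𝓞 K), P.IsMaximal → UnrAt χ P) :
    2 ≤ (splitClasses χ).index := by
  obtain ⟨ψ, hψ, h, -⟩ := exists_kills_norms χ h2 hunr
  exact two_le_index_of_lt ψ hψ h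

/-- The index of the norms from a quadratic unramified extension is two. -/
theorem index_range_normClass [IsTotallyComplex K] (χ : Gal(F/K) →* A)
    (h2 : Nat.card χ.range = 2) (hunr : ∀ P : Ideal (𝓞 K), P.IsMaximal → UnrAt χ P) :
    (normClass K (fixedField χ.ker)).range.index = 2 := by
  obtain ⟨ψ, hψ, -, h⟩ := exists_kills_norms χ h2 hunr
  refine le_antisymm ?_ (two_le_index_of_lt ψ hψ h)
  refine le_trans (Nat.le_of_dvd (Nat.pos_of_ne_zero Subgroup.FiniteIndex.index_ne_zero)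
    (Subgroup.index_dvd_of_le ((Subgroup.closure_le _).mpr ?_)))
    ((index_splitClasses_le χ).trans h2.le)
  rintro _ ⟨P, hP, rfl⟩
  obtain ⟨P', -, -, -, hrel⟩ := exists_relNorm_of_mem_splitSet (fixed_of_map_eq_one χ) hP
  exact ⟨ClassGroup.mk0 (primeIdeal P'), by
    rw [normClass_mk0]; exact congrArg _ (Subtype.ext hrel)⟩

/-- The split classes over a normal intermediate field are Galois stable. -/
lemma galClass_mem_splitClasses {L : IntermediateField K F} [IsGalois K L] (χ : Gal(F/K) →* A)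
    (g : Gal(L/K)) {C : ClassGroup (𝓞 L)}
    (hC : C ∈ splitClasses (χ.comp (resHom K (K' := L) (F := F)))) :
    galClass g C ∈ splitClasses (χ.comp (resHom K (K' := L) (F := F))) := by
  have : IsGalois L F := IsGalois.tower_top_of_isGalois K L F
  obtain ⟨t, rfl⟩ := AlgEquiv.restrictNormalHom_surjective (F := K) (K₁ := L) F g
  set g := AlgEquiv.restrictNormalHom L t with hg
  have hle : splitClasses (χ.comp (resHom K (K' := L) (F := F))) ≤
      (splitClasses (χ.comp (resHom K (K' := L) (F := F)))).comap (galClass g) := by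
    refine (Subgroup.closure_le _).mpr ?_
    rintro _ ⟨P, hP, rfl⟩
    obtain ⟨Q, σ, hQ, rfl, hσ, hχ⟩ := exists_of_mem_splitSet hP
    have hfix : ∀ x : L, (t * resHom K σ * t⁻¹) (algebraMap L F x) = algebraMap L F x := fun x => by
      have h1 : t⁻¹ (algebraMap L F x) = algebraMap L F (g⁻¹ x) := by
        rw [hg, ← map_inv]
        exact (AlgEquiv.restrictNormal_commutes t⁻¹ L x).symm
      show t (σ (t⁻¹ (algebraMap L F x))) = _
      rw [h1, σ.commutes, ← h1, ← AlgEquiv.mul_apply, mul_inv_cancel, AlgEquiv.one_apply]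
    let σ' : Gal(F/L) := AlgEquiv.ofRingEquiv (f := (t * resHom K σ * t⁻¹).toRingEquiv) hfix
    obtain ⟨hQ', hfr⟩ := frob_conjPrime (resHom ℚ t) hQ
    have hσ' : resHom ℚ σ' = frob (conjPrime (resHom ℚ t) Q) := by
      rw [hfr, ← hσ]
      exact AlgEquiv.ext fun _ => rfl
    have hideal : ∀ y : 𝓞 L, y ∈ (underP L (conjPrime (resHom ℚ t) Q)).asIdeal ↔
        g⁻¹ • y ∈ (underP L Q).asIdeal := fun y => by
      show algebraMap (𝓞 L) (𝓞 F) y ∈ t • Q.asIdeal ↔ algebraMap (𝓞 L) (𝓞 F) (g⁻¹ • y) ∈ Q.asIdeal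
      rw [Ideal.mem_pointwise_smul_iff_inv_smul_mem, hg, ← map_inv, restrictNormalHom_smul]
    rw [SetLike.mem_coe, Subgroup.mem_comap]
    rw [galClass_mk0]
    refine Subgroup.subset_closure ⟨underP L (conjPrime (resHom ℚ t) Q),
      ⟨⟨_, hQ', rfl⟩, (prime_absNorm_underP hQ' ⟨σ', hσ'⟩).1, ?_⟩, ?_⟩
    · rw [symb_underP _ hQ' hσ']
      show χ (resHom K σ') = 1
      rw [show resHom K σ' = t * resHom K σ * t⁻¹ from AlgEquiv.ext fun _ => rfl, map_conj_eq]
      exact hχ
    · refine congrArg ClassGroup.mk0 (Subtype.ext (Ideal.ext fun y => ?_))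
      show y ∈ (underP L (conjPrime (resHom ℚ t) Q)).asIdeal ↔
        y ∈ g • (underP L Q).asIdeal
      rw [hideal, Ideal.mem_pointwise_smul_iff_inv_smul_mem]
  exact hle hC

/-- Over a quadratic unramified `L/K` the kernel of the norm on classes consists of the
`g C / C`. -/
lemma ker_normClass_le {L : Type} [Field L] [NumberField L] [Algebra K L] [IsGalois K L]
    [IsTotallyComplex K] (hdeg : Module.finrank K L = 2)
    (hunr : ∀ Q : Ideal (𝓞 L), Q.IsPrime → Q ≠ ⊥ →
      ¬ Q ^ 2 ∣ (Q.under (𝓞 K)).map (algebraMap (𝓞 K) (𝓞 L)))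
    (hidx : (normClass K L).range.index = 2) {g : Gal(L/K)} (hg : g ≠ 1) :
    (normClass K L).ker ≤ (galClass g / MonoidHom.id (ClassGroup (𝓞 L))).range := by
  classical
  have : Fact (Nat.Prime 2) := ⟨Nat.prime_two⟩
  obtain ⟨hu, hQ⟩ := units_index hdeg hg
  set N := normClass K L
  set τ : ClassGroup (𝓞 L) →* ClassGroup (𝓞 L) := galClass g / MonoidHom.id _
  have hle : τ.range ≤ N.ker := by
    rintro _ ⟨C, rfl⟩
    obtain ⟨I, rfl⟩ := ClassGroup.mk0_surjective C
    rw [MonoidHom.mem_ker]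
    simp only [τ, MonoidHom.div_apply, MonoidHom.id_apply, map_div, galClass_mk0]
    rw [normClass_mk0, normClass_mk0, div_eq_one]
    congr 1
    exact Subtype.ext (Ideal.relNorm_smul (𝓞 K) g (I : Ideal (𝓞 L)))
  have h2 := card_fixed_mul_le hdeg hg hunr hQ
  have h3 := relIndex_le_card_ker hdeg hg hunr
  rw [hu] at h3
  have hτker : Nat.card τ.ker = Nat.card {C : ClassGroup (𝓞 L) // galClass g C = C} :=
    Nat.card_congr (Equiv.subtypeEquivRight fun C => by
      simp [τ, MonoidHom.mem_ker, div_eq_one])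
  have h4 : Nat.card (extClass K L).range * Nat.card (extClass K L).ker =
      Nat.card (ClassGroup (𝓞 K)) := by
    rw [← Subgroup.index_ker, mul_comm, Subgroup.card_mul_index]
  have h5 : N.range.index * Nat.card N.range = Nat.card (ClassGroup (𝓞 K)) :=
    Subgroup.index_mul_card _
  rw [hidx] at h5
  have hT : Nat.card τ.ker ≤ Nat.card N.range := by
    rw [hτker]
    have h6 : (normUnits K L).range.index * Nat.card (extClass K L).range * 2 ≤
        Nat.card (ClassGroup (𝓞 K)) := by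
      rw [← h4]
      calc _ = Nat.card (extClass K L).range * (2 * (normUnits K L).range.index) := by ring
        _ ≤ _ := Nat.mul_le_mul_left _ h3
    have := Nat.mul_le_mul_right 2 h2
    omega
  have e1 : Nat.card τ.ker * Nat.card τ.range = Nat.card N.ker * Nat.card N.range := by
    rw [← Subgroup.index_ker, ← Subgroup.index_ker, Subgroup.card_mul_index,
      Subgroup.card_mul_index]
  have hcard : Nat.card N.ker ≤ Nat.card τ.range := by
    refine Nat.le_of_mul_le_mul_right ?_ (Nat.card_pos : 0 < Nat.card N.range)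
    rw [← e1, mul_comm (Nat.card τ.range)]
    exact Nat.mul_le_mul_right _ hT
  exact (Subgroup.eq_of_le_of_card_ge hle hcard).ge

/-- The order four case. -/
theorem four_le_index_splitClasses [IsTotallyComplex K] (χ : Gal(F/K) →* A)
    [IsCyclic χ.range] (h4 : Nat.card χ.range = 4)
    (hunr : ∀ P : Ideal (𝓞 K), P.IsMaximal → UnrAt χ P) :
    4 ≤ (splitClasses χ).index := by
  classical
  obtain ⟨⟨a, σ₀, rfl⟩, hgen⟩ := IsCyclic.exists_generator (α := χ.range)
  have hord : orderOf (χ σ₀) = 4 := by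
    rw [← h4, ← orderOf_eq_card_of_forall_mem_zpowers hgen, ← Subgroup.orderOf_coe]
  have hpow : ∀ σ : Gal(F/K), ∃ k : ℤ, χ σ = χ σ₀ ^ k := fun σ => by
    obtain ⟨k, hk⟩ := Subgroup.mem_zpowers_iff.mp (hgen ⟨χ σ, σ, rfl⟩)
    exact ⟨k, (congrArg Subtype.val hk).symm⟩
  -- the quadratic character and its field
  set χ₂ := χ * χ
  have hrange : χ₂.range = Subgroup.zpowers (χ σ₀ ^ 2) := by
    refine le_antisymm ?_ (Subgroup.zpowers_le.mpr ⟨σ₀, (sq _).symm⟩)
    rintro _ ⟨σ, rfl⟩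
    obtain ⟨k, hk⟩ := hpow σ
    refine ⟨k, ?_⟩
    show (χ σ₀ ^ 2) ^ k = χ σ * χ σ
    rw [hk, sq, mul_zpow]
  have h2 : Nat.card χ₂.range = 2 := by
    rw [hrange, Nat.card_zpowers, orderOf_pow' _ two_ne_zero, hord]
    rfl
  have hunr₂ : ∀ P : Ideal (𝓞 K), P.IsMaximal → UnrAt χ₂ P := fun P hP Q hQ hQP σ hσ => by
    show χ σ * χ σ = 1
    rw [hunr P hP Q hQ hQP σ hσ, one_mul]
  set L := fixedField χ₂.ker
  have : IsGalois L F := IsGalois.tower_top_of_isGalois K L F
  have : IsTotallyComplex L := isTotallyComplex_of_algebra K L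
  set χ' := χ.comp (resHom K (K' := L) (F := F))
  have hunr' : ∀ P : Ideal (𝓞 L), P.IsMaximal → UnrAt χ' P := fun P hP =>
    unrAt_comp (hunr _ (Ideal.IsMaximal.under (𝓞 K) P))
  have hrange' : χ'.range = Subgroup.zpowers (χ σ₀ ^ 2) := by
    refine le_antisymm ?_ (Subgroup.zpowers_le.mpr ?_)
    · rintro _ ⟨σ, rfl⟩
      obtain ⟨k, hk⟩ := hpow (resHom K σ)
      have hmem : resHom K σ ∈ χ₂.ker := by
        have : resHom K σ ∈ L.fixingSubgroup :=
          (IntermediateField.mem_fixingSubgroup_iff _ _).mpr fun x hx => σ.commutes ⟨x, hx⟩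
        rwa [IntermediateField.fixingSubgroup_fixedField] at this
      have hsq : χ σ₀ ^ (2 * k) = 1 := by
        rw [mul_comm, zpow_mul, zpow_two, ← hk]
        exact hmem
      rw [← orderOf_dvd_iff_zpow_eq_one, hord] at hsq
      obtain ⟨j, hj⟩ := (show (2 : ℤ) ∣ k by omega)
      refine ⟨j, ?_⟩
      show (χ σ₀ ^ 2) ^ j = χ (resHom K σ)
      rw [hk, hj, ← zpow_natCast, ← zpow_mul]
      rfl
    · have hmem : σ₀ * σ₀ ∈ χ₂.ker := by
        show χ (σ₀ * σ₀) * χ (σ₀ * σ₀) = 1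
        rw [map_mul, ← sq, ← sq, ← pow_mul, show 2 * 2 = orderOf (χ σ₀) from hord.symm, pow_orderOf_eq_one]
      refine ⟨AlgEquiv.ofRingEquiv (f := (σ₀ * σ₀).toRingEquiv)
        fun x => (IntermediateField.mem_fixedField_iff _ _).mp x.2 _ hmem, ?_⟩
      rw [sq, ← map_mul]
      exact congrArg χ (AlgEquiv.ext fun _ => rfl)
  have h2' : Nat.card χ'.range = 2 := by rw [hrange', ← hrange, h2]
  have hdeg : Module.finrank K L = 2 := (finrank_fixedField_ker χ₂).trans h2
  obtain ⟨g, hg⟩ : ∃ g : Gal(L/K), g ≠ 1 := by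
    have : Nontrivial Gal(L/K) := by
      rw [← Finite.one_lt_card_iff_nontrivial, IsGalois.card_aut_eq_finrank, hdeg]
      exact one_lt_two
    exact exists_ne 1
  set N₀ := normClass K L
  set X := splitClasses χ'
  have hX : X.index = 2 := le_antisymm ((index_splitClasses_le χ').trans h2'.le)
    (two_le_index_splitClasses χ' h2' hunr')
  have hN₀ : N₀.range.index = 2 := index_range_normClass χ₂ h2 hunr₂
  have hker : N₀.ker ≤ X := by
    refine (ker_normClass_le hdeg (not_sq_dvd_fixedField χ₂ hunr₂) hN₀ hg).trans ?_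
    rintro _ ⟨C, rfl⟩
    show galClass g C / C ∈ X
    rw [div_eq_mul_inv, Subgroup.mul_mem_iff_of_index_two hX, inv_mem_iff]
    refine ⟨fun h => ?_, fun h => galClass_mem_splitClasses χ g h⟩
    have h' := galClass_mem_splitClasses χ g⁻¹ h
    obtain ⟨I, rfl⟩ := ClassGroup.mk0_surjective C
    rw [galClass_mk0, galClass_mk0] at h'
    convert h' using 1
    refine congrArg ClassGroup.mk0 (Subtype.ext (?_ : (I : Ideal (𝓞 L)) = g⁻¹ • g • (I : Ideal (𝓞 L))))
    rw [inv_smul_smul]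
  have hmap : (X.map N₀).index = 4 := by
    rw [Subgroup.index_map, sup_eq_left.mpr hker, hX, hN₀]
  have hle : splitClasses χ ≤ X.map N₀ := by
    refine (Subgroup.closure_le _).mpr ?_
    rintro _ ⟨P, hP, rfl⟩
    obtain ⟨P', hg', hp', hs', hrel⟩ := exists_relNorm_of_mem_splitSet (L := L) (fun σ h x =>
      (IntermediateField.mem_fixedField_iff _ _).mp x.2 σ (by
        show χ σ * χ σ = 1
        rw [h, one_mul])) hP
    refine ⟨ClassGroup.mk0 (primeIdeal P'), Subgroup.subset_closure ⟨P', ⟨hg', hp', hs'⟩, rfl⟩, ?_⟩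
    rw [normClass_mk0]
    exact congrArg _ (Subtype.ext hrel)
  rw [← hmap]
  exact Nat.le_of_dvd (Nat.pos_of_ne_zero Subgroup.FiniteIndex.index_ne_zero)
    (Subgroup.index_dvd_of_le hle)

/-- The first inequality for an unramified character of exponent four. -/
theorem card_range_le_index_splitClasses [IsTotallyComplex K] (χ : Gal(F/K) →* A)
    (h4 : ∀ σ, χ σ ^ 4 = 1) [IsCyclic χ.range]
    (hunr : ∀ P : Ideal (𝓞 K), P.IsMaximal → UnrAt χ P) :
    Nat.card χ.range ≤ (splitClasses χ).index := by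
  obtain ⟨⟨a, σ₀, rfl⟩, hgen⟩ := IsCyclic.exists_generator (α := χ.range)
  have hdvd : Nat.card χ.range ∣ 2 ^ 2 := by
    rw [← orderOf_eq_card_of_forall_mem_zpowers hgen, ← Subgroup.orderOf_coe]
    exact orderOf_dvd_of_pow_eq_one (h4 σ₀)
  obtain ⟨k, hk, hcard⟩ := (Nat.dvd_prime_pow Nat.prime_two).mp hdvd
  interval_cases k
  · rw [hcard, pow_zero]
    exact Nat.pos_of_ne_zero Subgroup.FiniteIndex.index_ne_zero
  · rw [hcard, pow_one]
    exact two_le_index_splitClasses χ (hcard.trans (pow_one 2)) hunr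
  · rw [hcard]
    exact four_le_index_splitClasses χ hcard hunr

end Fermat.Agent.LT.Recip
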