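import Fermat.Agent.LT.Recip.Basic
import Fermat.Agent.S14.Cross.BridgeLevel
import Mathlib.NumberTheory.NumberField.Cyclotomic.Ideal
import Mathlib.NumberTheory.Cyclotomic.Gal
import Mathlib.RingTheory.Invariant.Basic

/-!
# Inertia at `m` surjects onto the Galois group of the `m`-th cyclotomic field
-/

set_option autoImplicit false
set_option linter.unusedSectionVars false

noncomputable section

namespace Fermat.Agent.LT.Recip

open NumberField IsDedekindDomain Fermat.Agent.S14.Cross Fermat.Agent.S14.Cross.BridgeLevel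
open scoped Pointwise

variable {F : Type} [Field F] [NumberField F] [IsGalois ℚ F]

lemma autToPow_surjective {n : ℕ} [NeZero n] {η : F} (hη : IsPrimitiveRoot η n) :
    Function.Surjective (hη.autToPow ℚ) := by
  intro u
  have hn := NeZero.pos n
  have hη' := hη.pow_of_coprime _ (ZMod.val_coe_unit_coprime u)
  have heq : minpoly ℚ η = minpoly ℚ (η ^ (u : ZMod n).val) := by
    rw [← Polynomial.cyclotomic_eq_minpoly_rat hη hn, Polynomial.cyclotomic_eq_minpoly_rat hη' hn]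
  obtain ⟨σ, hσ⟩ := minpoly.exists_algEquiv_of_root (K := ℚ)
    (x := η) (y := η ^ (u : ZMod n).val) (Algebra.IsAlgebraic.isAlgebraic _) (by
      rw [← heq]; exact minpoly.aeval ℚ _)
  refine ⟨σ, Units.ext ?_⟩
  rw [← ZMod.natCast_zmod_val (u : ZMod n)]
  exact (autToPow_eq_iff hη _ _).mpr hσ

/-- Every class mod `m` is the cyclotomic value of an inertia element at a given prime over `m`. -/
theorem exists_inertia_autToPow {m : ℕ} [hm : Fact m.Prime] {η : F} (hη : IsPrimitiveRoot η m)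
    (Q : Ideal (𝓞 F)) [hQ : Q.IsMaximal] (hmQ : (m : 𝓞 F) ∈ Q) (a : (ZMod m)ˣ) :
    ∃ σ ∈ Q.inertia Gal(F/ℚ), hη.autToPow ℚ σ = a := by
  have : NeZero m := ⟨hm.out.ne_zero⟩
  have hB := hη.intermediateField_adjoin_isCyclotomicExtension ℚ
  set B := IntermediateField.adjoin ℚ ({η} : Set F) with hBdef
  have : IsCyclotomicExtension {m} ℚ B := hB
  have hζ : IsPrimitiveRoot (⟨η, IntermediateField.mem_adjoin_simple_self ℚ η⟩ : B) m :=
    IsPrimitiveRoot.coe_submonoidClass_iff.mp hη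
  obtain ⟨σ₀, hσ₀⟩ := autToPow_surjective hη a
  have hover : ∀ R : Ideal (𝓞 F), R.IsMaximal → (m : 𝓞 F) ∈ R →
      (R.under (𝓞 B)).LiesOver (Ideal.span {(m : ℤ)}) := fun R hR hR' => by
    have := hR
    refine ⟨((Ideal.IsPrime.isMaximal ?_ ?_).eq_of_le (Ideal.IsPrime.ne_top inferInstance) ?_)⟩
    · exact (Ideal.span_singleton_prime (by exact_mod_cast hm.out.ne_zero)).mpr
        (Nat.prime_iff_prime_int.mp hm.out)
    · simpa using hm.out.ne_zero
    · rw [Ideal.span_singleton_le_iff_mem, Ideal.under_under, Ideal.mem_comap]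
      simpa using hR'
  have hu : ∀ R : Ideal (𝓞 F), R.IsMaximal → (m : 𝓞 F) ∈ R →
      R.under (𝓞 B) = Ideal.span {hζ.toInteger - 1} := fun R hR hR' => by
    have := hR
    have := hover R hR hR'
    exact IsCyclotomicExtension.Rat.eq_span_zeta_sub_one_of_liesOver' m B hζ _
  -- move back to `Q`
  have hmax : (σ₀ • Q).IsMaximal :=
    Ideal.map_isMaximal_of_equiv (MulSemiringAction.toRingEquiv Gal(F/ℚ) (𝓞 F) σ₀)
  have hmem : (m : 𝓞 F) ∈ σ₀ • Q := by
    have h := Ideal.smul_mem_pointwise_smul σ₀ _ _ hmQ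
    rwa [show σ₀ • (m : 𝓞 F) = m from
      map_natCast (MulSemiringAction.toRingEquiv Gal(F/ℚ) (𝓞 F) σ₀) _] at h
  obtain ⟨τ, hτ⟩ := Algebra.IsInvariant.exists_smul_of_under_eq (𝓞 B) (𝓞 F) Gal(F/B)
    (σ₀ • Q) Q ((hu _ hmax hmem).trans (hu Q hQ hmQ).symm)
  set σ₁ := resHom ℚ τ * σ₀
  have hfix : ∀ g : Gal(F/B), hη.autToPow ℚ (resHom ℚ g) = 1 := fun g => Units.ext (by
    rw [Units.val_one, ← Nat.cast_one]
    refine (autToPow_eq_iff hη _ _).mpr ?_
    rw [pow_one]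
    exact g.commutes ⟨η, IntermediateField.mem_adjoin_simple_self ℚ η⟩)
  have hσ₁ : hη.autToPow ℚ σ₁ = a := by rw [map_mul, hfix, hσ₀, one_mul]
  have hstab : σ₁ • Q = Q := by
    rw [mul_smul]
    exact hτ.symm
  -- the residue action of `σ₁` comes from `Gal(F/B)`
  set P := Q.under (𝓞 B) with hP
  have : P.IsMaximal := Ideal.IsMaximal.under (𝓞 B) Q
  have hcard : Nat.card (𝓞 B ⧸ P) = m := by
    rw [← Submodule.cardQuot_apply, ← Ideal.absNorm_apply, hP, hu Q hQ hmQ]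
    have hζ' : IsPrimitiveRoot (⟨η, IntermediateField.mem_adjoin_simple_self ℚ η⟩ : B) (m ^ (0 + 1)) := by
      simpa using hζ
    have : IsCyclotomicExtension {m ^ (0 + 1)} ℚ B := by
      rw [zero_add, pow_one]
      exact ‹IsCyclotomicExtension {m} ℚ B›
    exact IsCyclotomicExtension.Rat.absNorm_span_zeta_sub_one m 0 hζ'
  let e : (𝓞 F ⧸ Q) ≃+* (𝓞 F ⧸ Q) := Ideal.quotientEquiv Q Q
    (MulSemiringAction.toRingEquiv Gal(F/ℚ) (𝓞 F) σ₁) hstab.symm
  have hcomm : ∀ y : 𝓞 B ⧸ P, e (algebraMap (𝓞 B ⧸ P) (𝓞 F ⧸ Q) y) =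
      algebraMap (𝓞 B ⧸ P) (𝓞 F ⧸ Q) y := by
    intro y
    let _ : Field (𝓞 B ⧸ P) := Ideal.Quotient.field P
    have : CharP (𝓞 B ⧸ P) m := (CharP.charP_iff_prime_eq_zero hm.out).mpr (by
      rw [← map_natCast (Ideal.Quotient.mk P), Ideal.Quotient.eq_zero_iff_mem, hP,
        Ideal.mem_comap, map_natCast]
      exact hmQ)
    obtain ⟨c, rfl⟩ := ((Function.Injective.bijective_of_nat_card_le
      (f := ZMod.castHom (dvd_refl m) (𝓞 B ⧸ P)) (RingHom.injective _)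
      (by rw [hcard, Nat.card_zmod]))).2 y
    obtain ⟨k, rfl⟩ := ZMod.natCast_rightInverse.surjective c
    simp only [map_natCast]
  obtain ⟨τ', hτ'⟩ := Ideal.Quotient.stabilizerHom_surjective Gal(F/B) P Q
    (AlgEquiv.ofRingEquiv (f := e) hcomm)
  refine ⟨(resHom ℚ (τ' : Gal(F/B)))⁻¹ * σ₁, fun x => ?_, by
    rw [map_mul, map_inv, hfix, inv_one, one_mul, hσ₁]⟩
  have h1 : Ideal.Quotient.mk Q ((τ' : Gal(F/B)) • x) = Ideal.Quotient.mk Q (σ₁ • x) :=
    AlgEquiv.congr_fun hτ' (Ideal.Quotient.mk Q x)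
  rw [Ideal.Quotient.eq] at h1
  have h2 := Ideal.smul_mem_pointwise_smul (τ' : Gal(F/B))⁻¹ _ _ h1
  rw [show (τ' : Gal(F/B))⁻¹ • Q = Q from inv_smul_eq_iff.mpr τ'.2.symm, smul_sub,
    inv_smul_smul] at h2
  have h3 : ((resHom ℚ (τ' : Gal(F/B)))⁻¹ * σ₁) • x = (τ' : Gal(F/B))⁻¹ • σ₁ • x := by
    rw [mul_smul, ← map_inv]
    rfl
  show _ - x ∈ Q
  rw [h3, ← neg_sub]
  exact Q.neg_mem h2

/-- A prime of `F` over `m > 2` is not good. -/
theorem not_isGood_of_root {m : ℕ} [hm : Fact m.Prime] (h2 : 2 < m) {η : F}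
    (hη : IsPrimitiveRoot η m) {Q : HeightOneSpectrum (𝓞 F)} (hmQ : (m : 𝓞 F) ∈ Q.asIdeal) :
    ¬ IsGood Q := by
  intro hgood
  have : Fact (2 < m) := ⟨h2⟩
  have : NeZero m := ⟨hm.out.ne_zero⟩
  have : Q.asIdeal.IsMaximal := Q.isMaximal
  obtain ⟨σ, hσ, h⟩ := exists_inertia_autToPow hη Q.asIdeal hmQ (-1)
  rw [show Q.asIdeal.inertia Gal(F/ℚ) = ⊥ from hgood, Subgroup.mem_bot] at hσ
  rw [hσ, map_one] at h
  exact ZMod.neg_one_ne_one (congrArg Units.val h).symm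

end Fermat.Agent.LT.Recip
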