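import Mathlib.NumberTheory.NumberField.InfinitePlace.TotallyRealComplex

/-!
# Norms from totally complex fields are positive
-/

set_option autoImplicit false

noncomputable section

namespace Fermat.Agent.LT.Recip

open NumberField NumberField.InfinitePlace

/-- The norm from a totally complex field is nonnegative. -/
theorem norm_nonneg_of_isTotallyComplex {K : Type*} [Field K] [NumberField K] [IsTotallyComplex K]
    (x : K) : 0 ≤ Algebra.norm ℚ x := by
  classical
  have h : (∏ φ : K →+* ℂ, φ x) = ((∏ w : InfinitePlace K, (w x) ^ mult w : ℝ) : ℂ) := by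
    rw [← Finset.prod_fiberwise Finset.univ InfinitePlace.mk (fun φ : K →+* ℂ => φ x),
      Complex.ofReal_prod]
    refine Finset.prod_congr rfl fun w _ => ?_
    have hw : w.IsComplex := IsTotallyComplex.isComplex w
    have hne : w.embedding ≠ ComplexEmbedding.conjugate w.embedding := fun e =>
      (isComplex_iff.mp hw) e.symm
    have hset : (Finset.univ.filter fun φ => InfinitePlace.mk φ = w) =
        {w.embedding, ComplexEmbedding.conjugate w.embedding} := by
      ext φ
      simp only [Finset.mem_filter, Finset.mem_univ, true_and, Finset.mem_insert,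
        Finset.mem_singleton]
      conv_lhs => rw [← mk_embedding w, mk_eq_iff]
      constructor
      · rintro (rfl | h)
        · exact Or.inl rfl
        · right
          rw [← h]
          exact (star_star φ).symm
      · rintro (rfl | rfl)
        · exact Or.inl rfl
        · exact Or.inr (star_star w.embedding)
    rw [hset, Finset.prod_pair hne, mult, if_neg (not_isReal_iff_isComplex.mpr hw),
      Complex.ofReal_pow, ← norm_embedding_eq w x, ← Complex.mul_conj']
    rfl
  have hN : (∏ φ : K →+* ℂ, φ x) = ((Algebra.norm ℚ x : ℚ) : ℂ) := by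
    rw [← eq_ratCast (algebraMap ℚ ℂ), Algebra.norm_eq_prod_embeddings ℚ ℂ x]
    exact Fintype.prod_equiv (RingHom.equivRatAlgHom K ℂ) _ _ fun φ => by
      simp [RingHom.equivRatAlgHom_apply]
  have h0 : (0 : ℝ) ≤ (Algebra.norm ℚ x : ℝ) := by
    have he : ((Algebra.norm ℚ x : ℝ) : ℂ) = ((∏ w : InfinitePlace K, (w x) ^ mult w : ℝ) : ℂ) := by
      rw [← h, hN, Complex.ofReal_ratCast]
    rw [Complex.ofReal_inj.mp he]
    exact Finset.prod_nonneg fun w _ => by positivity
  exact_mod_cast h0

end Fermat.Agent.LT.Recip
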