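import Fermat.Agent.LT.Recip.NormResidue
import Fermat.Agent.LT.Recip.NormPos
import Mathlib.RingTheory.ClassGroup

/-!
# An unramified character which is cyclotomic is a class group character

If `χ` is unramified and factors through the cyclotomic characters modulo two primes `m₀`, `m₁`,
its symbol kills principal ideals prime to `m₀ m₁`, hence descends to the class group.
-/

set_option autoImplicit false
set_option linter.unusedSectionVars false

noncomputable section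

namespace Fermat.Agent.LT.Recip

open NumberField IsDedekindDomain UniqueFactorizationMonoid Fermat.Agent.S14
open Fermat.Agent.S14.Cross Fermat.Agent.S14.Cross.BridgeLevel
open scoped Pointwise nonZeroDivisors

section Descend

variable {E : Type} [Field E] [NumberField E] {A : Type} [CommGroup A]

/-- No prime factor of the ideal contains `n`. -/
def Away (n : ℕ) (I : Ideal (𝓞 E)) : Prop := ∀ P ∈ normalizedFactors I, (n : 𝓞 E) ∉ P

lemma Away.mul {n : ℕ} {I J : Ideal (𝓞 E)} (hI0 : I ≠ 0) (hJ0 : J ≠ 0) (hI : Away n I)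
    (hJ : Away n J) : Away n (I * J) := fun P hP => by
  rw [normalizedFactors_mul hI0 hJ0, Multiset.mem_add] at hP
  exact hP.elim (hI P) (hJ P)

lemma exists_mk0_eq_away {n : ℕ} (hn : n ≠ 0) (C : ClassGroup (𝓞 E)) :
    ∃ I : (Ideal (𝓞 E))⁰, ClassGroup.mk0 I = C ∧ Away n (I : Ideal (𝓞 E)) := by
  obtain ⟨a, ha⟩ := ClassGroup.mk0_surjective C⁻¹
  have ha0 : (a : Ideal (𝓞 E)) ≠ 0 := nonZeroDivisors.coe_ne_zero a
  set M : Ideal (𝓞 E) := Ideal.span {(n : 𝓞 E)}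
  have hM : M ≠ 0 := mt Ideal.span_singleton_eq_bot.mp (Nat.cast_ne_zero.mpr hn)
  obtain ⟨x, hx⟩ := IsDedekindDomain.exists_sup_span_eq
    (Ideal.mul_le_right : M * (a : Ideal (𝓞 E)) ≤ a) (mul_ne_zero hM ha0)
  obtain ⟨b, hb⟩ : (a : Ideal (𝓞 E)) ∣ Ideal.span {x} :=
    Ideal.dvd_iff_le.mpr (le_of_le_of_eq le_sup_right hx)
  have hsum : M ⊔ b = ⊤ := by
    have h : (a : Ideal (𝓞 E)) * (M ⊔ b) = (a : Ideal (𝓞 E)) * ⊤ := by
      rw [Ideal.mul_sup, ← hb, mul_comm _ M, hx, ← Ideal.one_eq_top, mul_one]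
    exact mul_left_cancel₀ ha0 h
  -- replace `x` if it vanishes
  by_cases hb0 : b = 0
  · subst hb0
    rw [Submodule.zero_eq_bot, sup_bot_eq] at hsum
    refine ⟨⟨(a : Ideal (𝓞 E)) ^ (Fintype.card (ClassGroup (𝓞 E)) - 1),
      mem_nonZeroDivisors_of_ne_zero (pow_ne_zero _ ha0)⟩, ?_, fun P hP h => ?_⟩
    · rw [show (⟨_, _⟩ : (Ideal (𝓞 E))⁰) = a ^ (Fintype.card (ClassGroup (𝓞 E)) - 1) from
        Subtype.ext (by simp), map_pow, ha]
      have := pow_card_eq_one (x := C⁻¹)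
      rw [← Nat.sub_add_cancel (Fintype.card_pos : 0 < Fintype.card (ClassGroup (𝓞 E))), pow_succ,
        mul_inv_eq_one] at this
      exact this
    · have hp := prime_of_normalized_factor P hP
      exact (Ideal.isPrime_of_prime hp).ne_top
        (top_le_iff.mp (hsum ▸ (Ideal.span_singleton_le_iff_mem _).mpr h))
  refine ⟨⟨b, mem_nonZeroDivisors_of_ne_zero hb0⟩, ?_, fun P hP h => ?_⟩
  · rw [← inv_inv C, ← ha, eq_inv_iff_mul_eq_one, mul_comm, ← map_mul]
    refine (ClassGroup.mk0_eq_one_iff (mul_mem a.2 (mem_nonZeroDivisors_of_ne_zero hb0))).mpr ?_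
    exact ⟨⟨x, hb.symm⟩⟩
  · have hp := prime_of_normalized_factor P hP
    exact (Ideal.isPrime_of_prime hp).ne_top (top_le_iff.mp (hsum ▸
      sup_le ((Ideal.span_singleton_le_iff_mem _).mpr h) (Ideal.le_of_dvd
        (dvd_of_mem_normalizedFactors hP))))

/-- A multiplicative function on ideals away from `n` killing principal ones descends to classes. -/
theorem exists_classGroupHom_of_away {n : ℕ} (hn : n ≠ 0) (f : Ideal (𝓞 E) → A)
    (hmul : ∀ I J, I ≠ 0 → J ≠ 0 → f (I * J) = f I * f J)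
    (hf : ∀ x : 𝓞 E, x ≠ 0 → Away n (Ideal.span {x}) → f (Ideal.span {x}) = 1) :
    ∃ Φ : ClassGroup (𝓞 E) →* A, ∀ I : (Ideal (𝓞 E))⁰, Away n (I : Ideal (𝓞 E)) →
      Φ (ClassGroup.mk0 I) = f I := by
  choose rep hrep haway using exists_mk0_eq_away (E := E) hn
  have h0 : ∀ I : (Ideal (𝓞 E))⁰, (I : Ideal (𝓞 E)) ≠ 0 := fun I => nonZeroDivisors.coe_ne_zero I
  have key : ∀ I J : (Ideal (𝓞 E))⁰, ClassGroup.mk0 I = ClassGroup.mk0 J →
      Away n (I : Ideal (𝓞 E)) → Away n (J : Ideal (𝓞 E)) → f I = f J := by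
    intro I J hIJ hI hJ
    set T := rep (ClassGroup.mk0 I)⁻¹
    have hz : ∀ U : (Ideal (𝓞 E))⁰, ClassGroup.mk0 U = ClassGroup.mk0 I →
        Away n (U : Ideal (𝓞 E)) → f U * f T = 1 := by
      intro U hU hUc
      have h1 : ClassGroup.mk0 (U * T) = 1 := by rw [map_mul, hU, hrep, mul_inv_cancel]
      have h2 : Submodule.IsPrincipal ((U : Ideal (𝓞 E)) * (T : Ideal (𝓞 E))) :=
        (ClassGroup.mk0_eq_one_iff (mul_mem U.2 T.2)).mp h1
      obtain ⟨x, hx⟩ := h2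
      have hx' : (U : Ideal (𝓞 E)) * (T : Ideal (𝓞 E)) = Ideal.span {x} := hx
      have hx0 : x ≠ 0 := fun h => mul_ne_zero (h0 U) (h0 T) (by
        rw [hx', h, Ideal.span_singleton_zero]; rfl)
      rw [← hmul _ _ (h0 U) (h0 T), hx']
      exact hf x hx0 (hx' ▸ Away.mul (h0 U) (h0 T) hUc (haway _))
    exact mul_right_cancel ((hz I rfl hI).trans (hz J hIJ.symm hJ).symm)
  refine ⟨MonoidHom.mk' (fun C => f (rep C)) fun C D => ?_,
    fun I hI => key _ _ (hrep _) (haway _) hI⟩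
  show f (rep (C * D)) = f (rep C) * f (rep D)
  rw [← hmul _ _ (h0 _) (h0 _)]
  exact key (rep (C * D)) (rep C * rep D) (by rw [map_mul, hrep, hrep, hrep]) (haway _)
    (Away.mul (h0 _) (h0 _) (haway C) (haway D))

end Descend

section Line

variable {E F : Type} [Field E] [NumberField E] [Field F] [NumberField F] [Algebra E F]
  [IsGalois E F] [IsGalois ℚ F] {A : Type} [CommGroup A]

lemma cyclo_frob {m : ℕ} [NeZero m] {η : F} (hη : IsPrimitiveRoot η m) {Q : Ideal (𝓞 F)}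
    [Q.IsMaximal] {σ : Gal(F/E)} (hσ : IsArithFrobAt (𝓞 E) σ Q)
    (hm : (m : 𝓞 E) ∉ Q.under (𝓞 E)) :
    ((cyclo E hη σ : (ZMod m)ˣ) : ZMod m) = (Ideal.absNorm (Q.under (𝓞 E)) : ℕ) := by
  refine (autToPow_eq_iff hη _ _).mpr ?_
  have h := AlgHom.IsArithFrobAt.apply_of_pow_eq_one hσ
    hη.toInteger_isPrimitiveRoot.pow_eq_one (by simpa [Ideal.mem_comap] using hm)
  rw [← Submodule.cardQuot_apply, ← Ideal.absNorm_apply] at h
  exact congrArg (algebraMap (𝓞 F) F) h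

lemma cyclo_eq_one_of_inertia {m : ℕ} [hm : Fact m.Prime] {η : F} (hη : IsPrimitiveRoot η m)
    {Q : Ideal (𝓞 F)} [Q.IsMaximal] (hmQ : (m : 𝓞 F) ∉ Q) {σ : Gal(F/E)}
    (hσ : σ ∈ Q.inertia Gal(F/E)) : cyclo E hη σ = 1 := by
  classical
  let := Ideal.Quotient.field Q
  set u := hη.autToPow ℚ (resHom ℚ σ)
  set i := (u : ZMod m).val
  set z := Ideal.Quotient.mk Q hη.toInteger with hz
  have hzero : z ^ i = z := by
    have h : Ideal.Quotient.mk Q (σ • hη.toInteger) = Ideal.Quotient.mk Q hη.toInteger :=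
      Ideal.Quotient.eq.mpr (hσ hη.toInteger)
    rw [hz, ← map_pow, ← h]
    refine congrArg _ (RingOfIntegers.ext ?_)
    exact hη.autToPow_spec ℚ (resHom ℚ σ)
  have hzm : z ^ m = 1 := by
    rw [hz, ← map_pow, hη.toInteger_isPrimitiveRoot.pow_eq_one, map_one]
  have hz1 : z ≠ 1 := by
    intro h1
    have hg := congrArg (Ideal.Quotient.mk Q)
      (hη.toInteger_isPrimitiveRoot.geom_sum_eq_zero hm.out.one_lt)
    rw [map_sum, map_zero] at hg
    simp only [map_pow] at hg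
    rw [← hz] at hg
    simp only [h1, one_pow, Finset.sum_const, Finset.card_range, nsmul_eq_mul, mul_one] at hg
    rw [← map_natCast (Ideal.Quotient.mk Q), Ideal.Quotient.eq_zero_iff_mem] at hg
    exact hmQ hg
  have hord : orderOf z = m := orderOf_eq_prime hzm hz1
  refine Units.ext ?_
  show ((u : (ZMod m)ˣ) : ZMod m) = 1
  have hi : i % m = 1 % m := by
    rw [← hord]
    exact (IsOfFinOrder.pow_eq_pow_iff_modEq (isOfFinOrder_iff_pow_eq_one.mpr
      ⟨m, hm.out.pos, hzm⟩)).mp (by rw [pow_one]; exact hzero)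
  rw [← ZMod.natCast_zmod_val (u : ZMod m), ← ZMod.natCast_mod, hi, ZMod.natCast_mod, Nat.cast_one]

variable {m₀ m₁ : ℕ} [h₀ : Fact m₀.Prime] [h₁ : Fact m₁.Prime] {η₀ η₁ : F}

lemma inertiaAt_le (hne : m₀ ≠ m₁) (hη₁ : IsPrimitiveRoot η₁ m₁) (χ : Gal(F/E) →* A)
    (hunr : ∀ P : Ideal (𝓞 E), P.IsMaximal → UnrAt χ P) {σ : Gal(F/E)}
    (hσ : σ ∈ inertiaAt E F m₀) : χ σ = 1 ∧ cyclo E hη₁ σ = 1 := by
  have hle : inertiaAt E F m₀ ≤ χ.ker ⊓ (cyclo E hη₁).ker := by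
    refine (Subgroup.closure_le _).mpr ?_
    rintro τ ⟨Q, hQ, hmQ, hτ⟩
    exact ⟨hunr _ (Ideal.IsMaximal.under (𝓞 E) Q) Q hQ rfl τ hτ, cyclo_eq_one_of_inertia hη₁
      (natCast_notMem_of_coprime hQ.ne_top ((Nat.coprime_primes h₀.out h₁.out).mpr hne) hmQ) hτ⟩
  exact hle hσ

/-- The symbol of an unramified cyclotomic character is a class group character. -/
theorem exists_classGroupHom_symb [IsTotallyComplex E] (χ : Gal(F/E) →* A)
    (hunr : ∀ P : Ideal (𝓞 E), P.IsMaximal → UnrAt χ P) (hne : m₀ ≠ m₁)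
    (hη₀ : IsPrimitiveRoot η₀ m₀) (hη₁ : IsPrimitiveRoot η₁ m₁)
    (hker : ∀ σ, cyclo E hη₀ σ = 1 → cyclo E hη₁ σ = 1 → χ σ = 1) :
    ∃ Φ : ClassGroup (𝓞 E) →* A, ∀ P : HeightOneSpectrum (𝓞 E), (m₀ : 𝓞 E) ∉ P.asIdeal →
      (m₁ : 𝓞 E) ∉ P.asIdeal → Φ (ClassGroup.mk0 (primeIdeal P)) = symb χ P.asIdeal := by
  classical
  have hn : m₀ * m₁ ≠ 0 := mul_ne_zero h₀.out.ne_zero h₁.out.ne_zero
  -- every ideal away from `m₀ m₁` has an element with the same symbol and norm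
  have hnorm : ∀ I : Ideal (𝓞 E), I ≠ 0 → Away (m₀ * m₁) I → ∃ σ : Gal(F/E),
      χ σ = idealSymb χ I ∧ ((cyclo E hη₀ σ : (ZMod m₀)ˣ) : ZMod m₀) = (Ideal.absNorm I : ℕ) ∧
        ((cyclo E hη₁ σ : (ZMod m₁)ˣ) : ZMod m₁) = (Ideal.absNorm I : ℕ) := by
    intro I hI0 hI
    induction I using UniqueFactorizationMonoid.induction_on_prime with
    | h₁ => exact absurd rfl hI0
    | h₂ I hu =>
      refine ⟨1, ?_⟩
      rw [Ideal.isUnit_iff.mp hu, ← Ideal.one_eq_top, idealSymb_one, map_one, map_one, map_one,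
        map_one]
      simp
    | h₃ I P hI0' hP ih =>
      have hP0 : P ≠ 0 := hP.ne_zero
      have : P.IsPrime := Ideal.isPrime_of_prime hP
      have : P.IsMaximal := Ideal.IsPrime.isMaximal this hP0
      rw [Away, normalizedFactors_mul hP0 hI0', normalizedFactors_irreducible hP.irreducible,
        normalize_eq] at hI
      have hPm := hI P (Multiset.mem_add.mpr (Or.inl (Multiset.mem_singleton_self P)))
      obtain ⟨σ, h1, h2, h3⟩ := ih hI0' fun P' h => hI P' (Multiset.mem_add.mpr (Or.inr h))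
      obtain ⟨Q, hQ, hQP⟩ := exists_prime_over (F := F) P
      obtain ⟨τ, hτ⟩ := exists_frob (K := E) Q
      have hm₀ : (m₀ : 𝓞 E) ∉ P := fun h => hPm (by rw [Nat.cast_mul]; exact P.mul_mem_right _ h)
      have hm₁ : (m₁ : 𝓞 E) ∉ P := fun h => hPm (by rw [Nat.cast_mul]; exact P.mul_mem_left _ h)
      refine ⟨τ * σ, ?_, ?_, ?_⟩
      · rw [map_mul, h1, idealSymb_mul χ hP0 hI0', idealSymb_prime χ hP0,
          symb_eq (hunr P ‹_›) hQ hQP hτ]
      · rw [map_mul, Units.val_mul, h2, cyclo_frob hη₀ hτ (hQP ▸ hm₀), hQP, ← Nat.cast_mul,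
          ← map_mul]
      · rw [map_mul, Units.val_mul, h3, cyclo_frob hη₁ hτ (hQP ▸ hm₁), hQP, ← Nat.cast_mul,
          ← map_mul]
  obtain ⟨Φ, hΦ⟩ := exists_classGroupHom_of_away hn (idealSymb χ)
    (fun I J hI hJ => idealSymb_mul χ hI hJ) (by
      intro y hy hy'
      obtain ⟨σ, h1, h2, h3⟩ := hnorm _ (mt Ideal.span_singleton_eq_bot.mp hy) hy'
      have hpos : (Ideal.absNorm (Ideal.span {y}) : ℤ) = Algebra.norm ℤ y := by
        rw [Ideal.absNorm_span_singleton]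
        refine Int.natAbs_of_nonneg ?_
        have := norm_nonneg_of_isTotallyComplex (y : E)
        rw [← Algebra.coe_norm_int] at this
        exact_mod_cast this
      have e₀ : ((cyclo E hη₀ σ : (ZMod m₀)ˣ) : ZMod m₀) = ((Algebra.norm ℤ y : ℤ) : ZMod m₀) := by
        rw [h2, ← hpos, Int.cast_natCast]
      have e₁ : ((cyclo E hη₁ σ : (ZMod m₁)ˣ) : ZMod m₁) = ((Algebra.norm ℤ y : ℤ) : ZMod m₁) := by
        rw [h3, ← hpos, Int.cast_natCast]
      obtain ⟨τ₀, hτ₀, ht₀⟩ := norm_mem_map_inertiaAt hη₀ e₀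
      obtain ⟨τ₁, hτ₁, ht₁⟩ := norm_mem_map_inertiaAt hη₁ e₁
      obtain ⟨a₀, b₀⟩ := inertiaAt_le hne hη₁ χ hunr hτ₀
      obtain ⟨a₁, b₁⟩ := inertiaAt_le (Ne.symm hne) hη₀ χ hunr hτ₁
      have := hker (σ * (τ₀ * τ₁)⁻¹) (by rw [map_mul, map_inv, map_mul, ht₀, b₁, mul_one,
        mul_inv_cancel]) (by rw [map_mul, map_inv, map_mul, ht₁, b₀, one_mul, mul_inv_cancel])
      rwa [map_mul, map_inv, map_mul, a₀, a₁, mul_one, inv_one, mul_one, h1] at this)
  refine ⟨Φ, fun P hP₀ hP₁ => ?_⟩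
  have hirr : normalizedFactors P.asIdeal = {P.asIdeal} := by
    rw [normalizedFactors_irreducible (Ideal.prime_of_isPrime P.ne_bot P.isPrime).irreducible,
      normalize_eq]
  rw [hΦ (primeIdeal P) fun R hR => ?_]
  · exact @idealSymb_prime _ _ _ _ _ _ _ _ _ _ χ _ P.isPrime P.ne_bot
  · have hR' : R ∈ normalizedFactors P.asIdeal := hR
    rw [hirr, Multiset.mem_singleton] at hR'
    rw [hR', Nat.cast_mul]
    exact fun h => (P.isPrime.mem_or_mem h).elim hP₀ hP₁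

end Line

end Fermat.Agent.LT.Recip
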