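import Fermat.Agent.LT.Recip.LineClass
import Fermat.Agent.LT.Recip.Index

/-!
# Pairs (class, symbol) along a cyclotomic line

For a subgroup `U ≤ Gal(F/K)` on which `χ` is cyclotomic, the pairs (class modulo split classes,
value of `χ`) of the degree one Frobenius elements in `U` form a group of order `#range χ`.
-/

set_option autoImplicit false
set_option linter.unusedSectionVars false

noncomputable section

namespace Fermat.Agent.LT.Recip

open NumberField IsDedekindDomain Fermat.Agent.S14 Fermat.Agent.S14.Cross Fermat.Agent.S14.Genus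
open IntermediateField (fixedField)
open scoped Pointwise nonZeroDivisors

variable {K F : Type} [Field K] [NumberField K] [Field F] [NumberField F] [Algebra K F]
  [IsGalois K F] [IsGalois ℚ F] {A : Type} [CommGroup A]

/-- The class of a prime modulo the split classes. -/
def quotClass (χ : Gal(F/K) →* A) (P : HeightOneSpectrum (𝓞 K)) :
    ClassGroup (𝓞 K) ⧸ splitClasses χ :=
  QuotientGroup.mk (ClassGroup.mk0 (primeIdeal P))

/-- The group generated by the pairs (class, value) of degree one Frobenius elements in `U`. -/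
def linePairs (χ : Gal(F/K) →* A) (U : Subgroup Gal(F/K)) :
    Subgroup ((ClassGroup (𝓞 K) ⧸ splitClasses χ) × A) :=
  Subgroup.closure {z | ∃ Q : HeightOneSpectrum (𝓞 F), ∃ σ ∈ U, IsGood Q ∧
    resHom ℚ σ = frob Q ∧ z = (quotClass χ (underP K Q), χ σ)}

lemma linePairs_mono (χ : Gal(F/K) →* A) {U U' : Subgroup Gal(F/K)} (h : U ≤ U') :
    linePairs χ U ≤ linePairs χ U' :=
  Subgroup.closure_mono fun _ ⟨Q, σ, hσ, h1, h2, h3⟩ => ⟨Q, σ, h hσ, h1, h2, h3⟩

/-- `Gal(F/E) → Gal(F/K)` for the fixed field `E` of `U` has range `U`. -/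
lemma resHom_range (U : Subgroup Gal(F/K)) :
    (resHom K (K' := fixedField U) (F := F)).range = U := by
  have h := IntermediateField.fixingSubgroup_fixedField U
  conv_rhs => rw [← h]
  ext σ
  constructor
  · rintro ⟨τ, rfl⟩
    exact (IntermediateField.mem_fixingSubgroup_iff _ _).mpr fun x hx => τ.commutes ⟨x, hx⟩
  · intro hσ
    exact ⟨AlgEquiv.ofRingEquiv (f := σ.toRingEquiv) fun x =>
      (IntermediateField.mem_fixingSubgroup_iff _ _).mp hσ _ x.2, AlgEquiv.ext fun _ => rfl⟩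

variable {m₀ m₁ : ℕ} [h₀ : Fact m₀.Prime] [h₁ : Fact m₁.Prime] {η₀ η₁ : F}

lemma frob_pow_absNorm_under {U : Subgroup Gal(F/K)} {Q : Ideal (𝓞 F)} [Q.IsMaximal]
    {σ : Gal(F/K)} (hσU : σ ∈ U) (hσ : IsArithFrobAt (𝓞 K) σ Q) :
    Ideal.relNorm (𝓞 K) (Q.under (𝓞 (fixedField U))) = Q.under (𝓞 K) := by
  classical
  set P' := Q.under (𝓞 (fixedField U))
  set P := Q.under (𝓞 K)
  have : P'.IsMaximal := Ideal.IsMaximal.under _ Q
  have : P.IsMaximal := Ideal.IsMaximal.under _ Q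
  have : P'.LiesOver P := ⟨(Ideal.under_under _).symm⟩
  set N := Ideal.absNorm P with hN
  have hN1 : 1 < N := by
    have h0 : P ≠ ⊥ := Ring.ne_bot_of_isMaximal_of_not_isField ‹_› (RingOfIntegers.not_isField K)
    rcases Nat.lt_or_ge 1 N with h | h
    · exact h
    · interval_cases hh : N
      · exact absurd (Ideal.absNorm_eq_zero_iff.mp hN.symm) h0
      · exact absurd (Ideal.absNorm_eq_one_iff.mp hN.symm) (Ideal.IsPrime.ne_top inferInstance)
  let _ : Field (𝓞 (fixedField U) ⧸ P') := Ideal.Quotient.field P'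
  have : Finite (𝓞 (fixedField U) ⧸ P') := finite_quotient_of_max P'
  cases nonempty_fintype (𝓞 (fixedField U) ⧸ P')
  have hle : Ideal.absNorm P' ≤ N := by
    rw [Ideal.absNorm_apply, Submodule.cardQuot_apply, Nat.card_eq_fintype_card, ← Finset.card_univ]
    refine le_trans ?_ ((Polynomial.card_roots' _).trans (FiniteField.X_pow_card_sub_X_natDegree_eq
      (𝓞 (fixedField U) ⧸ P') hN1).le)
    refine le_trans (Finset.card_le_card fun y _ => ?_) (Multiset.toFinset_card_le _)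
    obtain ⟨x, rfl⟩ := Ideal.Quotient.mk_surjective y
    rw [Multiset.mem_toFinset,
      Polynomial.mem_roots (FiniteField.X_pow_card_sub_X_ne_zero _ hN1)]
    have hx : σ • algebraMap _ (𝓞 F) x - algebraMap _ (𝓞 F) x ^ Nat.card (𝓞 K ⧸ P) ∈ Q :=
      hσ (algebraMap _ (𝓞 F) x)
    rw [← Submodule.cardQuot_apply, ← Ideal.absNorm_apply, ← hN,
      show σ • algebraMap (𝓞 (fixedField U)) (𝓞 F) x = algebraMap (𝓞 (fixedField U)) (𝓞 F) x from
        RingOfIntegers.ext ((IntermediateField.mem_fixedField_iff _ _).mp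
          (x : fixedField U).2 σ hσU), ← map_pow, ← map_sub] at hx
    simp only [Polynomial.IsRoot.def, Polynomial.eval_sub, Polynomial.eval_pow, Polynomial.eval_X,
      ← map_pow]
    exact sub_eq_zero.mpr (Ideal.Quotient.eq.mpr (hx : x - x ^ N ∈ P')).symm
  have hrel := Ideal.relNorm_eq_pow_of_isMaximal P' P
  have hn := congrArg Ideal.absNorm hrel
  rw [Ideal.absNorm_relNorm, map_pow, ← hN] at hn
  rw [hn] at hle
  have hf : P'.inertiaDeg (𝓞 K) ≤ 1 := (Nat.pow_le_pow_iff_right hN1).mp (by rwa [pow_one])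
  rcases Nat.le_one_iff_eq_zero_or_eq_one.mp hf with h | h
  · exfalso
    rw [h, pow_zero] at hn
    exact Ideal.IsPrime.ne_top inferInstance (Ideal.absNorm_eq_one_iff.mp hn : P' = ⊤)
  · rw [hrel, h, pow_one]

/-- The line lemma. -/
theorem linePairs_spec [IsTotallyComplex K] (χ : Gal(F/K) →* A)
    (hunr : ∀ P : Ideal (𝓞 K), P.IsMaximal → UnrAt χ P) (U : Subgroup Gal(F/K))
    (hsurj : U.map χ = χ.range) (hne : m₀ ≠ m₁) (h2₀ : 2 < m₀) (h2₁ : 2 < m₁)
    (hη₀ : IsPrimitiveRoot η₀ m₀) (hη₁ : IsPrimitiveRoot η₁ m₁)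
    (hker : ∀ σ ∈ U, cyclo K hη₀ σ = 1 → cyclo K hη₁ σ = 1 → χ σ = 1) :
    Nat.card (linePairs χ U) = Nat.card χ.range ∧
      (linePairs χ U).map (MonoidHom.snd _ A) = χ.range ∧
      ∀ (Q : HeightOneSpectrum (𝓞 F)) (σ : Gal(F/K)), σ ∈ U →
        IsArithFrobAt (𝓞 K) σ Q.asIdeal → (m₀ : 𝓞 F) ∉ Q.asIdeal → (m₁ : 𝓞 F) ∉ Q.asIdeal →
          (quotClass χ (underP K Q), χ σ) ∈ linePairs χ U := by
  classical
  set E := fixedField U
  have : IsGalois E F := IsGalois.tower_top_of_isGalois K E F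
  have : IsTotallyComplex E := isTotallyComplex_of_algebra K E
  set χE := χ.comp (resHom K (K' := E) (F := F)) with hχE
  have hrangeE : χE.range = χ.range := by
    rw [hχE, MonoidHom.range_comp, resHom_range, hsurj]
  have hunrE : ∀ P : Ideal (𝓞 E), P.IsMaximal → UnrAt χE P := fun P hP =>
    unrAt_comp (hunr _ (Ideal.IsMaximal.under (𝓞 K) P))
  have hmemU : ∀ σ : Gal(F/E), resHom K σ ∈ U := fun σ => by
    have := resHom_range U
    exact this ▸ ⟨σ, rfl⟩
  obtain ⟨Λ, hΛ⟩ := exists_classGroupHom_symb χE hunrE hne hη₀ hη₁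
    fun σ e₀ e₁ => hker _ (hmemU σ) e₀ e₁
  set Φ : ClassGroup (𝓞 E) →* (ClassGroup (𝓞 K) ⧸ splitClasses χ) × A :=
    ((QuotientGroup.mk' (splitClasses χ)).comp (normClass K E)).prod Λ
  -- values of `Φ` at primes below primes of `F`
  have hfst : ∀ P' : HeightOneSpectrum (𝓞 E), ∀ P : HeightOneSpectrum (𝓞 K),
      Ideal.relNorm (𝓞 K) P'.asIdeal = P.asIdeal →
      (Φ (ClassGroup.mk0 (primeIdeal P'))).1 = quotClass χ P := fun P' P h => by
    show QuotientGroup.mk (normClass K E _) = _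
    rw [normClass_mk0]
    exact congrArg (fun I => QuotientGroup.mk (ClassGroup.mk0 I)) (Subtype.ext h)
  have haway : ∀ (Q : HeightOneSpectrum (𝓞 F)) (n : ℕ), (n : 𝓞 F) ∉ Q.asIdeal →
      (n : 𝓞 E) ∉ (underP E Q).asIdeal := fun Q n h h' => h (by
    have : algebraMap (𝓞 E) (𝓞 F) (n : 𝓞 E) ∈ Q.asIdeal := h'
    rwa [map_natCast] at this)
  have hgood : ∀ (Q : HeightOneSpectrum (𝓞 F)) (σ : Gal(F/E)), IsGood Q → resHom ℚ σ = frob Q →
      Φ (ClassGroup.mk0 (primeIdeal (underP E Q))) =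
        (quotClass χ (underP K Q), χ (resHom K σ)) := by
    intro Q σ hQ hσ
    have hσK : resHom ℚ (resHom K σ) = frob Q := hσ
    have hK := prime_absNorm_underP (K := K) hQ ⟨_, hσK⟩
    have hE := prime_absNorm_underP (K := E) hQ ⟨_, hσ⟩
    refine Prod.ext (hfst _ _ (relNorm_under_eq Q hK.1 (hE.2.trans hK.2.symm))) ?_
    show Λ _ = _
    rw [hΛ _ (haway Q m₀ fun h => not_isGood_of_root h2₀ hη₀ h hQ)
      (haway Q m₁ fun h => not_isGood_of_root h2₁ hη₁ h hQ), symb_underP χE hQ hσ]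
    rfl
  -- upper bound
  have hcard : Nat.card Φ.range ≤ Nat.card χ.range := by
    rw [← Subgroup.index_ker, ← hrangeE]
    refine le_trans (Nat.le_of_dvd (Nat.pos_of_ne_zero Subgroup.FiniteIndex.index_ne_zero)
      (Subgroup.index_dvd_of_le ((Subgroup.closure_le _).mpr ?_))) (index_splitClasses_le χE)
    rintro _ ⟨P', hP', rfl⟩
    obtain ⟨Q, σ, hQ, rfl, hσ, hχ⟩ := exists_of_mem_splitSet hP'
    show Φ _ = 1
    have hone : χ (resHom K σ) = 1 := hχ
    rw [hgood Q σ hQ hσ, hone]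
    refine Prod.ext ((QuotientGroup.eq_one_iff _).mpr (Subgroup.subset_closure
      ⟨underP K Q, ⟨⟨Q, hQ, rfl⟩, (prime_absNorm_underP hQ ⟨resHom K σ, hσ⟩).1, ?_⟩, rfl⟩)) rfl
    rw [symb_underP χ hQ (show resHom ℚ (resHom K σ) = frob Q from hσ), hone]
  have hle : linePairs χ U ≤ Φ.range := by
    refine (Subgroup.closure_le _).mpr ?_
    rintro _ ⟨Q, σ, hσU, hQ, hσ, rfl⟩
    obtain ⟨τ, rfl⟩ : σ ∈ (resHom K (K' := E) (F := F)).range := (resHom_range U).symm ▸ hσU
    exact ⟨_, hgood Q τ hQ hσ⟩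
  -- lower bound
  have hsnd : χ.range ≤ (linePairs χ U).map (MonoidHom.snd _ A) := by
    rw [← hrangeE, ← closure_symb_eq_range χE]
    refine (Subgroup.closure_le _).mpr ?_
    rintro _ ⟨P', ⟨⟨Q, hQ, hQP⟩, hp⟩, rfl⟩
    obtain rfl : underP E Q = P' := HeightOneSpectrum.ext hQP
    obtain ⟨σ, hσ⟩ : frob Q ∈ relGroup E F := frob_mem_of_prime hQ (by
      rw [← primeEquiv_underP, absNorm_primeEquiv]; exact hp)
    exact ⟨_, Subgroup.subset_closure ⟨Q, resHom K σ, hmemU σ, hQ, hσ, rfl⟩,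
      (symb_underP χE hQ hσ).symm⟩
  have hfin : Finite Φ.range := Finite.of_surjective _ Φ.rangeRestrict_surjective
  have hfin' : Finite (linePairs χ U) := Finite.of_injective _ (Subgroup.inclusion_injective hle)
  have hfin'' : Finite ((linePairs χ U).map (MonoidHom.snd _ A)) :=
    Finite.of_surjective (fun z : linePairs χ U => (⟨(z : (ClassGroup (𝓞 K) ⧸ splitClasses χ) × A).2, z, z.2, rfl⟩ :
      (linePairs χ U).map (MonoidHom.snd _ A))) (by rintro ⟨_, z, hz, rfl⟩; exact ⟨⟨z, hz⟩, rfl⟩)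
  have hlow : Nat.card χ.range ≤ Nat.card (linePairs χ U) :=
    (Subgroup.card_le_of_le hsnd).trans (Nat.card_le_card_of_surjective
      (fun z : linePairs χ U => (⟨(z : (ClassGroup (𝓞 K) ⧸ splitClasses χ) × A).2, z, z.2, rfl⟩ :
        (linePairs χ U).map (MonoidHom.snd _ A))) (by rintro ⟨_, z, hz, rfl⟩; exact ⟨⟨z, hz⟩, rfl⟩))
  have heq : linePairs χ U = Φ.range :=
    Subgroup.eq_of_le_of_card_ge hle (hcard.trans hlow)
  refine ⟨le_antisymm ((Subgroup.card_le_of_le hle).trans hcard) hlow, le_antisymm ?_ hsnd, ?_⟩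
  · rintro _ ⟨z, hz, rfl⟩
    refine (Subgroup.closure_le (K := χ.range.comap (MonoidHom.snd _ A))).mpr ?_ hz
    rintro _ ⟨Q, σ, -, -, -, rfl⟩
    exact ⟨σ, rfl⟩
  intro Q σ hσU hσ hm₀ hm₁
  rw [heq]
  refine ⟨ClassGroup.mk0 (primeIdeal (underP E Q)), Prod.ext
    (hfst _ _ (have := Q.isMaximal; frob_pow_absNorm_under hσU hσ)) ?_⟩
  show Λ _ = χ σ
  have := Q.isMaximal
  have hmax : (Q.asIdeal.under (𝓞 E)).IsMaximal := Ideal.IsMaximal.under _ Q.asIdeal
  have hmaxK : (Q.asIdeal.under (𝓞 K)).IsMaximal := Ideal.IsMaximal.under _ Q.asIdeal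
  have hu : UnrAt χ ((Q.asIdeal.under (𝓞 E)).under (𝓞 K)) := by
    rw [Ideal.under_under]; exact hunr _ hmaxK
  rw [hΛ _ (haway Q m₀ hm₀) (haway Q m₁ hm₁)]
  show symb χE (Q.asIdeal.under (𝓞 E)) = χ σ
  rw [hχE, symb_comp (Q.asIdeal.under (𝓞 E)) hu, frob_pow_absNorm_under hσU hσ,
    idealSymb_prime χ (Ring.ne_bot_of_isMaximal_of_not_isField hmaxK (RingOfIntegers.not_isField K))]
  exact symb_eq (hunr _ hmaxK) Q.isMaximal rfl hσ

end Fermat.Agent.LT.Recip
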