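import Fermat.Agent.LT.Recip.Inertia
import Fermat.Agent.LT.Recip.SplitClasses
import Mathlib.RingTheory.Norm.Transitivity
import Mathlib.FieldTheory.PrimitiveElement
import Mathlib.GroupTheory.GroupAction.Quotient

/-!
# Norms modulo `m` lie in the cyclotomic image of inertia

For `E ⊆ F` and a prime `m` with an `m`-th root of unity in `F`, norms from `E` of elements prime to
`m` are, modulo `m`, cyclotomic values of products of inertia elements of `Gal(F/E)` at `m`.
-/

set_option autoImplicit false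
set_option linter.unusedSectionVars false

noncomputable section

namespace Fermat.Agent.LT.Recip

open NumberField IsDedekindDomain Fermat.Agent.S14.Cross Fermat.Agent.S14.Cross.BridgeLevel
open scoped Pointwise

variable {E F : Type} [Field E] [NumberField E] [Field F] [NumberField F] [Algebra E F]
  [IsGalois E F] [IsGalois ℚ F] {m : ℕ} [hm : Fact m.Prime]

instance : NeZero m := ⟨hm.out.ne_zero⟩

instance : Fintype (Gal(F/ℚ) ⧸ relGroup E F) := Fintype.ofFinite _

/-- The cyclotomic character of a relative Galois group. -/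
def cyclo (E : Type) {F : Type} [Field E] [NumberField E] [Field F] [NumberField F] [Algebra E F]
    {m : ℕ} [NeZero m] {η : F} (hη : IsPrimitiveRoot η m) : Gal(F/E) →* (ZMod m)ˣ :=
  (hη.autToPow ℚ).comp (resHom ℚ)

/-- The subgroup generated by inertia at the primes over `m`. -/
def inertiaAt (E F : Type) [Field E] [NumberField E] [Field F] [NumberField F] [Algebra E F]
    (m : ℕ) : Subgroup Gal(F/E) :=
  Subgroup.closure {σ | ∃ Q : Ideal (𝓞 F), Q.IsMaximal ∧ (m : 𝓞 F) ∈ Q ∧ σ ∈ Q.inertia Gal(F/E)}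

lemma card_quotient_relGroup :
    Nat.card (Gal(F/ℚ) ⧸ relGroup E F) = Module.finrank ℚ E := by
  have h : Nat.card (Gal(F/ℚ) ⧸ relGroup E F) * Nat.card (relGroup E F) = Nat.card Gal(F/ℚ) :=
    (Subgroup.card_eq_card_quotient_mul_card_subgroup _).symm
  rw [card_relGroup, IsGalois.card_aut_eq_finrank, IsGalois.card_aut_eq_finrank,
    ← Module.finrank_mul_finrank ℚ E F] at h
  exact Nat.eq_of_mul_eq_mul_right Module.finrank_pos h

/-- The cosets of `Gal(F/E)` give the embeddings of `E`. -/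
lemma algebraMap_norm_eq_prod_cosets (x : E) :
    algebraMap ℚ F (Algebra.norm ℚ x) =
      ∏ c : Gal(F/ℚ) ⧸ relGroup E F, Quotient.out c (algebraMap E F x) := by
  classical
  set ι := IsScalarTower.toAlgHom ℚ F (AlgebraicClosure F)
  let emb : Gal(F/ℚ) ⧸ relGroup E F → (E →ₐ[ℚ] AlgebraicClosure F) := fun c =>
    ι.comp ((Quotient.out c : Gal(F/ℚ)).toAlgHom.comp (IsScalarTower.toAlgHom ℚ E F))
  have hinj : Function.Injective emb := fun c d h => by
    have hfix : ∀ a : E, Quotient.out c (algebraMap E F a) = Quotient.out d (algebraMap E F a) :=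
      fun a => ι.injective (AlgHom.congr_fun h a)
    rw [← QuotientGroup.out_eq' c, ← QuotientGroup.out_eq' d, QuotientGroup.eq]
    let g : Gal(F/E) := AlgEquiv.ofRingEquiv
      (f := ((Quotient.out c : Gal(F/ℚ))⁻¹ * Quotient.out d).toRingEquiv) fun a => by
        show (Quotient.out c : Gal(F/ℚ))⁻¹ (Quotient.out d (algebraMap E F a)) = _
        rw [← hfix, ← AlgEquiv.mul_apply, inv_mul_cancel, AlgEquiv.one_apply]
    exact ⟨g, AlgEquiv.ext fun a => rfl⟩
  have hbij : Function.Bijective emb := by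
    refine hinj.bijective_of_nat_card_le ?_
    rw [card_quotient_relGroup, Nat.card_eq_fintype_card, AlgHom.card]
  refine ι.injective ?_
  show ι (algebraMap ℚ F (Algebra.norm ℚ x)) = ι _
  rw [map_prod, AlgHom.commutes, Algebra.norm_eq_prod_embeddings ℚ (AlgebraicClosure F) x]
  exact (Fintype.prod_bijective emb hbij _ _ fun c => rfl).symm

variable {η : F} (hη : IsPrimitiveRoot η m)

/-- The orbit counting behind `norm_mem_map_inertiaAt`. -/
lemma dvd_card_stab_orbit_mul (Q : Ideal (𝓞 F)) [Q.IsMaximal] (hmQ : (m : 𝓞 F) ∈ Q)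
    (c : Gal(F/ℚ) ⧸ relGroup E F) :
    m - 1 ∣ Nat.card (MulAction.orbit (Q.inertia Gal(F/ℚ)) c) *
      Nat.card ((inertiaAt E F m).map (cyclo E hη)) := by
  set I := Q.inertia Gal(F/ℚ)
  set κ : I →* (ZMod m)ˣ := (hη.autToPow ℚ).comp I.subtype
  have hκ : Function.Surjective κ := fun a => by
    obtain ⟨σ, hσ, h⟩ := exists_inertia_autToPow hη Q hmQ a
    exact ⟨⟨σ, hσ⟩, h⟩
  set J := MulAction.stabilizer I c
  have h1 : (J.map κ).index ∣ Nat.card (MulAction.orbit I c) := by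
    rw [Nat.card_coe_set_eq, ← MulAction.index_stabilizer]
    exact Subgroup.index_map_dvd (H := J) hκ
  have h2 : J.map κ ≤ (inertiaAt E F m).map (cyclo E hη) := by
    rintro _ ⟨σ, hσ, rfl⟩
    obtain ⟨g, rfl⟩ := QuotientGroup.mk_surjective c
    have hmem : g⁻¹ * (σ : Gal(F/ℚ)) * g ∈ relGroup E F := by
      have h := (MulAction.mem_stabilizer_iff.mp hσ :)
      change QuotientGroup.mk ((σ : Gal(F/ℚ)) * g) = (QuotientGroup.mk g : Gal(F/ℚ) ⧸ relGroup E F) at h
      rw [QuotientGroup.eq] at h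
      have := inv_mem h
      rwa [mul_inv_rev, inv_inv, ← mul_assoc] at this
    obtain ⟨τ, hτ⟩ := hmem
    refine ⟨τ, Subgroup.subset_closure ⟨g⁻¹ • Q, ?_, ?_, fun x => ?_⟩, ?_⟩
    · exact Ideal.map_isMaximal_of_equiv (MulSemiringAction.toRingEquiv Gal(F/ℚ) (𝓞 F) g⁻¹)
    · have h := Ideal.smul_mem_pointwise_smul g⁻¹ _ _ hmQ
      rwa [show g⁻¹ • (m : 𝓞 F) = m from
        map_natCast (MulSemiringAction.toRingEquiv Gal(F/ℚ) (𝓞 F) g⁻¹) _] at h
    · have h := Ideal.smul_mem_pointwise_smul g⁻¹ _ _ (σ.2 (g • x))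
      rw [smul_sub, inv_smul_smul, smul_smul, smul_smul, ← hτ] at h
      exact h
    · show hη.autToPow ℚ (resHom ℚ τ) = hη.autToPow ℚ (σ : Gal(F/ℚ))
      rw [hτ, map_mul, map_mul, map_inv, mul_comm _ (hη.autToPow ℚ (σ : Gal(F/ℚ))),
        inv_mul_cancel_right]
  have h3 : (J.map κ).index * Nat.card (J.map κ) = m - 1 := by
    rw [Subgroup.index_mul_card, Nat.card_eq_fintype_card, ZMod.card_units]
  rw [← h3]
  exact Nat.mul_dvd_mul h1 (Subgroup.card_dvd_of_le h2)

/-- Norms prime to `m` are, modulo `m`, cyclotomic values of inertia elements. -/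
theorem norm_mem_map_inertiaAt {y : 𝓞 E} {u : (ZMod m)ˣ}
    (hu : (u : ZMod m) = ((Algebra.norm ℤ y : ℤ) : ZMod m)) :
    u ∈ (inertiaAt E F m).map (cyclo E hη) := by
  classical
  set W := (inertiaAt E F m).map (cyclo E hη)
  suffices hpow : u ^ Nat.card W = 1 by
    have hle : (Finset.univ.filter fun a : (ZMod m)ˣ => a ^ Nat.card W = 1).card ≤ Nat.card W :=
      IsCyclic.card_pow_eq_one_le Nat.card_pos
    have hsub : Finset.univ.filter (fun a => a ∈ W) ⊆
        Finset.univ.filter fun a : (ZMod m)ˣ => a ^ Nat.card W = 1 := fun a ha =>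
      Finset.mem_filter.mpr ⟨Finset.mem_univ _, by
        exact congrArg Subtype.val
          (pow_card_eq_one' (x := (⟨a, (Finset.mem_filter.mp ha).2⟩ : W)))⟩
    have hcardW : (Finset.univ.filter (fun a => a ∈ W)).card = Nat.card W := by
      rw [Nat.card_eq_fintype_card, Fintype.card_subtype]
    have := Finset.eq_of_subset_of_card_le hsub (hle.trans_eq hcardW.symm)
    exact (Finset.mem_filter.mp (this ▸ Finset.mem_filter.mpr ⟨Finset.mem_univ u, hpow⟩ :
      u ∈ Finset.univ.filter (fun a => a ∈ W))).2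
  set w := Nat.card W
  -- a prime over `m`
  obtain ⟨Q, hQ, hle⟩ := Ideal.exists_le_maximal (Ideal.span {(m : 𝓞 F)}) (by
    intro h
    have h1 := (Ideal.span_singleton_eq_top.mp h).map (Algebra.norm ℤ)
    rw [show (m : 𝓞 F) = algebraMap ℤ (𝓞 F) (m : ℤ) by simp, Algebra.norm_algebraMap,
      RingOfIntegers.rank, Int.isUnit_iff_natAbs_eq, Int.natAbs_pow, Int.natAbs_natCast] at h1
    exact hm.out.ne_one ((pow_eq_one_iff_of_nonneg (Nat.zero_le _) Module.finrank_pos.ne').mp h1))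
  have hmQ : (m : 𝓞 F) ∈ Q := hle (Ideal.mem_span_singleton_self _)
  let := Ideal.Quotient.field Q
  set I := Q.inertia Gal(F/ℚ)
  set Y : 𝓞 F := algebraMap (𝓞 E) (𝓞 F) y
  have hwell : ∀ g g' : Gal(F/ℚ), g⁻¹ * g' ∈ relGroup E F → g' • Y = g • Y := by
    rintro g g' ⟨τ, hτ⟩
    rw [← mul_inv_cancel_left g g', ← hτ, mul_smul]
    exact congrArg (g • ·) (RingOfIntegers.ext (τ.commutes (y : E)))
  let X : Gal(F/ℚ) ⧸ relGroup E F → 𝓞 F ⧸ Q := fun c =>
    Quotient.liftOn' c (fun g => Ideal.Quotient.mk Q (g • Y)) fun g g' h =>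
      congrArg _ (hwell g g' (QuotientGroup.leftRel_apply.mp h)).symm
  have hXmk : ∀ g : Gal(F/ℚ), X (QuotientGroup.mk g) = Ideal.Quotient.mk Q (g • Y) := fun _ => rfl
  have hN : Ideal.Quotient.mk Q ((Algebra.norm ℤ y : ℤ) : 𝓞 F) = ∏ c, X c := by
    have hcoe : ((Algebra.norm ℤ y : ℤ) : 𝓞 F) =
        ∏ c : Gal(F/ℚ) ⧸ relGroup E F, (Quotient.out c : Gal(F/ℚ)) • Y := by
      refine IsFractionRing.injective (𝓞 F) F ?_
      rw [map_intCast, map_prod]
      have h := algebraMap_norm_eq_prod_cosets (F := F) (y : E)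
      rw [← Algebra.coe_norm_int y, map_intCast] at h
      exact h
    rw [hcoe, map_prod]
    refine Finset.prod_congr rfl fun c _ => ?_
    rw [← hXmk, QuotientGroup.out_eq']
  -- Frobenius
  have hQ0 : Q ≠ ⊥ := Ring.ne_bot_of_isMaximal_of_not_isField hQ (RingOfIntegers.not_isField F)
  obtain ⟨φ, hφ⟩ := IsArithFrobAt.exists_of_isInvariant ℤ Gal(F/ℚ) Q
  have hcardm : Nat.card (ℤ ⧸ Q.under ℤ) = m := by
    have hmax : (Ideal.span {(m : ℤ)}).IsMaximal :=
      PrincipalIdealRing.isMaximal_of_irreducible (Nat.prime_iff_prime_int.mp hm.out).irreducible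
    rw [← hmax.eq_of_le (Ideal.IsPrime.ne_top (Ideal.IsPrime.under ℤ Q))
      ((Ideal.span_singleton_le_iff_mem _).mpr (by simpa [Ideal.mem_comap, Ideal.under_def] using hmQ)),
      Int.card_ideal_quot]
  have hXφ : ∀ c, X (φ • c) = X c ^ m := by
    intro c
    obtain ⟨g, rfl⟩ := QuotientGroup.mk_surjective c
    show Ideal.Quotient.mk Q ((φ * g) • Y) = _
    rw [mul_smul, ← hcardm]
    exact hφ.mk_apply _
  have hXI : ∀ (σ : I) c, X (σ • c) = X c := by
    intro σ c
    obtain ⟨g, rfl⟩ := QuotientGroup.mk_surjective c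
    show Ideal.Quotient.mk Q (((σ : Gal(F/ℚ)) * g) • Y) = _
    rw [mul_smul, hXmk, Ideal.Quotient.eq]
    exact σ.2 _
  have hnorm : ∀ σ : Gal(F/ℚ), σ ∈ I → φ * σ * φ⁻¹ ∈ I ∧ φ⁻¹ * σ * φ ∈ I := by
    have key : ∀ (ψ : Gal(F/ℚ)), ψ • Q = Q → ∀ σ ∈ I, ψ * σ * ψ⁻¹ ∈ I := fun ψ hψ σ hσ x => by
      have h := Ideal.smul_mem_pointwise_smul ψ _ _ (hσ (ψ⁻¹ • x))
      rw [hψ, smul_sub, smul_inv_smul, smul_smul, smul_smul] at h
      exact h
    intro σ hσ
    refine ⟨key φ hφ.mem_stabilizer σ hσ, ?_⟩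
    have := key φ⁻¹ (inv_smul_eq_iff.mpr hφ.mem_stabilizer.symm) σ hσ
    rwa [inv_inv] at this
  let π : Gal(F/ℚ) ⧸ relGroup E F → MulAction.orbitRel.Quotient I (Gal(F/ℚ) ⧸ relGroup E F) :=
    Quotient.mk''
  have hπ : ∀ c d, π c = π d ↔ ∃ σ : I, σ • d = c := fun c d =>
    Quotient.eq''.trans MulAction.mem_orbit_iff
  let Φ : MulAction.orbitRel.Quotient I (Gal(F/ℚ) ⧸ relGroup E F) ≃
      MulAction.orbitRel.Quotient I (Gal(F/ℚ) ⧸ relGroup E F) :=
    Quotient.congr (MulAction.toPerm φ) fun c d => by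
      show c ∈ MulAction.orbit I d ↔ φ • c ∈ MulAction.orbit I (φ • d)
      constructor
      · rintro ⟨σ, rfl⟩
        exact ⟨⟨φ * σ * φ⁻¹, (hnorm σ σ.2).1⟩, by
          show (φ * (σ : Gal(F/ℚ)) * φ⁻¹) • (φ • d) = φ • ((σ : Gal(F/ℚ)) • d)
          rw [smul_smul, inv_mul_cancel_right, mul_smul]⟩
      · rintro ⟨σ, hσ⟩
        exact ⟨⟨φ⁻¹ * σ * φ, (hnorm σ σ.2).2⟩, by
          show (φ⁻¹ * (σ : Gal(F/ℚ)) * φ) • d = c
          change (σ : Gal(F/ℚ)) • (φ • d) = φ • c at hσ
          rw [mul_smul, mul_smul, hσ, inv_smul_smul]⟩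
  let X' : MulAction.orbitRel.Quotient I (Gal(F/ℚ) ⧸ relGroup E F) → 𝓞 F ⧸ Q := fun o =>
    Quotient.liftOn' o X fun c d h => by
      obtain ⟨σ, rfl⟩ := h
      exact hXI σ d
  set e := fun o => (Finset.univ.filter fun c => π c = o).card with hedef
  have he : ∀ o, e (Φ o) = e o := by
    intro o
    refine (Finset.card_equiv (MulAction.toPerm φ) fun c => ?_).symm
    obtain ⟨d, rfl⟩ := Quotient.mk''_surjective o
    simp only [Finset.mem_filter, Finset.mem_univ, true_and]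
    exact (Φ.injective.eq_iff (a := π c) (b := π d)).symm
  have hdvd : ∀ o, m - 1 ∣ e o * w := by
    intro o
    obtain ⟨c, rfl⟩ := Quotient.mk''_surjective o
    have hec : e (π c) = Nat.card (MulAction.orbit I c) := by
      show (Finset.univ.filter fun d => π d = π c).card = _
      rw [Nat.card_coe_set_eq, ← Set.ncard_coe_finset]
      congr 1
      ext d
      simp only [Finset.coe_filter, Finset.mem_univ, true_and, Set.mem_setOf_eq, hπ,
        MulAction.mem_orbit_iff]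
    rw [show e (Quotient.mk'' c) = e (π c) from rfl, hec]
    exact dvd_card_stab_orbit_mul hη Q hmQ c
  have hchar : CharP (𝓞 F ⧸ Q) m := (CharP.charP_iff_prime_eq_zero hm.out).mpr (by
    rw [← map_natCast (Ideal.Quotient.mk Q), Ideal.Quotient.eq_zero_iff_mem]
    exact hmQ)
  have hu0 : ∏ c, X c ≠ 0 := fun h => u.ne_zero (by
    rw [hu]
    refine (ZMod.castHom (dvd_refl m) (𝓞 F ⧸ Q)).injective ?_
    rw [map_intCast, map_zero, ← map_intCast (Ideal.Quotient.mk Q), hN, h])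
  have hX0 : ∀ o, X' o ≠ 0 := by
    intro o
    obtain ⟨c, rfl⟩ := Quotient.mk''_surjective o
    exact Finset.prod_ne_zero_iff.mp hu0 c (Finset.mem_univ c)
  refine Units.ext ((ZMod.castHom (dvd_refl m) (𝓞 F ⧸ Q)).injective ?_)
  rw [Units.val_pow_eq_pow_val, Units.val_one, map_pow, map_one, hu, map_intCast,
    ← map_intCast (Ideal.Quotient.mk Q), hN, ← Finset.prod_pow]
  calc ∏ c, X c ^ w = ∏ c, (fun o => X' o ^ w) (π c) := rfl
    _ = ∏ o ∈ Finset.univ.image π, (X' o ^ w) ^ e o := Finset.prod_comp (fun o => X' o ^ w) π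
    _ = ∏ o, (X' o ^ w) ^ e o := by
        rw [Finset.image_univ_of_surjective Quotient.mk''_surjective]
    _ = ∏ o, (X' (Φ o) ^ (e o * w / (m - 1)) / X' o ^ (e o * w / (m - 1))) := by
        refine Finset.prod_congr rfl fun o _ => ?_
        obtain ⟨c, rfl⟩ := Quotient.mk''_surjective o
        have hΦ : X' (Φ (Quotient.mk'' c)) = X' (Quotient.mk'' c) ^ m := hXφ c
        rw [← pow_mul, hΦ, ← div_pow, eq_comm]
        have h1 : X' (Quotient.mk'' c) ^ m / X' (Quotient.mk'' c) =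
            X' (Quotient.mk'' c) ^ (m - 1) := by
          rw [pow_sub₀ _ (hX0 _) hm.out.one_le, pow_one, div_eq_mul_inv]
        rw [h1, ← pow_mul, Nat.mul_div_cancel' (hdvd _), mul_comm]
    _ = (∏ o, X' (Φ o) ^ (e o * w / (m - 1))) / ∏ o, X' o ^ (e o * w / (m - 1)) :=
        Finset.prod_div_distrib _ _
    _ = 1 := by
        rw [← Equiv.prod_comp Φ (fun o => X' o ^ (e o * w / (m - 1)))]
        simp only [he]
        exact div_self (Finset.prod_ne_zero_iff.mpr fun o _ => pow_ne_zero _ (hX0 _))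

end Fermat.Agent.LT.Recip
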