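import Fermat.Agent.LT.Recip.Basic
import Mathlib.GroupTheory.SpecificGroups.Cyclic
import Mathlib.RingTheory.IntegralDomain

/-!
# Killing tame inertia of exponent four

If `θ` is a root of `X ^ 4 + a₁ X + a₀`, Eisenstein at a prime `P` of odd residue characteristic,
then the inertia elements at `P` fixing `θ` are killed by every character of exponent four.
-/

set_option autoImplicit false
set_option linter.unusedSectionVars false

noncomputable section

namespace Fermat.Agent.LT.Recip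

open NumberField IsDedekindDomain UniqueFactorizationMonoid
open scoped Pointwise

variable {F : Type} [Field F] [NumberField F]

/-- The exponent of `Q` in `y`. -/
def qOrd (Q : Ideal (𝓞 F)) (y : 𝓞 F) : ℕ := by
  classical exact (normalizedFactors (Ideal.span {y})).count Q

lemma mem_pow_iff_le_qOrd {Q : Ideal (𝓞 F)} [hQ : Q.IsMaximal] {y : 𝓞 F} (hy : y ≠ 0) (n : ℕ) :
    y ∈ Q ^ n ↔ n ≤ qOrd Q y := by
  classical
  have hQ0 : Q ≠ ⊥ := Ring.ne_bot_of_isMaximal_of_not_isField hQ (RingOfIntegers.not_isField F)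
  have hirr := (Ideal.prime_of_isPrime hQ0 hQ.isPrime).irreducible
  rw [qOrd, ← Ideal.span_singleton_le_iff_mem, ← Ideal.dvd_iff_le,
    dvd_iff_normalizedFactors_le_normalizedFactors (pow_ne_zero n hQ0)
      (mt Ideal.span_singleton_eq_bot.mp hy), normalizedFactors_pow,
    normalizedFactors_irreducible hirr, normalize_eq, Multiset.nsmul_singleton,
    Multiset.le_count_iff_replicate_le]

lemma qOrd_mul (Q : Ideal (𝓞 F)) {y z : 𝓞 F} (hy : y ≠ 0) (hz : z ≠ 0) :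
    qOrd Q (y * z) = qOrd Q y + qOrd Q z := by
  classical
  rw [qOrd, qOrd, qOrd, ← Ideal.span_singleton_mul_span_singleton,
    normalizedFactors_mul (mt Ideal.span_singleton_eq_bot.mp hy)
      (mt Ideal.span_singleton_eq_bot.mp hz), Multiset.count_add]

lemma qOrd_pow (Q : Ideal (𝓞 F)) {y : 𝓞 F} (hy : y ≠ 0) (n : ℕ) :
    qOrd Q (y ^ n) = n * qOrd Q y := by
  classical
  rw [qOrd, qOrd, ← Ideal.span_singleton_pow, normalizedFactors_pow, Multiset.count_nsmul]

lemma eq_zero_of_forall_mem_pow {Q : Ideal (𝓞 F)} [Q.IsMaximal] {y : 𝓞 F}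
    (h : ∀ n, y ∈ Q ^ n) : y = 0 := by
  by_contra hy
  have := (mem_pow_iff_le_qOrd hy _).mp (h (qOrd Q y + 1))
  omega

lemma span_sup_pow_succ {Q : Ideal (𝓞 F)} [hQ : Q.IsMaximal] {π : 𝓞 F} (hπ : π ∈ Q)
    (hπ2 : π ∉ Q ^ 2) (n : ℕ) : Ideal.span {π ^ n} ⊔ Q ^ (n + 1) = Q ^ n := by
  have hQ0 : Q ≠ ⊥ := Ring.ne_bot_of_isMaximal_of_not_isField hQ (RingOfIntegers.not_isField F)
  have hπ0 : π ≠ 0 := fun h => hπ2 (h ▸ (Q ^ 2).zero_mem)
  have h1 : qOrd Q π = 1 := by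
    have h1 := (mem_pow_iff_le_qOrd (Q := Q) hπ0 1).mp (by rwa [pow_one])
    have h2 := mt (mem_pow_iff_le_qOrd (Q := Q) hπ0 2).mpr hπ2
    omega
  have hpn : π ^ n ∈ Q ^ n := Ideal.pow_mem_pow hπ n
  obtain ⟨i, hi, hI⟩ := (dvd_prime_pow (Ideal.prime_of_isPrime hQ0 hQ.isPrime) _).mp
    (Ideal.dvd_iff_le.mpr (le_sup_right : Q ^ (n + 1) ≤ Ideal.span {π ^ n} ⊔ Q ^ (n + 1)))
  rw [associated_iff_eq] at hI
  rcases Nat.lt_or_ge i (n + 1) with hlt | hge
  · refine le_antisymm (sup_le ((Ideal.span_singleton_le_iff_mem _).mpr hpn)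
      (Ideal.pow_le_pow_right n.le_succ)) ?_
    rw [hI]
    exact Ideal.pow_le_pow_right (by omega)
  · exfalso
    have hmem : π ^ n ∈ Q ^ (n + 1) := Ideal.pow_le_pow_right hge
      (hI ▸ (le_sup_left : _ ≤ Ideal.span {π ^ n} ⊔ Q ^ (n + 1))
        (Ideal.mem_span_singleton_self _))
    have := (mem_pow_iff_le_qOrd (pow_ne_zero n hπ0) _).mp hmem
    rw [qOrd_pow Q hπ0, h1] at this
    omega

section Inertia

variable {K : Type} [Field K] [NumberField K] [Algebra K F]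

lemma smul_mem_pow_of_inertia {Q : Ideal (𝓞 F)} {σ : Gal(F/K)} (hσ : σ ∈ Q.inertia Gal(F/K))
    {n : ℕ} {y : 𝓞 F} (hy : y ∈ Q ^ n) : σ • y ∈ Q ^ n := by
  have hle : Q.map (MulSemiringAction.toRingHom Gal(F/K) (𝓞 F) σ) ≤ Q := by
    refine Ideal.map_le_iff_le_comap.mpr fun x hx => ?_
    show σ • x ∈ Q
    have := Q.add_mem (hσ x) hx
    rwa [sub_add_cancel] at this
  have h := Ideal.mem_map_of_mem (MulSemiringAction.toRingHom Gal(F/K) (𝓞 F) σ) hy
  rw [Ideal.map_pow] at h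
  exact Ideal.pow_right_mono hle n h

lemma smul_sub_pow_mem {Q : Ideal (𝓞 F)} {σ : Gal(F/K)} (hσ : σ ∈ Q.inertia Gal(F/K)) {π : 𝓞 F}
    (hπ : π ∈ Q) {c : 𝓞 F} (hc : σ • π - c * π ∈ Q ^ 2) (n : ℕ) :
    σ • π ^ n - c ^ n * π ^ n ∈ Q ^ (n + 1) := by
  induction n with
  | zero => simp
  | succ n ih =>
    have h1 : σ • π ^ n ∈ Q ^ n := smul_mem_pow_of_inertia hσ (Ideal.pow_mem_pow hπ n)
    have e : σ • π ^ (n + 1) - c ^ (n + 1) * π ^ (n + 1) =
        σ • π ^ n * (σ • π - c * π) + c * ((σ • π ^ n - c ^ n * π ^ n) * π) := by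
      rw [pow_succ, smul_mul']; ring
    rw [e]
    refine add_mem ?_ (Ideal.mul_mem_left _ _ ?_)
    · have := Ideal.mul_mem_mul h1 hc
      rwa [← pow_add] at this
    · have := Ideal.mul_mem_mul ih hπ
      rwa [← pow_succ] at this

lemma smul_sub_mem_succ {Q : Ideal (𝓞 F)} [Q.IsMaximal] {σ : Gal(F/K)}
    (hσ : σ ∈ Q.inertia Gal(F/K)) {π : 𝓞 F} (hπ : π ∈ Q) (hπ2 : π ∉ Q ^ 2) {c : 𝓞 F}
    (hc : σ • π - c * π ∈ Q ^ 2) {n : ℕ} {y : 𝓞 F} (hy : y ∈ Q ^ n) :
    σ • y - c ^ n * y ∈ Q ^ (n + 1) := by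
  rw [← span_sup_pow_succ hπ hπ2 n] at hy
  obtain ⟨u, hu, w, hw, rfl⟩ := Submodule.mem_sup.mp hy
  obtain ⟨d, rfl⟩ := Ideal.mem_span_singleton'.mp hu
  have e : σ • (d * π ^ n + w) - c ^ n * (d * π ^ n + w) =
      σ • d * (σ • π ^ n - c ^ n * π ^ n) + c ^ n * ((σ • d - d) * π ^ n) +
        (σ • w - c ^ n * w) := by
    rw [smul_add, smul_mul']; ring
  rw [e]
  refine add_mem (add_mem (Ideal.mul_mem_left _ _ (smul_sub_pow_mem hσ hπ hc n))
    (Ideal.mul_mem_left _ _ ?_))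
    (sub_mem (smul_mem_pow_of_inertia hσ hw) (Ideal.mul_mem_left _ _ hw))
  have := Ideal.mul_mem_mul (hσ d) (Ideal.pow_mem_pow hπ n)
  rw [pow_succ']
  exact this

variable [IsGalois K F]

/-- Inertia elements fixing an Eisenstein quartic root are killed by characters of exponent four. -/
theorem map_eq_one_of_fixes_root {A : Type} [CommGroup A] (χ : Gal(F/K) →* A)
    (h4 : ∀ σ, χ σ ^ 4 = 1) {Q : Ideal (𝓞 F)} [hQ : Q.IsMaximal]
    (h2 : (2 : 𝓞 K) ∉ Q.under (𝓞 K)) {a₀ a₁ : 𝓞 K} (ha₀ : a₀ ∈ Q.under (𝓞 K))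
    (ha₀' : a₀ ∉ Q.under (𝓞 K) ^ 2) (ha₁ : a₁ ∈ Q.under (𝓞 K)) {θ : 𝓞 F}
    (hθ : θ ^ 4 + algebraMap (𝓞 K) (𝓞 F) a₁ * θ + algebraMap (𝓞 K) (𝓞 F) a₀ = 0)
    {σ : Gal(F/K)} (hσ : σ ∈ Q.inertia Gal(F/K)) (hfix : σ • θ = θ) : χ σ = 1 := by
  classical
  set P := Q.under (𝓞 K)
  have hP : P.IsMaximal := Ideal.IsMaximal.under (𝓞 K) Q
  have hP0 : P ≠ ⊥ := Ring.ne_bot_of_isMaximal_of_not_isField hP (RingOfIntegers.not_isField K)
  have hQ0 : Q ≠ ⊥ := Ring.ne_bot_of_isMaximal_of_not_isField hQ (RingOfIntegers.not_isField F)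
  have : Q.LiesOver P := ⟨rfl⟩
  have hinj := FaithfulSMul.algebraMap_injective (𝓞 K) (𝓞 F)
  have hmap0 : P.map (algebraMap (𝓞 K) (𝓞 F)) ≠ ⊥ := (Ideal.map_eq_bot_iff_of_injective hinj).not.mpr hP0
  set I := Q.inertia Gal(F/K)
  set e := Nat.card I
  have he : (normalizedFactors (P.map (algebraMap (𝓞 K) (𝓞 F)))).count Q = e := by
    have : Finite (𝓞 K ⧸ P) := finite_quotient_of_max P
    have : Finite P.ResidueField := Finite.of_surjective _
      (Ideal.bijective_algebraMap_quotient_residueField P).2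
    have : PerfectField P.ResidueField := PerfectField.ofFinite
    rw [show e = Ideal.ramificationIdxIn P (𝓞 F) from Ideal.card_inertia_eq_ramificationIdxIn P Q,
      Ideal.ramificationIdxIn_eq_ramificationIdx P Q Gal(F/K),
      Ideal.IsDedekindDomain.ramificationIdx_eq_normalizedFactors_count P Q hmap0]
  set b₀ := algebraMap (𝓞 K) (𝓞 F) a₀
  set b₁ := algebraMap (𝓞 K) (𝓞 F) a₁
  have hmemP : ∀ a ∈ P, algebraMap (𝓞 K) (𝓞 F) a ∈ Q ^ e := by
    intro a ha
    have hle : P.map (algebraMap (𝓞 K) (𝓞 F)) ≤ Q ^ e := by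
      rw [← Ideal.dvd_iff_le, dvd_iff_normalizedFactors_le_normalizedFactors (pow_ne_zero e hQ0)
        hmap0, normalizedFactors_pow, normalizedFactors_irreducible
          (Ideal.prime_of_isPrime hQ0 hQ.isPrime).irreducible, normalize_eq,
        Multiset.nsmul_singleton, ← Multiset.le_count_iff_replicate_le, he]
    exact hle (Ideal.mem_map_of_mem _ ha)
  have ha00 : a₀ ≠ 0 := fun h => ha₀' (h ▸ (P ^ 2).zero_mem)
  have hb₀ : b₀ ≠ 0 := fun h => ha00 (hinj (h.trans (map_zero _).symm))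
  have hord₀ : qOrd Q b₀ = e := by
    obtain ⟨J, hJ⟩ := Ideal.dvd_iff_le.mpr ((Ideal.span_singleton_le_iff_mem P).mpr ha₀)
    have hJP : ¬ J ≤ P := fun h => ha₀' (by
      rw [← Ideal.span_singleton_le_iff_mem, hJ, sq]
      exact Ideal.mul_mono_right h)
    have hJ0 : J ≠ ⊥ := fun h => hJP (h ▸ bot_le)
    have hJmap : J.map (algebraMap (𝓞 K) (𝓞 F)) ≠ ⊥ :=
      (Ideal.map_eq_bot_iff_of_injective hinj).not.mpr hJ0
    have hcount : (normalizedFactors (J.map (algebraMap (𝓞 K) (𝓞 F)))).count Q = 0 :=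
      Multiset.count_eq_zero.mpr fun h => hJP (Ideal.map_le_iff_le_comap.mp
        (Ideal.le_of_dvd (dvd_of_mem_normalizedFactors h)))
    rw [qOrd, show Ideal.span {b₀} = (Ideal.span {a₀}).map (algebraMap (𝓞 K) (𝓞 F)) by
      rw [Ideal.map_span, Set.image_singleton], hJ, Ideal.map_mul,
      normalizedFactors_mul hmap0 hJmap, Multiset.count_add, he, hcount, add_zero]
  have hepos : 0 < e := Nat.card_pos
  have hθ4 : θ ^ 4 = -(b₁ * θ) - b₀ := by linear_combination hθ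
  have hθ0 : θ ≠ 0 := fun h => hb₀ (by rw [h] at hθ4; linear_combination hθ4)
  set v := qOrd Q θ
  have hθQ : θ ∈ Q := hQ.isPrime.mem_of_pow_mem 4 (by
    rw [hθ4]
    refine sub_mem (neg_mem (Q.mul_mem_right _ ?_)) ?_
    · exact Ideal.pow_le_self hepos.ne' (hmemP a₁ ha₁)
    · exact Ideal.pow_le_self hepos.ne' (hmemP a₀ ha₀))
  have hv1 : 1 ≤ v := (mem_pow_iff_le_qOrd hθ0 1).mp (by rwa [pow_one])
  have hev : e = 4 * v := by
    refine le_antisymm ?_ ?_
    · rw [← qOrd_pow Q hθ0 4]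
      refine (mem_pow_iff_le_qOrd (pow_ne_zero 4 hθ0) e).mp ?_
      rw [hθ4]
      exact sub_mem (neg_mem (Ideal.mul_mem_right _ _ (hmemP a₁ ha₁))) (hmemP a₀ ha₀)
    · by_contra hlt
      push Not at hlt
      have hmem : b₀ ∈ Q ^ (e + 1) := by
        rw [show b₀ = -(b₁ * θ) - θ ^ 4 by linear_combination hθ]
        refine sub_mem (neg_mem ?_) ((mem_pow_iff_le_qOrd (pow_ne_zero 4 hθ0) _).mpr (by
          rw [qOrd_pow Q hθ0]; omega))
        have := Ideal.mul_mem_mul (hmemP a₁ ha₁) hθQ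
        rwa [← pow_succ] at this
      have := (mem_pow_iff_le_qOrd hb₀ _).mp hmem
      omega
  -- the tame character
  obtain ⟨π, hπ, hπ2⟩ : ∃ π, π ∈ Q ∧ π ∉ Q ^ 2 := SetLike.exists_of_lt (by
    have h := Ideal.pow_right_strictAnti Q hQ0 (Ideal.IsPrime.ne_top inferInstance) (show 1 < 2 by norm_num)
    simpa using h)
  have hex : ∀ τ : I, ∃ c, (τ : Gal(F/K)) • π - c * π ∈ Q ^ 2 := by
    intro τ
    have h1 : (τ : Gal(F/K)) • π ∈ Q ^ 1 := smul_mem_pow_of_inertia τ.2 (by rwa [pow_one])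
    rw [← span_sup_pow_succ hπ hπ2 1] at h1
    obtain ⟨u, hu, w, hw, huw⟩ := Submodule.mem_sup.mp h1
    obtain ⟨c, rfl⟩ := Ideal.mem_span_singleton'.mp hu
    exact ⟨c, by rw [← huw, pow_one, add_sub_cancel_left]; exact hw⟩
  choose c hc using hex
  have huniq : ∀ z : 𝓞 F, z * π ∈ Q ^ 2 → z ∈ Q := fun z hz => by
    by_cases hz0 : z = 0
    · exact hz0 ▸ Q.zero_mem
    have hπ0 : π ≠ 0 := fun h => hπ2 (h ▸ (Q ^ 2).zero_mem)
    have h2' := (mem_pow_iff_le_qOrd (mul_ne_zero hz0 hπ0) 2).mp hz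
    rw [qOrd_mul Q hz0 hπ0] at h2'
    have h1 := mt (mem_pow_iff_le_qOrd hπ0 2).mpr hπ2
    have := (mem_pow_iff_le_qOrd (Q := Q) hz0 1).mpr (by omega)
    rwa [pow_one] at this
  let t₀ : I →* 𝓞 F ⧸ Q :=
    { toFun := fun τ => Ideal.Quotient.mk Q (c τ)
      map_one' := by
        rw [← map_one (Ideal.Quotient.mk Q), Ideal.Quotient.eq]
        refine huniq _ ?_
        have h := hc 1
        rw [OneMemClass.coe_one, one_smul] at h
        have := Submodule.neg_mem _ h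
        convert this using 1
        ring
      map_mul' := fun τ τ' => by
        rw [← map_mul, Ideal.Quotient.eq]
        refine huniq _ ?_
        have h1 : ((τ * τ' : I) : Gal(F/K)) • π - c τ * c τ' * π ∈ Q ^ 2 := by
          have e1 : ((τ * τ' : I) : Gal(F/K)) • π - c τ * c τ' * π =
              (τ : Gal(F/K)) • ((τ' : Gal(F/K)) • π - c τ' * π) +
                ((τ : Gal(F/K)) • c τ') * ((τ : Gal(F/K)) • π - c τ * π) +
                c τ * (((τ : Gal(F/K)) • c τ' - c τ') * π) := by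
            rw [Subgroup.coe_mul, mul_smul, smul_sub, smul_mul']; ring
          rw [e1]
          refine add_mem (add_mem (smul_mem_pow_of_inertia τ.2 (hc τ'))
            (Ideal.mul_mem_left _ _ (hc τ))) (Ideal.mul_mem_left _ _ ?_)
          rw [sq]
          exact Ideal.mul_mem_mul (τ.2 (c τ')) hπ
        have := Submodule.sub_mem _ h1 (hc (τ * τ'))
        convert this using 1
        ring }
  set t : I →* (𝓞 F ⧸ Q)ˣ := t₀.toHomUnits
  have hpow : ∀ (τ : I) (n : ℕ) (y : 𝓞 F), y ∈ Q ^ n → t τ = 1 →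
      (τ : Gal(F/K)) • y - y ∈ Q ^ (n + 1) := by
    intro τ n y hy ht
    have h1 : c τ - 1 ∈ Q := by
      rw [← Ideal.Quotient.eq, map_one]
      exact congrArg Units.val ht
    have h2 := smul_sub_mem_succ τ.2 hπ hπ2 (hc τ) hy
    have h3 : (c τ ^ n - 1) * y ∈ Q ^ (n + 1) := by
      rw [pow_succ']
      refine Ideal.mul_mem_mul ?_ hy
      have := Ideal.mem_of_dvd _ (sub_one_dvd_pow_sub_one (c τ) n) h1
      exact this
    have := add_mem h2 h3
    convert this using 1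
    ring
  have hodd : Odd (Nat.card t.ker) := by
    rw [← Nat.not_even_iff_odd, even_iff_two_dvd]
    intro hdvd
    have : Fact (Nat.Prime 2) := ⟨Nat.prime_two⟩
    obtain ⟨τ, hτ⟩ := exists_prime_orderOf_dvd_card' 2 hdvd
    have hsq : (((τ : I) : Gal(F/K))) * ((τ : I) : Gal(F/K)) = 1 := by
      have := pow_orderOf_eq_one τ
      rw [hτ, sq] at this
      exact congrArg (fun z : t.ker => ((z : I) : Gal(F/K))) this
    have h2Q : (2 : 𝓞 F) ∉ Q := fun h => h2 (by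
      show algebraMap (𝓞 K) (𝓞 F) 2 ∈ Q
      rwa [map_ofNat])
    have hone : ((τ : I) : Gal(F/K)) = 1 := by
      have key : ∀ y : 𝓞 F, ((τ : I) : Gal(F/K)) • y = y := by
        intro y
        refine sub_eq_zero.mp (eq_zero_of_forall_mem_pow (Q := Q) fun n => ?_)
        induction n with
        | zero => simp
        | succ n ih =>
          by_cases hz : ((τ : I) : Gal(F/K)) • y - y = 0
          · rw [hz]; exact Submodule.zero_mem _
          have h := hpow (τ : I) n _ ih τ.2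
          rw [smul_sub, smul_smul, hsq, one_smul] at h
          have h' : (2 : 𝓞 F) * (((τ : I) : Gal(F/K)) • y - y) ∈ Q ^ (n + 1) := by
            have := Submodule.neg_mem _ h
            convert this using 1
            ring
          refine (mem_pow_iff_le_qOrd hz _).mpr ?_
          have h2ne : (2 : 𝓞 F) ≠ 0 := two_ne_zero
          have h20 : qOrd Q (2 : 𝓞 F) = 0 := by
            by_contra hne
            exact h2Q (by simpa using (mem_pow_iff_le_qOrd h2ne 1).mpr (Nat.pos_of_ne_zero hne))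
          have := (mem_pow_iff_le_qOrd (mul_ne_zero h2ne hz) _).mp h'
          rw [qOrd_mul Q h2ne hz, h20, zero_add] at this
          exact this
      refine AlgEquiv.ext fun z => ?_
      obtain ⟨a, b, -, rfl⟩ := IsFractionRing.div_surjective (A := 𝓞 F) z
      rw [map_div₀, AlgEquiv.one_apply]
      exact congrArg₂ (· / ·) (congrArg (algebraMap (𝓞 F) F) (key a))
        (congrArg (algebraMap (𝓞 F) F) (key b))
    have : τ = 1 := Subtype.ext (Subtype.ext hone)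
    rw [this, orderOf_one] at hτ
    exact absurd hτ (by norm_num)
  -- `t σ` is a fourth power
  have htv : t ⟨σ, hσ⟩ ^ v = 1 := by
    refine Units.ext ?_
    rw [Units.val_pow_eq_pow_val, Units.val_one]
    show Ideal.Quotient.mk Q (c ⟨σ, hσ⟩) ^ v = 1
    rw [← map_pow, ← map_one (Ideal.Quotient.mk Q), Ideal.Quotient.eq]
    have h := smul_sub_mem_succ hσ hπ hπ2 (hc ⟨σ, hσ⟩) ((mem_pow_iff_le_qOrd hθ0 v).mpr le_rfl)
    rw [hfix] at h
    have h' : (c ⟨σ, hσ⟩ ^ v - 1) * θ ∈ Q ^ (v + 1) := by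
      have := Submodule.neg_mem _ h
      convert this using 1
      ring
    by_cases hz : c ⟨σ, hσ⟩ ^ v - 1 = 0
    · rw [hz]; exact Q.zero_mem
    have h3 := (mem_pow_iff_le_qOrd (mul_ne_zero hz hθ0) _).mp h'
    rw [qOrd_mul Q hz hθ0] at h3
    have := (mem_pow_iff_le_qOrd (Q := Q) hz 1).mpr (by omega)
    rwa [pow_one] at this
  have : IsCyclic t.range := by
    have : Field (𝓞 F ⧸ Q) := Ideal.Quotient.field Q
    infer_instance
  obtain ⟨g, hg⟩ := IsCyclic.exists_generator (α := t.range)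
  obtain ⟨⟨ρ, hρ⟩, hgρ⟩ : ∃ ρ : I, t ρ = (g : (𝓞 F ⧸ Q)ˣ) := g.2
  obtain ⟨i, hi⟩ := Subgroup.mem_zpowers_iff.mp (hg ⟨t ⟨σ, hσ⟩, ⟨_, rfl⟩⟩)
  have hcard : Nat.card t.range * Nat.card t.ker = e := by
    rw [← Subgroup.index_ker, Subgroup.index_mul_card]
  have hord : orderOf g = Nat.card t.range := orderOf_eq_card_of_forall_mem_zpowers hg
  have hgv : g ^ (i * v) = 1 := by
    rw [zpow_mul, hi, zpow_natCast]
    exact Subtype.ext htv
  rw [← orderOf_dvd_iff_zpow_eq_one, hord] at hgv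
  have h4c : 4 ∣ Nat.card t.range := by
    refine (Nat.Coprime.dvd_mul_right ?_).mp (show 4 ∣ Nat.card t.range * Nat.card t.ker from
      hcard ▸ hev ▸ dvd_mul_right 4 v)
    exact (Nat.coprime_two_left.mpr hodd).pow_left 2
  have hi4 : (4 : ℤ) ∣ i := by
    obtain ⟨c', hc'⟩ := h4c
    have hv : v = Nat.card t.ker * c' := by
      rw [hev, hc'] at hcard
      linarith
    rw [hc', hv] at hgv
    push_cast at hgv
    have hc'0 : (c' : ℤ) ≠ 0 := by
      intro h
      have : Nat.card t.range = 0 := by rw [hc', Nat.cast_eq_zero.mp h, mul_zero]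
      exact Nat.card_pos.ne' this
    rw [show i * ((Nat.card t.ker : ℤ) * c') = i * Nat.card t.ker * c' by ring] at hgv
    have h5 := (mul_dvd_mul_iff_right hc'0).mp hgv
    obtain ⟨r, hr⟩ := hodd
    rw [hr] at h5
    push_cast at h5
    refine (Int.isCoprime_iff_gcd_eq_one.mpr ?_ : IsCoprime (4 : ℤ) (2 * r + 1)).dvd_of_dvd_mul_right h5
    have hco : Nat.Coprime (2 ^ 2) (2 * r + 1) := (Nat.coprime_two_left.mpr ⟨r, rfl⟩).pow_left 2
    exact_mod_cast hco
  obtain ⟨j, rfl⟩ := hi4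
  have hν : (⟨σ, hσ⟩ : I) * (⟨ρ, hρ⟩ ^ (4 * j))⁻¹ ∈ t.ker := by
    rw [MonoidHom.mem_ker, map_mul, map_inv, map_zpow, hgρ, mul_inv_eq_one]
    exact (congrArg Subtype.val hi).symm
  set ν : t.ker := ⟨_, hν⟩
  have hν1 : χ ((ν : I) : Gal(F/K)) = 1 := by
    have h1 : χ ((ν : I) : Gal(F/K)) ^ Nat.card t.ker = 1 := by
      rw [← map_pow, ← map_one χ]
      refine congrArg χ ?_
      have := congrArg (fun z : t.ker => ((z : I) : Gal(F/K))) (pow_card_eq_one' (x := ν))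
      simpa using this
    have h2' := (pow_gcd_eq_one (a := χ ((ν : I) : Gal(F/K)))).mpr ⟨h4 _, h1⟩
    rwa [show Nat.gcd 4 (Nat.card t.ker) = 1 from (Nat.coprime_two_left.mpr hodd).pow_left 2,
      pow_one] at h2'
  have : σ = ((ν : I) : Gal(F/K)) * ρ ^ (4 * j) := by
    show σ = σ * (ρ ^ (4 * j))⁻¹ * ρ ^ (4 * j)
    rw [inv_mul_cancel_right]
  rw [this, map_mul, hν1, one_mul, map_zpow, zpow_mul, show ((4 : ℤ)) = ((4 : ℕ) : ℤ) from rfl,
    zpow_natCast, h4, one_zpow]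

end Inertia

end Fermat.Agent.LT.Recip
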