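import Fermat.Agent.LT.Recip.Cross
import Fermat.Agent.LT.Recip.TameKill
import Mathlib.RingTheory.Polynomial.Eisenstein.Basic
import Mathlib.RingTheory.Norm.Basic
import Mathlib.RingTheory.Polynomial.GaussLemma
import Mathlib.LinearAlgebra.Matrix.Charpoly.Minpoly

/-!
# Reciprocity for tamely ramified characters of order dividing four

An element `x ≡ 1` at the bad primes is the norm of a unit from an extension `K'` totally ramified
of degree four at each of them; the inflated character is unramified over `K'`.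
-/

set_option autoImplicit false

noncomputable section

namespace Fermat.Agent.LT.Recip

open NumberField IsDedekindDomain Polynomial UniqueFactorizationMonoid
open scoped IntermediateField

variable {K F : Type} [Field K] [NumberField K] [Field F] [NumberField F] [Algebra K F]
  [IsGalois K F] [IsGalois ℚ F] {A : Type} [CommGroup A]

/-- The Eisenstein quartic. -/
def quartic {R : Type*} [CommRing R] (a₀ a₁ : R) : R[X] := X ^ 4 + (C a₁ * X + C a₀)

lemma quartic_natDegree {R : Type*} [CommRing R] [Nontrivial R] (a₀ a₁ : R) :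
    (quartic a₀ a₁).natDegree = 4 := by
  unfold quartic
  compute_degree!

lemma quartic_monic {R : Type*} [CommRing R] (a₀ a₁ : R) : (quartic a₀ a₁).Monic := by
  refine monic_X_pow_add (n := 4) ?_
  refine lt_of_le_of_lt (degree_linear_le) ?_
  norm_num

lemma quartic_map {R S : Type*} [CommRing R] [CommRing S] (f : R →+* S) (a₀ a₁ : R) :
    (quartic a₀ a₁).map f = quartic (f a₀) (f a₁) := by simp [quartic]

/-- There are Eisenstein coefficients with value `x` at `-1`. -/
lemma exists_coeffs (S : Finset (HeightOneSpectrum (𝓞 K))) {x : 𝓞 K}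
    (hx1 : ∀ P ∈ S, x - 1 ∈ P.asIdeal) :
    ∃ a₀ a₁ : 𝓞 K, (∀ P ∈ S, a₀ ∈ P.asIdeal ∧ a₀ ∉ P.asIdeal ^ 2 ∧ a₁ ∈ P.asIdeal) ∧
      (-1) ^ 4 + a₁ * -1 + a₀ = x := by
  classical
  have hsel : ∀ P : HeightOneSpectrum (𝓞 K), ∃ y, y ∈ P.asIdeal ∧ y ∉ P.asIdeal ^ 2 := fun P =>
    SetLike.exists_of_lt (by
      have h := Ideal.pow_right_strictAnti P.asIdeal P.ne_bot P.isPrime.ne_top (show 1 < 2 by norm_num)
      simpa using h)
  choose y hy hy2 using hsel
  obtain ⟨a₀, ha₀⟩ := IsDedekindDomain.exists_forall_sub_mem_ideal (s := S)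
    (fun P : HeightOneSpectrum (𝓞 K) => P.asIdeal) (fun _ => 2)
    (fun P _ => Ideal.prime_of_isPrime P.ne_bot P.isPrime)
    (fun P _ P' _ h h' => h (HeightOneSpectrum.ext h')) (fun P => y P.1)
  refine ⟨a₀, 1 + a₀ - x, fun P hP => ?_, by ring⟩
  have h2 := ha₀ P hP
  have h1 : a₀ ∈ P.asIdeal := by
    have := add_mem (Ideal.pow_le_self two_ne_zero h2) (hy P)
    rwa [sub_add_cancel] at this
  refine ⟨h1, fun h => hy2 P ?_, ?_⟩
  · have := sub_mem h h2
    rwa [sub_sub_cancel] at this
  · rw [show 1 + a₀ - x = a₀ - (x - 1) by ring]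
    exact sub_mem h1 (hx1 P hP)

/-- The Artin map kills the ray modulo the product of the bad primes. -/
theorem idealSymb_span_eq_one_of_tame [IsTotallyComplex K] (χ : Gal(F/K) →* A)
    (h4 : ∀ σ, χ σ ^ 4 = 1) [IsCyclic χ.range] (S : Finset (HeightOneSpectrum (𝓞 K)))
    (hS : ∀ P ∈ S, (2 : 𝓞 K) ∉ P.asIdeal)
    (hunr : ∀ P : HeightOneSpectrum (𝓞 K), P ∉ S → UnrAt χ P.asIdeal)
    {x : 𝓞 K} (hx : x ≠ 0) (hx1 : ∀ P ∈ S, x - 1 ∈ P.asIdeal) :
    idealSymb χ (Ideal.span {x}) = 1 := by
  classical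
  rcases S.eq_empty_or_nonempty with hS0 | ⟨P₀, hP₀⟩
  · exact idealSymb_span_eq_one_of_unramified χ h4 (fun P hP => hunr
      ⟨P, hP.isPrime, Ring.ne_bot_of_isMaximal_of_not_isField hP (RingOfIntegers.not_isField K)⟩
      (by simp [hS0])) hx
  obtain ⟨a₀, a₁, ha, hval⟩ := exists_coeffs S hx1
  set g := quartic a₀ a₁
  set gK := quartic (a₀ : K) (a₁ : K) with hgK
  have hgmap : g.map (algebraMap (𝓞 K) K) = gK := quartic_map _ _ _
  have hirr : Irreducible gK := by
    rw [← hgmap, ← (quartic_monic a₀ a₁).irreducible_iff_irreducible_map_fraction_map]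
    obtain ⟨h₀, h₀', h₁⟩ := ha P₀ hP₀
    refine (Polynomial.IsEisensteinAt.irreducible (𝓟 := P₀.asIdeal) ⟨?_, fun {n} hn => ?_, ?_⟩
      P₀.isPrime (quartic_monic a₀ a₁).isPrimitive ?_)
    · rw [(quartic_monic a₀ a₁).leadingCoeff]
      exact (Ideal.ne_top_iff_one _).mp P₀.isPrime.ne_top
    · rw [quartic_natDegree] at hn
      interval_cases n <;> simp [quartic, coeff_X, coeff_C, h₀, h₁]
    · simpa [quartic, coeff_X, coeff_C] using h₀'
    · rw [quartic_natDegree]; norm_num
  have hmonic : gK.Monic := quartic_monic _ _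
  -- a level with a root
  obtain ⟨θ₀, hθ₀⟩ := IsAlgClosed.exists_aeval_eq_zero (AlgebraicClosure K) gK (by
    rw [degree_eq_natDegree hmonic.ne_zero, quartic_natDegree]; norm_num)
  have halg : IsIntegral ℚ θ₀ :=
    isIntegral_trans (A := K) θ₀ ⟨gK, hmonic, by rwa [← aeval_def]⟩
  have hdvd : gK ∣ (minpoly ℚ θ₀).map (algebraMap ℚ K) := by
    rw [minpoly.eq_of_irreducible_of_monic hirr hθ₀ hmonic]
    exact minpoly.dvd_map_of_isScalarTower ℚ K θ₀
  obtain ⟨F', _, _, _, _, _, _, _, hsp⟩ := exists_extension K F _ (minpoly.ne_zero halg)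
  have hsp' : (gK.map (algebraMap K F')).Splits := by
    refine hsp.of_dvd ((Polynomial.map_ne_zero_iff (algebraMap ℚ F').injective).mpr
      (minpoly.ne_zero halg)) ?_
    rw [IsScalarTower.algebraMap_eq ℚ K F', ← Polynomial.map_map]
    exact Polynomial.map_dvd _ hdvd
  obtain ⟨θF, hθF⟩ := hsp'.exists_eval_eq_zero (by
    rw [degree_map, degree_eq_natDegree hmonic.ne_zero, quartic_natDegree]; norm_num)
  have hθev : aeval θF gK = 0 := by rwa [aeval_def, ← eval_map]
  set K' : IntermediateField K F' := K⟮θF⟯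
  have hθint : IsIntegral K θF := ⟨gK, hmonic, by rwa [← aeval_def]⟩
  set pb := IntermediateField.adjoin.powerBasis hθint
  have hmin : minpoly K θF = gK := (minpoly.eq_of_irreducible_of_monic hirr hθev hmonic).symm
  have hintZ : IsIntegral ℤ θF := by
    refine isIntegral_trans (A := 𝓞 K) θF ⟨g, quartic_monic _ _, ?_⟩
    rw [← aeval_def, ← aeval_map_algebraMap K, hgmap]
    exact hθev
  set θ : 𝓞 F' := ⟨θF, hintZ⟩
  set θ' : 𝓞 K' := ⟨pb.gen, (isIntegral_algHom_iff ((IntermediateField.val K').restrictScalars ℤ)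
    Subtype.val_injective).mp hintZ⟩
  -- the norm of `θ' + 1`
  have hnorm : Algebra.norm K ((θ' + 1 : 𝓞 K') : K') = (x : K) := by
    have hr : ((θ' + 1 : 𝓞 K') : K') = pb.gen + 1 := rfl
    rw [hr, Algebra.norm_eq_matrix_det pb.basis, map_add, map_one]
    have h := Matrix.eval_charpoly (Algebra.leftMulMatrix pb.basis pb.gen) (-1 : K)
    rw [charpoly_leftMulMatrix, show minpoly K pb.gen = gK by
      rw [← hmin, IntermediateField.adjoin.powerBasis_gen, IntermediateField.minpoly_gen]] at h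
    have hval' : gK.eval (-1 : K) = (x : K) := by
      have e := congrArg (algebraMap (𝓞 K) K) hval
      simp only [map_add, map_mul, map_pow, map_neg, map_one] at e
      simp [hgK, quartic]
      linear_combination e
    rw [hval'] at h
    have hneg : Algebra.leftMulMatrix pb.basis pb.gen + 1 =
        -(Matrix.scalar (Fin pb.dim) (-1 : K) - Algebra.leftMulMatrix pb.basis pb.gen) := by
      ext i j
      by_cases hij : i = j <;> simp [Matrix.one_apply, hij, add_comm]
    have hpow : ((-1 : K) ^ Fintype.card (Fin pb.dim)) = 1 := by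
      rw [Fintype.card_fin, IntermediateField.adjoin.powerBasis_dim, hmin, quartic_natDegree]
      norm_num
    rw [h, hneg, Matrix.det_neg, hpow, one_mul]
  have hrel : Ideal.relNorm (𝓞 K) (Ideal.span {θ' + 1}) = Ideal.span {x} := by
    rw [Ideal.relNorm_singleton]
    congr 2
    refine IsFractionRing.injective (𝓞 K) K ?_
    rw [Algebra.algebraMap_intNorm (A := 𝓞 K) (K := K) (L := K') (B := 𝓞 K')]
    exact hnorm
  have hr0 : θ' + 1 ≠ 0 := fun h => hx (by
    rw [h, Ideal.span_singleton_zero, Ideal.relNorm_bot, eq_comm, Ideal.span_singleton_eq_bot] at hrel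
    exact hrel)
  -- the unramified character upstairs
  set χ₁ := inflate (F := F') χ
  have hunr₁ : ∀ P : HeightOneSpectrum (𝓞 K), P ∉ S → UnrAt χ₁ P.asIdeal := fun P hP =>
    unrAt_inflate (hunr P hP)
  have h41 : ∀ σ, χ₁ σ ^ 4 = 1 := fun σ => h4 _
  have : IsGalois K' F' := IsGalois.tower_top_of_isGalois K K' F'
  have : NumberField K' := NumberField.of_module_finite K K'
  have : IsTotallyComplex K' := isTotallyComplex_of_algebra K K'
  set χ' := χ₁.comp (resHom K (K' := K') (F := F'))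
  have hunr' : ∀ P' : Ideal (𝓞 K'), P'.IsMaximal → UnrAt χ' P' := by
    intro P' hP' Q hQ hQP σ hσ
    have hPmax : (P'.under (𝓞 K)).IsMaximal := Ideal.IsMaximal.under _ P'
    set Pd : HeightOneSpectrum (𝓞 K) := ⟨P'.under (𝓞 K), hPmax.isPrime,
      Ring.ne_bot_of_isMaximal_of_not_isField hPmax (RingOfIntegers.not_isField K)⟩
    have hQK : Q.under (𝓞 K) = Pd.asIdeal := by
      show _ = P'.under (𝓞 K)
      rw [← hQP, Ideal.under_under]
    have hσ' : resHom K σ ∈ Q.inertia Gal(F'/K) := fun y => hσ y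
    by_cases hPS : Pd ∈ S
    · obtain ⟨h₀, h₀', h₁⟩ := ha Pd hPS
      refine map_eq_one_of_fixes_root χ₁ h41 (Q := Q) (a₀ := a₀) (a₁ := a₁) (θ := θ)
        (hQK.symm ▸ hS Pd hPS) (hQK.symm ▸ h₀) (hQK.symm ▸ h₀') (hQK.symm ▸ h₁) ?_ hσ' ?_
      · refine RingOfIntegers.ext ?_
        have e : θF ^ 4 + (algebraMap K F' (a₁ : K) * θF + algebraMap K F' (a₀ : K)) = 0 := by
          simpa [hgK, quartic] using hθev
        push_cast
        rw [add_assoc]
        exact e
      · exact RingOfIntegers.ext (σ.commutes pb.gen)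
    · exact hunr₁ Pd hPS Q hQ hQK _ hσ'
  have : IsCyclic χ'.range := by
    have hle : χ'.range ≤ χ.range := by
      rintro _ ⟨σ, rfl⟩
      exact ⟨_, rfl⟩
    exact isCyclic_of_injective (Subgroup.inclusion hle) (Subgroup.inclusion_injective hle)
  have h1 := idealSymb_span_eq_one_of_unramified χ' (fun σ => h41 _) hunr' hr0
  have hmem : ∀ P' ∈ normalizedFactors (Ideal.span {θ' + 1}), UnrAt χ₁ (P'.under (𝓞 K)) := by
    intro P' hP'
    have hp := prime_of_normalized_factor P' hP'
    have : P'.IsMaximal := (Ideal.isPrime_of_prime hp).isMaximal hp.ne_zero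
    have hPmax : (P'.under (𝓞 K)).IsMaximal := Ideal.IsMaximal.under _ P'
    refine hunr₁ ⟨P'.under (𝓞 K), hPmax.isPrime,
      Ring.ne_bot_of_isMaximal_of_not_isField hPmax (RingOfIntegers.not_isField K)⟩ fun hPS => ?_
    refine hPmax.ne_top ((Ideal.eq_top_iff_one _).mpr ?_)
    have hxP : x ∈ P'.under (𝓞 K) := by
      have hle := Ideal.relNorm_mono (𝓞 K) (Ideal.le_of_dvd (dvd_of_mem_normalizedFactors hP'))
      rw [hrel] at hle
      have : P'.LiesOver (P'.under (𝓞 K)) := ⟨rfl⟩
      rw [Ideal.relNorm_eq_pow_of_isMaximal P' (P'.under (𝓞 K))] at hle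
      exact Ideal.pow_le_self (Ideal.inertiaDeg_pos (R := 𝓞 K) (q := P')).ne'
        (hle (Ideal.mem_span_singleton_self x))
    have := sub_mem hxP (hx1 _ hPS)
    rwa [sub_sub_cancel] at this
  rw [idealSymb_comp (mt Ideal.span_singleton_eq_bot.mp hr0) hmem, hrel] at h1
  rw [← idealSymb_inflate (F := F') (χ := χ) fun P hP => ?_]
  · exact h1
  · have hp := prime_of_normalized_factor P hP
    refine hunr ⟨P, Ideal.isPrime_of_prime hp, hp.ne_zero⟩ fun hPS => ?_
    refine (Ideal.isPrime_of_prime hp).ne_top ((Ideal.eq_top_iff_one _).mpr ?_)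
    have := sub_mem (Ideal.le_of_dvd (dvd_of_mem_normalizedFactors hP)
      (Ideal.mem_span_singleton_self x)) (hx1 _ hPS)
    rwa [sub_sub_cancel] at this

end Fermat.Agent.LT.Recip
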